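import Fermat.Agent.Row24.Euler.Glued

/-!
# The Euler characteristic of glued bundles over fields

`Glued.chi` is `h⁰ - h¹`. It does not change under field extensions, is locally constant in
families, is `1 - g` on the trivial bundle, and drops by one when twisting down at the point.
-/

set_option autoImplicit false

noncomputable section

open TensorProduct

namespace Fermat.Agent.Row24.Chart.Glued

universe u

variable {k : Type u} [Field k] {C : CurveRings k}

section Field

variable {F : Type u} [Field F] [Algebra k F]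

/-- The Euler characteristic. -/
def chi (M : Glued C F) : ℤ := LinearMap.index (R := F) (M := M.M1 × M.M2) (N := M.carrier) M.cech

theorem hasFiniteIndex_cech (M : Glued C F) :
    HasFiniteIndex (K := F) (P := M.M1 × M.M2) (N := M.carrier) M.cech :=
  M.isFiniteComplex_cech.hasFiniteIndex

theorem hasFiniteIndex_cechO (M : Glued C F) :
    HasFiniteIndex (K := F) (P := M.M1 × M.M2O) (N := M.carrier) M.cechO :=
  M.isFiniteComplex_cechO.hasFiniteIndex

/-- One more condition on the second chart lowers the index by one. -/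
theorem index_cechDiff_comp_of_existsUnique {P₁ P₂ P₂' N : Type u} [AddCommGroup P₁] [Module F P₁]
    [AddCommGroup P₂] [Module F P₂] [AddCommGroup P₂'] [Module F P₂'] [AddCommGroup N]
    [Module F N] (r₁ : P₁ →ₗ[F] N) (r₂ : P₂ →ₗ[F] N) (j : P₂' →ₗ[F] P₂)
    (hj : Function.Injective j) (e : P₂) (hu : ∀ p : P₂, ∃! a : F, p - a • e ∈ LinearMap.range j)
    (hd : HasFiniteIndex (cechDiff r₁ r₂)) :
    (cechDiff r₁ (r₂ ∘ₗ j)).index = (cechDiff r₁ r₂).index - 1 := by
  let i : P₁ × P₂' →ₗ[F] P₁ × P₂ := LinearMap.prodMap LinearMap.id j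
  have hi : Function.Injective i :=
    Function.Injective.prodMap (f := id) (g := ⇑j) Function.injective_id hj
  let q : F →ₗ[F] (P₁ × P₂) ⧸ LinearMap.range i :=
    LinearMap.toSpanSingleton F _ (Submodule.Quotient.mk (0, e))
  have hq : Function.Bijective q := by
    constructor
    · refine (injective_iff_map_eq_zero _).2 fun a ha => ?_
      rw [LinearMap.toSpanSingleton_apply, ← Submodule.Quotient.mk_smul,
        Submodule.Quotient.mk_eq_zero] at ha
      obtain ⟨p, hp⟩ := ha
      have h2 : j p.2 = a • e := congrArg (fun w : P₁ × P₂ => w.2) hp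
      refine (hu 0).unique (y₁ := a) (y₂ := 0) ⟨-p.2, ?_⟩ ⟨0, by simp⟩
      rw [map_neg, h2, zero_sub]
    · intro w
      obtain ⟨p, rfl⟩ := Submodule.Quotient.mk_surjective _ w
      obtain ⟨a, ⟨r, hr⟩, -⟩ := hu p.2
      refine ⟨a, ?_⟩
      rw [LinearMap.toSpanSingleton_apply, ← Submodule.Quotient.mk_smul, Submodule.Quotient.eq]
      exact ⟨(-p.1, -r), by simp [i, hr, Prod.ext_iff]⟩
  let e' := LinearEquiv.ofBijective q hq
  have : FiniteDimensional F ((P₁ × P₂) ⧸ LinearMap.range i) := Module.Finite.equiv e'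
  have : Subsingleton (N ⧸ LinearMap.range (LinearMap.id : N →ₗ[F] N)) :=
    Submodule.Quotient.subsingleton_iff.mpr LinearMap.range_id
  have h := (index_subcomplex (d' := cechDiff r₁ (r₂ ∘ₗ j)) i LinearMap.id hi
    Function.injective_id (LinearMap.ext fun p => by simp [i]) hd).2
  rw [← e'.finrank_eq, Module.finrank_self, Module.finrank_zero_of_subsingleton] at h
  rw [h]
  simp

/-- Over a field every bundle is rigid. -/
theorem rigid_of_field (M : Glued C F) : M.Rigid := by
  obtain ⟨n, φ, v, hv, hφ, h1⟩ := M.isLattice2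
  have hsum : ∑ i, (⟨φ i (v i), hφ i _ (hv i)⟩ : C.R2 F) = 1 := Subtype.ext (by simpa using h1)
  have h := congrArg (C.augA F) hsum
  rw [map_sum, map_one] at h
  obtain ⟨i, -, hi⟩ : ∃ i ∈ Finset.univ, C.augA F ⟨φ i (v i), hφ i _ (hv i)⟩ ≠ 0 :=
    Finset.exists_ne_zero_of_sum_ne_zero (by rw [h]; exact one_ne_zero)
  set a := C.augA F ⟨φ i (v i), hφ i _ (hv i)⟩
  refine M.rigid_iff.2 ⟨v i, hv i, a⁻¹ • φ i,
    fun m hm => Subalgebra.smul_mem _ (hφ i m hm) _, Subalgebra.smul_mem _ (hφ i _ (hv i)) _, ?_⟩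
  rw [show (⟨(a⁻¹ • φ i) (v i), Subalgebra.smul_mem _ (hφ i _ (hv i)) _⟩ : C.R2 F) =
    a⁻¹ • ⟨φ i (v i), hφ i _ (hv i)⟩ from Subtype.ext rfl, map_smul, smul_eq_mul,
    inv_mul_cancel₀ hi]

/-- Twisting down at the point lowers the characteristic by one. -/
theorem index_cechO (M : Glued C F) :
    LinearMap.index (R := F) (M := M.M1 × M.M2O) (N := M.carrier) M.cechO = M.chi - 1 := by
  obtain ⟨e, he, hu⟩ := M.rigid_of_field
  let r₁ : M.M1 →ₗ[F] M.carrier := M.M1.subtype.restrictScalars F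
  let r₂ : M.M2 →ₗ[F] M.carrier := M.M2.subtype.restrictScalars F
  let j : M.M2O →ₗ[F] M.M2 := (Submodule.inclusion M.M2O_le).restrictScalars F
  have hd : HasFiniteIndex (K := F) (P := M.M1 × M.M2) (N := M.carrier)
      (cechDiff (A := F) (M₁ := M.M1) (M₂ := M.M2) (N := M.carrier) r₁ r₂) := M.hasFiniteIndex_cech
  have h0 := index_cechDiff_comp_of_existsUnique (F := F) (P₁ := M.M1) (P₂ := M.M2) (P₂' := M.M2O)
    (N := M.carrier) r₁ r₂ j (Submodule.inclusion_injective M.M2O_le) ⟨e, he⟩
    (fun p => ?_) hd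
  · rw [chi]
    exact (index_congr (LinearEquiv.refl F _) (LinearEquiv.refl F _)
      (LinearMap.ext fun p => by simp; rfl)).trans h0
  obtain ⟨a, ha, huniq⟩ := hu p p.2
  refine ⟨a, ⟨⟨_, ha⟩, Subtype.ext rfl⟩, fun b hb => huniq b ?_⟩
  obtain ⟨q, hq⟩ := hb
  have h := congrArg (fun w : M.M2 => (w : M.carrier)) hq
  exact (show (q : M.carrier) = (p : M.carrier) - b • e from h) ▸ q.2

/-- `Vanish` in terms of the characteristic. -/
theorem vanish_iff_surjective_and_chi (M : Glued C F) :
    M.Vanish ↔ Function.Surjective M.cechO ∧ M.chi = 1 := by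
  rw [Vanish, M.hasFiniteIndex_cechO.bijective_iff, M.index_cechO, sub_eq_zero]

/-- The characteristic of the trivial bundle. -/
theorem chi_trivial : (trivial C F).chi = 1 - C.g := by
  let S : Submodule k C.B12 := Subalgebra.toSubmodule C.B1 ⊔ Subalgebra.toSubmodule C.B2
  let d : C.B1 × C.B2 →ₗ[k] C.B12 := cechDiff C.B1.val.toLinearMap C.B2.val.toLinearMap
  have hker : Module.finrank k (LinearMap.ker d) = 1 := by
    let one : LinearMap.ker d := ⟨(1, 1), by simp [d]⟩
    refine finrank_eq_one one (fun h => ?_) fun ⟨p, hp⟩ => ?_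
    · exact one_ne_zero (congrArg (fun w : LinearMap.ker d => ((w : C.B1 × C.B2).1 : C.B12)) h)
    · have hp' : (p.1 : C.B12) = p.2 := sub_eq_zero.1 (by simpa [d] using hp)
      have hm : (p.1 : C.B12) ∈ C.B1 ⊓ C.B2 := ⟨p.1.2, hp' ▸ p.2.2⟩
      rw [C.inf_eq, Algebra.mem_bot] at hm
      obtain ⟨c, hc⟩ := hm
      refine ⟨c, Subtype.ext (Prod.ext (Subtype.ext ?_) (Subtype.ext ?_))⟩
      · simp [one, Algebra.smul_def, hc]
      · simp [one, Algebra.smul_def, hc, hp']
  have hcoker : Module.finrank k (C.B12 ⧸ LinearMap.range d) = C.g := by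
    have hr : LinearMap.range d = S := by
      simp only [d, cechDiff, LinearMap.range_coprod, LinearMap.range_neg]
      congr 1 <;> ext z <;> simp
    rw [(Submodule.quotEquivOfEq _ _ hr).finrank_eq, C.h1Equiv.finrank_eq, Module.finrank_fin_fun]
  have hd : d.index = 1 - C.g := by
    rw [LinearMap.index_eq_finrank_sub, hker, hcoker]; rfl
  rw [← hd, ← index_baseChange F d, chi]
  let e1 : (trivial C F).M1 ≃ₗ[F] C.R1 F :=
    { toFun := fun m => ⟨m.1, mem_span_one.1 m.2⟩
      invFun := fun r => ⟨r.1, mem_span_one.2 r.2⟩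
      map_add' := fun _ _ => rfl
      map_smul' := fun _ _ => rfl
      left_inv := fun _ => rfl
      right_inv := fun _ => rfl }
  let e2 : (trivial C F).M2 ≃ₗ[F] C.R2 F :=
    { toFun := fun m => ⟨m.1, mem_span_one.1 m.2⟩
      invFun := fun r => ⟨r.1, mem_span_one.2 r.2⟩
      map_add' := fun _ _ => rfl
      map_smul' := fun _ _ => rfl
      left_inv := fun _ => rfl
      right_inv := fun _ => rfl }
  refine index_congr (K := F) (P := F ⊗[k] (C.B1 × C.B2)) (N := F ⊗[k] C.B12)
    (P' := (trivial C F).M1 × (trivial C F).M2) (N' := (trivial C F).carrier)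
    ((TensorProduct.prodRight k F F C.B1 C.B2).trans
      (((C.subEquiv F C.B1).toLinearEquiv.trans e1.symm).prodCongr
        ((C.subEquiv F C.B2).toLinearEquiv.trans e2.symm))) (LinearEquiv.refl F _) ?_
  refine conj_of_tmul_one (A := k) (A' := F) (P := C.B1 × C.B2) (N := C.B12) d
    (trivial C F).cech _ _ fun p => ?_
  simp only [LinearEquiv.trans_apply, LinearEquiv.refl_apply,
    TensorProduct.prodRight_tmul, LinearEquiv.prodCongr_apply]
  rw [show d p = (p.1 : C.B12) - p.2 from cechDiff_apply _ _ p, tmul_sub]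
  rfl

variable {F' : Type u} [Field F'] [Algebra k F']

/-- **Invariance under field extensions.** -/
theorem Hom.chi_eq {φ : F →ₐ[k] F'} {M : Glued C F} {M' : Glued C F'} (f : Hom φ M M') :
    M'.chi = M.chi := by
  let alg : Algebra F F' := φ.toRingHom.toAlgebra
  obtain ⟨e, -, e', h, -⟩ := f.exists_conj fun _ => rfl
  rw [chi, chi, ← index_baseChange F' (P := M.M1 × M.M2) (N := M.carrier) M.cech]
  exact index_congr e e' h

/-- Invariance under isomorphisms. -/
theorem Iso.chi_eq {M M' : Glued C F} (e : Iso M M') : M'.chi = M.chi := e.toHom.chi_eq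

end Field

/-- **Local constancy in families.** -/
theorem exists_chi_eq {A : Type u} [CommRing A] [Algebra k A] (M : Glued C A) :
    ∃ χ : PrimeSpectrum A → ℤ, IsLocallyConstant χ ∧
      ∀ (F : Type u) [Field F] [Algebra k F] (φ : A →ₐ[k] F) (M' : Glued C F),
        Nonempty (Hom φ M M') →
          M'.chi = χ ⟨RingHom.ker φ.toRingHom, RingHom.ker_isPrime _⟩ := by
  have := M.projective1
  have := M.projective2
  have := M.projective_carrier
  obtain ⟨χ, hχ, h⟩ := (M.isFiniteComplex_cech).exists_euler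
  refine ⟨χ, hχ, fun F _ _ φ M' hf => ?_⟩
  obtain ⟨f⟩ := hf
  let alg : Algebra A F := φ.toRingHom.toAlgebra
  obtain ⟨e, -, e', he, -⟩ := f.exists_conj fun _ => rfl
  rw [chi, index_congr e e' he, LinearMap.index_eq_finrank_sub]
  exact h F ⟨RingHom.ker φ.toRingHom, RingHom.ker_isPrime _⟩ rfl

/-- Local constancy, on basic open sets. -/
theorem exists_basicOpen_chi_eq {A : Type u} [CommRing A] [Algebra k A] (M : Glued C A)
    (p : PrimeSpectrum A) :
    ∃ f : A, f ∉ p.asIdeal ∧ ∃ n : ℤ, ∀ (F : Type u) [Field F] [Algebra k F] (ψ : A →ₐ[k] F),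
      ψ f ≠ 0 → ∀ M' : Glued C F, Nonempty (Hom ψ M M') → M'.chi = n := by
  obtain ⟨χ, hχ, h⟩ := M.exists_chi_eq
  obtain ⟨_, ⟨f, rfl⟩, hp, hsub⟩ :=
    PrimeSpectrum.isTopologicalBasis_basic_opens.exists_subset_of_mem_open
    (a := p) (u := χ ⁻¹' {χ p}) rfl (hχ {χ p})
  refine ⟨f, hp, χ p, fun F _ _ ψ hψ M' hM' => (h F ψ M' hM').trans ?_⟩
  exact hsub (show (⟨RingHom.ker ψ.toRingHom, RingHom.ker_isPrime _⟩ : PrimeSpectrum A) ∈
    PrimeSpectrum.basicOpen f from hψ)

end Fermat.Agent.Row24.Chart.Glued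

end
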