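import Fermat.Agent.Row24.Cond.Fibre
import Fermat.Agent.Row24.Dict.Interface

/-!
# An invariant of bundles on the fibres is constant on algebraically trivial families

An integer attached to glued bundles over fields, which is unchanged by extensions of fields and
locally constant over affine bases, takes on a fibrewise algebraically trivial bundle the same
value as on the trivial bundle.
-/

set_option autoImplicit false

universe u

open CategoryTheory CategoryTheory.Limits AlgebraicGeometry AlgebraicGeometry.RelPicard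
  NeronModelInfra GoodReductionJacobian

noncomputable section

namespace Fermat.Agent.Row24

open Chart Dict

variable {k : Type u} [Field k] {C : Scheme.{u}} {c : C ⟶ Spec (CommRingCat.of k)}
  {ε : SchemeHomOver (𝟙 (Spec (CommRingCat.of k))) c} {R : CurveRings k}
  (Δ : Dictionary c ε R) (χ : ∀ (F : Type u) [Field F] [Algebra k F], Glued R F → ℤ)

/-- An invariant of glued bundles over fields is unchanged by extensions of fields. -/
def IsFieldInvariant : Prop :=
  ∀ (F : Type u) [Field F] [Algebra k F] (F' : Type u) [Field F'] [Algebra k F'] (φ : F →ₐ[k] F')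
    (G : Glued R F) (G' : Glued R F'), Nonempty (Glued.Hom φ G G') → χ F' G' = χ F G

/-- An invariant of glued bundles over fields is locally constant on the base. -/
def IsLocallyConstantInvariant : Prop :=
  ∀ (A : Type u) [CommRing A] [Algebra k A] (G : Glued R A) (p : PrimeSpectrum A),
    ∃ f : A, f ∉ p.asIdeal ∧ ∃ n : ℤ, ∀ (F : Type u) [Field F] [Algebra k F] (ψ : A →ₐ[k] F),
      ψ f ≠ 0 → ∀ G' : Glued R F, Nonempty (Glued.Hom ψ G G') → χ F G' = n

variable {χ}

/-- An invariant of glued bundles gives an invariant of rigidified bundles. -/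
theorem IsFieldInvariant.eq_of_iso (hinv : IsFieldInvariant χ) {F : Type u} [Field F] [Algebra k F]
    {M M' : RigidifiedLineBundle c ε (affStr k F)} (h : Nonempty (M.L ≅ M'.L)) :
    χ F (Δ.glued F M') = χ F (Δ.glued F M) := by
  obtain ⟨e⟩ := (Δ.iso_iff F M M').2 h
  exact hinv F F _ _ _ ⟨e.toHom⟩

variable (χ) in
/-- The bundles on which the invariant has the value of the trivial bundle, at field-valued
points. -/
def invariantProperty (hinv : IsFieldInvariant χ) (n : ℤ)
    (hn : ∀ (F : Type u) [Field F] [Algebra k F], χ F (Glued.trivial R F) = n) :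
    PointProperty c ε where
  holds K _ q M := ∀ [Algebra k K] (h : affStr k K = q),
    χ K (Δ.glued K (M.pullbackAlong (toAff K h))) = n
  holds_congr K _ q M M' e hM := fun {_} h =>
    (hinv.eq_of_iso Δ (RigidifiedLineBundle.pullbackAlong_congr _ e)).trans (hM h)
  holds_unit K _ q := fun {_} h => by
    obtain ⟨e⟩ := Δ.unit_iso K
    rw [hinv.eq_of_iso Δ (M := RigidifiedLineBundle.unit (affStr k K))
      (M' := (RigidifiedLineBundle.unit q).pullbackAlong (toAff K h))
      ⟨(Scheme.Modules.pullbackUnitIso _).symm⟩, ← hn K]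
    exact hinv K K _ _ _ ⟨e.symm.toHom⟩

/-- The value of the invariant at all the field-valued points with a given image. -/
def HasValueAt {T : Scheme.{u}} {t : T ⟶ Spec (CommRingCat.of k)}
    (L : (pullback c t).Modules) (y : T) (n : ℤ) : Prop :=
  ∀ (F : Type u) [Field F] [Algebra k F] (w : SchemeHomOver (affStr k F) t)
    (N : RigidifiedLineBundle c ε (affStr k F)), w.1 (IsLocalRing.closedPoint F) = y →
    Nonempty (N.L ≅ (Scheme.Modules.pullback (baseChangeSnd c w)).obj L) →
    χ F (Δ.glued F N) = n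

/-- The value exists, is unique and is locally constant. -/
theorem exists_hasValueAt (hinv : IsFieldInvariant χ) (hloc : IsLocallyConstantInvariant χ)
    {T : Scheme.{u}} {t : T ⟶ Spec (CommRingCat.of k)} {L : (pullback c t).Modules}
    (hL : L.IsInvertible) (y : T) :
    ∃ U : T.Opens, y ∈ U ∧ ∃ n : ℤ, (∀ z ∈ U, HasValueAt Δ (χ := χ) L z n) ∧
      ∀ m, HasValueAt Δ (χ := χ) L y m → m = n := by
  classical
  obtain ⟨U₀, hy₀, ⟨e₀⟩⟩ := (hL.pullback (rigSection c t ε)).exists_trivialization y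
  obtain ⟨W, hW, hyW, hWU⟩ := exists_isAffineOpen_mem_and_subset (x := y) (U := U₀) hy₀
  obtain ⟨iA, hA⟩ := exists_affStr_eq (k := k) (A := Γ(T, W)) (hW.fromSpec ≫ t)
  let v : SchemeHomOver (affStr k Γ(T, W)) t := ⟨hW.fromSpec, hA.symm⟩
  have hr : Set.range hW.fromSpec ⊆ Set.range U₀.ι := by
    rw [hW.range_fromSpec, Scheme.Opens.range_ι]; exact hWU
  let MW : RigidifiedLineBundle c ε (affStr k Γ(T, W)) :=
    { L := (Scheme.Modules.pullback (baseChangeSnd c v)).obj L
      isInvertible := hL.pullback _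
      rigidified := by
        obtain ⟨e⟩ := nonempty_pullback_iso_unit (IsOpenImmersion.lift_fac U₀.ι hW.fromSpec hr)
          (L := (Scheme.Modules.pullback (rigSection c t ε)).obj L) ⟨e₀⟩
        exact ⟨pullbackIsoOfEq (rigSection_baseChangeSnd c ε v) L ≪≫
          (pullbackIsoOfEq rfl L).symm ≪≫ e⟩ }
  -- lifting field-valued points
  have hlift : ∀ (F : Type u) [Field F] [Algebra k F] (w : SchemeHomOver (affStr k F) t),
      w.1 (IsLocalRing.closedPoint F) ∈ W → ∃ ψ : Γ(T, W) →ₐ[k] F,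
        (affHom ψ).1 ≫ hW.fromSpec = w.1 ∧
        Nonempty ((MW.pullbackAlong (affHom ψ)).L ≅
          (Scheme.Modules.pullback (baseChangeSnd c w)).obj L) := by
    intro F _ _ w hw
    have hr' : Set.range w.1 ⊆ Set.range hW.fromSpec := by
      rw [hW.range_fromSpec]
      rintro _ ⟨q, rfl⟩
      rw [Subsingleton.elim q (IsLocalRing.closedPoint F)]
      exact hw
    obtain ⟨ψ₀, hψ₀⟩ : ∃ ψ₀, Spec.map ψ₀ = IsOpenImmersion.lift hW.fromSpec w.1 hr' :=
      ⟨_, Spec.map_preimage _⟩
    have hk : ψ₀.hom.comp (algebraMap k Γ(T, W)) = algebraMap k F := by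
      have h1 : Spec.map (CommRingCat.ofHom (algebraMap k Γ(T, W)) ≫ ψ₀) =
          Spec.map (CommRingCat.ofHom (algebraMap k F)) := by
        rw [Spec.map_comp, hψ₀]
        show _ ≫ affStr k Γ(T, W) = _
        rw [hA, IsOpenImmersion.lift_fac_assoc]
        exact w.2
      exact congrArg CommRingCat.Hom.hom (Spec.map_injective h1)
    let ψ : Γ(T, W) →ₐ[k] F := { ψ₀.hom with commutes' := fun a => RingHom.congr_fun hk a }
    have h1 : (affHom ψ).1 = IsOpenImmersion.lift hW.fromSpec w.1 hr' := hψ₀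
    have h2 : (affHom ψ).1 ≫ hW.fromSpec = w.1 := by rw [h1, IsOpenImmersion.lift_fac]
    exact ⟨ψ, h2, ⟨pullbackIsoOfEq (by rw [baseChangeSnd_comp]; exact congrArg _ (Subtype.ext h2))
      L⟩⟩
  obtain ⟨p, hp⟩ : y ∈ Set.range hW.fromSpec := by rw [hW.range_fromSpec]; exact hyW
  obtain ⟨f, hf, n, hn⟩ := hloc _ (Δ.glued _ MW) p
  refine ⟨hW.fromSpec ''ᵁ PrimeSpectrum.basicOpen f, ⟨p, hf, hp⟩, n, ?_, ?_⟩
  · rintro z ⟨q, hq, rfl⟩ F _ _ w N hw hN
    obtain ⟨ψ, hψ, hiso⟩ := hlift F w (by
      rw [hw, ← SetLike.mem_coe, ← hW.range_fromSpec]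
      exact Set.mem_range_self q)
    rw [hinv.eq_of_iso Δ (M' := N) (M := MW.pullbackAlong (affHom ψ)) ⟨hiso.some ≪≫ hN.some.symm⟩]
    refine hn F ψ (fun h0 => hq ?_) _ (Δ.nonempty_hom _ F ψ MW)
    have hpt : (affHom ψ).1 (IsLocalRing.closedPoint F) = q :=
      hW.fromSpec.isOpenEmbedding.injective ((congr($hψ (IsLocalRing.closedPoint F))).trans hw)
    rw [← hpt]
    show ψ f ∈ (IsLocalRing.closedPoint F).asIdeal
    rw [h0]
    exact zero_mem _
  · intro m hm
    let F : Type u := T.residueField y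
    let : Algebra k F := (Spec.preimage (T.fromSpecResidueField y ≫ t)).hom.toAlgebra
    have hF : affStr k F = T.fromSpecResidueField y ≫ t := Spec.map_preimage _
    let w : SchemeHomOver (affStr k F) t := ⟨T.fromSpecResidueField y, hF.symm⟩
    have hw : w.1 (IsLocalRing.closedPoint F) = y := Scheme.fromSpecResidueField_apply y _
    obtain ⟨ψ, hψ, hiso⟩ := hlift F w (hw.symm ▸ hyW)
    rw [← hm F w _ hw hiso]
    refine hn F ψ (fun h0 => hf ?_) _ (Δ.nonempty_hom _ F ψ MW)
    have hpt : (affHom ψ).1 (IsLocalRing.closedPoint F) = p :=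
      hW.fromSpec.isOpenEmbedding.injective
        ((congr($hψ (IsLocalRing.closedPoint F))).trans (hw.trans hp.symm))
    rw [← hpt]
    show ψ f ∈ (IsLocalRing.closedPoint F).asIdeal
    rw [h0]
    exact zero_mem _

/-- **On a connected family the invariant takes the same value at all points.** -/
theorem HasValueAt.eq_of_preconnected (hinv : IsFieldInvariant χ)
    (hloc : IsLocallyConstantInvariant χ) {T : Scheme.{u}} [PreconnectedSpace T]
    {t : T ⟶ Spec (CommRingCat.of k)} {L : (pullback c t).Modules} (hL : L.IsInvertible) {x y : T}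
    {m n : ℤ} (hm : HasValueAt Δ (χ := χ) L x m) (hn : HasValueAt Δ (χ := χ) L y n) : m = n := by
  choose U hU v hv huniq using exists_hasValueAt Δ hinv hloc hL
  have hlc : IsLocallyConstant v := by
    refine (IsLocallyConstant.iff_exists_open _).2 fun z => ⟨U z, (U z).2, hU z, fun z' hz' => ?_⟩
    exact (huniq z' (v z) (hv z z' hz')).symm
  rw [huniq x m hm, huniq y n hn]
  exact hlc.apply_eq_of_preconnectedSpace x y

/-- **Fibrewise algebraically trivial bundles have the invariant of the trivial bundle.** -/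
theorem fibrewiseAlgEquivZero_le_invariantCut (hinv : IsFieldInvariant χ)
    (hloc : IsLocallyConstantInvariant χ) (n₀ : ℤ)
    (hn₀ : ∀ (F : Type u) [Field F] [Algebra k F], χ F (Glued.trivial R F) = n₀)
    {T : Scheme.{u}} (t : T ⟶ Spec (CommRingCat.of k)) (M : RigidifiedLineBundle c ε t)
    (hM : FibrewiseAlgEquivZero M) :
    (pointCut (invariantProperty Δ χ hinv n₀ hn₀)).P t M := by
  -- algebraically closed points
  have closed : ∀ (K : Type u) [Field K] [Algebra k K] [IsAlgClosed K]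
      (s : Spec (CommRingCat.of K) ⟶ T) (h : affStr k K = s ≫ t),
      χ K (Δ.glued K ((M.pullbackAlong ⟨s, rfl⟩).pullbackAlong (toAff K h))) = n₀ := by
    intro K _ _ _ s h
    obtain ⟨T', f, -, -, -, hconn, L, hLi, t₀, t₁, -, -, hL₀, hL₁⟩ := exists_family M hM s
    have := hconn
    let u : SchemeHomOver (s ≫ t) (f ≫ s ≫ t) → SchemeHomOver (affStr k K) (f ≫ s ≫ t) :=
      fun τ => ⟨τ.1, τ.2.trans h.symm⟩
    have hpull : ∀ τ, Nonempty ((Scheme.Modules.pullback (baseChangeSnd c (toAff K h))).obj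
        ((Scheme.Modules.pullback (baseChangeSnd c τ)).obj L) ≅
        (Scheme.Modules.pullback (baseChangeSnd c (u τ))).obj L) := fun τ =>
      ⟨pullbackIsoOfEq (by
        rw [baseChangeSnd_comp]
        exact congrArg _ (Subtype.ext (Category.id_comp _))) L⟩
    choose U hU v hv huniq using exists_hasValueAt Δ hinv hloc hLi
    set y₀ := (u t₀).1 (IsLocalRing.closedPoint K)
    set y₁ := (u t₁).1 (IsLocalRing.closedPoint K)
    have h₀ : χ K (Δ.glued K (RigidifiedLineBundle.unit (affStr k K))) = v y₀ := by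
      refine hv y₀ y₀ (hU y₀) K (u t₀) _ rfl ?_
      obtain ⟨e⟩ := hpull t₀
      exact ⟨(Scheme.Modules.pullbackUnitIso _).symm ≪≫
        (Scheme.Modules.pullback _).mapIso hL₀.some.symm ≪≫ e⟩
    have h₁ : χ K (Δ.glued K ((M.pullbackAlong ⟨s, rfl⟩).pullbackAlong (toAff K h))) = v y₁ := by
      refine hv y₁ y₁ (hU y₁) K (u t₁) _ rfl ?_
      obtain ⟨e⟩ := hpull t₁
      exact ⟨(Scheme.Modules.pullback _).mapIso hL₁.some.symm ≪≫ e⟩
    obtain ⟨e⟩ := Δ.unit_iso K
    rw [h₁, ← HasValueAt.eq_of_preconnected Δ hinv hloc hLi (hv y₀ y₀ (hU y₀)) (hv y₁ y₁ (hU y₁)),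
      ← h₀, ← hn₀ K]
    exact hinv K K _ _ _ ⟨e.symm.toHom⟩
  intro K _ s _ h
  let K' := AlgebraicClosure K
  let φ : K →ₐ[k] K' := IsScalarTower.toAlgHom k K K'
  have h' : affStr k K' = ((affHom φ).1 ≫ s) ≫ t := by
    rw [Category.assoc, ← h]; exact (affHom φ).2.symm
  rw [← closed K' ((affHom φ).1 ≫ s) h']
  refine Eq.symm ((hinv.eq_of_iso Δ ?_).trans
    (hinv K K' φ _ _ (Δ.nonempty_hom K K' φ _)))
  let θ : SchemeHomOver (affStr k K') t := ⟨(affHom φ).1 ≫ s, h'.symm⟩
  obtain ⟨i₁⟩ := nonempty_pullbackAlong_iso (M.pullbackAlong ⟨s, rfl⟩) (toAff K h) (affHom φ)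
    (⟨(affHom φ).1, (congrArg ((affHom φ).1 ≫ ·) h.symm).trans (affHom φ).2⟩ :
      SchemeHomOver (affStr k K') (s ≫ t)) (Category.comp_id _)
  obtain ⟨i₂⟩ := nonempty_pullbackAlong_iso M (⟨s, rfl⟩ : SchemeHomOver (s ≫ t) t)
    (⟨(affHom φ).1, (congrArg ((affHom φ).1 ≫ ·) h.symm).trans (affHom φ).2⟩ :
      SchemeHomOver (affStr k K') (s ≫ t)) θ rfl
  obtain ⟨i₃⟩ := nonempty_pullbackAlong_iso M
    (⟨(affHom φ).1 ≫ s, rfl⟩ : SchemeHomOver (((affHom φ).1 ≫ s) ≫ t) t) (toAff K' h') θ
    (Category.id_comp _)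
  exact ⟨i₁ ≪≫ i₂ ≪≫ i₃.symm⟩

end Fermat.Agent.Row24

end
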