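import Fermat.Agent.Row24.Cech.Finite
import Mathlib.Algebra.Module.LinearMap.Index
import Mathlib.LinearAlgebra.Dimension.Constructions
import Mathlib.RingTheory.Flat.Equalizer

/-!
# The index of two-term complexes over a field

`LinearMap.index` of `d : P →ₗ[K] N` is `h⁰ - h¹`. Here: invariance under field extension and
isomorphism, additivity for subcomplexes of finite codimension, and twisting of two charts.
-/

set_option autoImplicit false

noncomputable section

open TensorProduct LinearMap Module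

namespace Fermat.Agent.Row24

universe u v

variable {K : Type*} [Field K] {P N P' N' : Type*} [AddCommGroup P] [Module K P] [AddCommGroup N]
  [Module K N] [AddCommGroup P'] [Module K P'] [AddCommGroup N'] [Module K N']

/-- The kernel and the cokernel are finite dimensional. -/
structure HasFiniteIndex (d : P →ₗ[K] N) : Prop where
  finite_ker : FiniteDimensional K (ker d)
  finite_coker : FiniteDimensional K (N ⧸ range d)

/-- Over a field the finiteness of cohomology is that of both groups. -/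
theorem IsFiniteComplex.hasFiniteIndex {F : Type u} [Field F] {V W : Type v} [AddCommGroup V]
    [Module F V] [AddCommGroup W] [Module F W] {d : V →ₗ[F] W} (h : IsFiniteComplex d) :
    HasFiniteIndex d := by
  refine ⟨?_, h.finite_coker⟩
  obtain ⟨U, hU, hle⟩ := h.fg_comap ⊥ Submodule.fg_bot
  have : FiniteDimensional F U := Module.Finite.iff_fg.2 hU
  exact Submodule.finiteDimensional_of_le hle

namespace HasFiniteIndex

variable {d : P →ₗ[K] N}

theorem of_surjective (hs : Function.Surjective d) (hk : FiniteDimensional K (ker d)) :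
    HasFiniteIndex d := by
  have : Subsingleton (N ⧸ range d) :=
    Submodule.Quotient.subsingleton_iff.mpr (range_eq_top.2 hs)
  exact ⟨hk, inferInstance⟩

theorem of_injective (hi : Function.Injective d) (hc : FiniteDimensional K (N ⧸ range d)) :
    HasFiniteIndex d := by
  have : Subsingleton (ker d) := Submodule.subsingleton_iff_eq_bot.2 (ker_eq_bot.2 hi)
  exact ⟨inferInstance, hc⟩

theorem of_equiv (e : P ≃ₗ[K] N) : HasFiniteIndex e.toLinearMap :=
  of_surjective e.surjective (by
    have : Subsingleton (ker e.toLinearMap) :=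
      Submodule.subsingleton_iff_eq_bot.2 (ker_eq_bot.2 e.injective)
    infer_instance)

theorem comp {e : N →ₗ[K] N'} (he : HasFiniteIndex e) (hd : HasFiniteIndex d) :
    HasFiniteIndex (e ∘ₗ d) := by
  have := he.finite_ker
  have := he.finite_coker
  have := hd.finite_ker
  have := hd.finite_coker
  constructor
  · rw [ker_comp]; infer_instance
  · rw [range_comp]; infer_instance

theorem of_comp_right {e : N →ₗ[K] N'} (hi : Function.Injective e)
    (h : HasFiniteIndex (e ∘ₗ d)) : HasFiniteIndex d := by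
  have := h.finite_ker
  have := h.finite_coker
  constructor
  · rw [← ker_comp_of_ker_eq_bot d (ker_eq_bot.2 hi)]; infer_instance
  · let f : (N ⧸ range d) →ₗ[K] N' ⧸ range (e ∘ₗ d) :=
      Submodule.mapQ _ _ e (by rintro _ ⟨p, rfl⟩; exact ⟨p, rfl⟩)
    refine Module.Finite.of_injective f (ker_eq_bot.1 ?_)
    rw [Submodule.ker_mapQ, range_comp, Submodule.comap_map_eq_of_injective hi]
    exact Submodule.mkQ_map_self _

theorem finrank_ker_eq_index (hs : Function.Surjective d) :
    (finrank K (ker d) : ℤ) = d.index := (LinearMap.index_of_surjective hs).symm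

theorem bijective_iff (h : HasFiniteIndex d) :
    Function.Bijective d ↔ Function.Surjective d ∧ d.index = 0 := by
  have := h.finite_ker
  refine ⟨fun hb => ⟨hb.2, ?_⟩, fun ⟨hs, h0⟩ => ⟨?_, hs⟩⟩
  · rw [LinearMap.index_of_surjective hb.2, ker_eq_bot.2 hb.1]; simp
  · rw [LinearMap.index_of_surjective hs, Nat.cast_eq_zero, Submodule.finrank_eq_zero] at h0
    exact ker_eq_bot.1 h0

theorem exists_ne_zero_of_index_pos (h : 0 < d.index) : ∃ p : P, d p = 0 ∧ p ≠ 0 := by
  by_contra hc
  push Not at hc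
  have hker : ker d = ⊥ := (Submodule.eq_bot_iff _).2 fun p hp => hc p hp
  rw [LinearMap.index_eq_finrank_sub, hker, finrank_bot] at h
  omega

end HasFiniteIndex

/-- Additivity of the index under composition. -/
theorem index_comp' {d : P →ₗ[K] N} {e : N →ₗ[K] N'} (he : HasFiniteIndex e)
    (hd : HasFiniteIndex d) : (e ∘ₗ d).index = e.index + d.index := by
  have := he.finite_ker
  have := he.finite_coker
  have := hd.finite_ker
  have := hd.finite_coker
  exact LinearMap.index_comp e

/-- Invariance of the index under isomorphism. -/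
theorem index_congr {d : P →ₗ[K] N} {d' : P' →ₗ[K] N'} (eP : P ≃ₗ[K] P') (eN : N ≃ₗ[K] N')
    (he : d' ∘ₗ eP.toLinearMap = eN.toLinearMap ∘ₗ d) : d'.index = d.index := by
  have hk : (ker d).map eP.toLinearMap = ker d' := by
    ext x
    rw [Submodule.mem_map_equiv, mem_ker, mem_ker]
    have := LinearMap.congr_fun he (eP.symm x)
    simp only [LinearMap.comp_apply, LinearEquiv.coe_coe, LinearEquiv.apply_symm_apply] at this
    rw [this, LinearEquiv.map_eq_zero_iff]
  have hr : (range d).map eN.toLinearMap = range d' := by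
    rw [← range_comp, ← he, range_comp, eP.range, Submodule.map_top]
  rw [LinearMap.index_eq_finrank_sub, LinearMap.index_eq_finrank_sub,
    (eP.ofSubmodules _ _ hk).finrank_eq, (Submodule.Quotient.equiv _ _ eN hr).finrank_eq]

theorem HasFiniteIndex.congr {d : P →ₗ[K] N} {d' : P' →ₗ[K] N'} (h : HasFiniteIndex d)
    (eP : P ≃ₗ[K] P') (eN : N ≃ₗ[K] N')
    (he : d' ∘ₗ eP.toLinearMap = eN.toLinearMap ∘ₗ d) : HasFiniteIndex d' := by
  have h' : d' = (eN.toLinearMap ∘ₗ d) ∘ₗ eP.symm.toLinearMap := by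
    rw [← he]; ext x; simp
  rw [h']
  exact ((HasFiniteIndex.of_equiv eN).comp h).comp (HasFiniteIndex.of_equiv eP.symm)

/-- **The index does not change under an extension of fields.** -/
theorem index_baseChange (L : Type*) [Field L] [Algebra K L] (d : P →ₗ[K] N) :
    (d.baseChange L).index = d.index := by
  let ek : (L ⊗[K] ker d) ≃ₗ[L] ker (d.baseChange L) :=
    LinearMap.tensorKerEquiv L L d
  rw [LinearMap.index_eq_finrank_sub, LinearMap.index_eq_finrank_sub, ← ek.finrank_eq,
    Module.finrank_baseChange, (cokerBaseChange L d).finrank_eq, Module.finrank_baseChange]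

/-- **Subcomplexes of finite codimension.** -/
theorem index_subcomplex {d : P →ₗ[K] N} {d' : P' →ₗ[K] N'} (i : P' →ₗ[K] P) (j : N' →ₗ[K] N)
    (hi : Function.Injective i) (hj : Function.Injective j) (hcomm : j ∘ₗ d' = d ∘ₗ i)
    [FiniteDimensional K (P ⧸ range i)] [FiniteDimensional K (N ⧸ range j)]
    (hd : HasFiniteIndex d) :
    HasFiniteIndex d' ∧
      d'.index = d.index - finrank K (P ⧸ range i) + finrank K (N ⧸ range j) := by
  have hi' : HasFiniteIndex i := .of_injective hi inferInstance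
  have hj' : HasFiniteIndex j := .of_injective hj inferInstance
  have hd' : HasFiniteIndex d' := .of_comp_right hj (hcomm ▸ hd.comp hi')
  refine ⟨hd', ?_⟩
  have h := (index_comp' hj' hd').symm.trans ((congrArg LinearMap.index hcomm).trans
    (index_comp' hd hi'))
  rw [LinearMap.index_of_injective hi, LinearMap.index_of_injective hj] at h
  linarith

section Pair

variable {P₁ P₂ W P₁' P₂' W' : Type u} [AddCommGroup P₁] [AddCommGroup P₂] [AddCommGroup W]
  [AddCommGroup P₁'] [AddCommGroup P₂'] [AddCommGroup W'] [Module K P₁] [Module K P₂] [Module K W]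
  [Module K P₁'] [Module K P₂'] [Module K W']

/-- **Index additivity for two subspaces and a subspace of the overlap.** -/
theorem index_cechDiff_subcomplex (r₁' : P₁' →ₗ[K] W') (r₂' : P₂' →ₗ[K] W') (r₁ : P₁ →ₗ[K] W)
    (r₂ : P₂ →ₗ[K] W) (i₁ : P₁' →ₗ[K] P₁) (i₂ : P₂' →ₗ[K] P₂) (j : W' →ₗ[K] W)
    (h₁ : Function.Injective i₁) (h₂ : Function.Injective i₂) (hj : Function.Injective j)
    (c₁ : ∀ a, r₁ (i₁ a) = j (r₁' a)) (c₂ : ∀ a, r₂ (i₂ a) = j (r₂' a))
    (f₁ : FiniteDimensional K (P₁ ⧸ range i₁)) (f₂ : FiniteDimensional K (P₂ ⧸ range i₂))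
    (fW : FiniteDimensional K (W ⧸ range j)) (hd : HasFiniteIndex (cechDiff r₁ r₂)) :
    (cechDiff r₁' r₂').index = (cechDiff r₁ r₂).index
      - (finrank K (P₁ ⧸ range i₁) + finrank K (P₂ ⧸ range i₂)) + finrank K (W ⧸ range j) := by
  let q : (P₁ × P₂) →ₗ[K] (P₁ ⧸ range i₁) × (P₂ ⧸ range i₂) :=
    LinearMap.prodMap (range i₁).mkQ (range i₂).mkQ
  have hker : range (LinearMap.prodMap i₁ i₂) = ker q := by
    ext p
    simp only [q, LinearMap.mem_range, LinearMap.mem_ker, LinearMap.prodMap_apply,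
      Prod.mk_eq_zero, Submodule.mkQ_apply, Submodule.Quotient.mk_eq_zero, Prod.exists]
    constructor
    · rintro ⟨a, b, rfl⟩
      exact ⟨⟨a, rfl⟩, ⟨b, rfl⟩⟩
    · rintro ⟨⟨a, ha⟩, ⟨b, hb⟩⟩
      exact ⟨a, b, Prod.ext ha hb⟩
  let eP := (Submodule.quotEquivOfEq _ _ hker).trans (LinearMap.quotKerEquivOfSurjective q
    (Function.Surjective.prodMap (Submodule.mkQ_surjective _) (Submodule.mkQ_surjective _)))
  have : FiniteDimensional K ((P₁ × P₂) ⧸ range (LinearMap.prodMap i₁ i₂)) :=
    Module.Finite.equiv eP.symm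
  have h := (index_subcomplex (LinearMap.prodMap i₁ i₂) j
    (Function.Injective.prodMap h₁ h₂) hj (d := cechDiff r₁ r₂) (d' := cechDiff r₁' r₂')
    (LinearMap.ext fun p => by simp [cechDiff_apply, c₁, c₂]) hd).2
  rw [eP.finrank_eq, Module.finrank_prod, Nat.cast_add] at h
  exact h

end Pair

section Twist

variable {M₁ M₂ W : Type u} [AddCommGroup M₁] [AddCommGroup M₂] [AddCommGroup W]

variable {F : Type u} [Field F] [Module F M₁] [Module F M₂] [Module F W]
  {x : Module.End F M₁} {y : Module.End F M₂} {X₁₂ : W ≃ₗ[F] W} {r₁ : M₁ →ₗ[F] W}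
  {r₂ : M₂ →ₗ[F] W}

/-- The differential of two charts twisted by a power of the coordinate. -/
def twistDiff (X₁₂ : W ≃ₗ[F] W) (r₁ : M₁ →ₗ[F] W) (r₂ : M₂ →ₗ[F] W) (j : ℕ) :
    M₁ × M₂ →ₗ[F] W := cechDiff r₁ ((X₁₂ ^ j).toLinearMap ∘ₗ r₂)

theorem IsTwoCharts.X_pow_r₂ (h : IsTwoCharts x y X₁₂ r₁ r₂) {j l : ℕ} (hl : l ≤ j) (m : M₂) :
    (X₁₂ ^ j) (r₂ ((y ^ (j - l)) m)) = (X₁₂ ^ l) (r₂ m) := by
  rw [h.comm₂_pow, ← LinearEquiv.mul_apply]
  congr 1
  rw [show X₁₂.symm = X₁₂⁻¹ from rfl, inv_pow, mul_inv_eq_iff_eq_mul, ← pow_add,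
    Nat.add_sub_cancel' hl]

/-- The original complex factors through the twisted one. -/
theorem IsTwoCharts.twistDiff_comp (h : IsTwoCharts x y X₁₂ r₁ r₂) (j : ℕ) :
    twistDiff X₁₂ r₁ r₂ j ∘ₗ LinearMap.prodMap LinearMap.id (y ^ j) = cechDiff r₁ r₂ := by
  refine LinearMap.ext fun p => ?_
  have := h.X_pow_r₂ (Nat.zero_le j) p.2
  simp only [Nat.sub_zero, pow_zero, LinearEquiv.coe_one, id_eq] at this
  simp only [LinearMap.comp_apply, twistDiff, cechDiff_apply, LinearMap.prodMap_apply,
    LinearMap.id_apply, LinearEquiv.coe_coe]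
  exact congrArg (r₁ p.1 - ·) this

/-- **For large twists `H¹` vanishes.** -/
theorem IsTwoCharts.exists_surjective_twistDiff (h : IsTwoCharts x y X₁₂ r₁ r₂)
    [FiniteDimensional F (W ⧸ range (cechDiff r₁ r₂))] :
    ∃ j₀, ∀ j ≥ j₀, Function.Surjective (twistDiff X₁₂ r₁ r₂ j) := by
  classical
  obtain ⟨s, hs⟩ := (Module.finite_def.1 ‹FiniteDimensional F (W ⧸ range (cechDiff r₁ r₂))›)
  choose lift hlift using Submodule.Quotient.mk_surjective (range (cechDiff r₁ r₂))
  choose k m hm using h.surj₂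
  refine ⟨s.sup fun q => k (lift q), fun j hj => range_eq_top.1 ?_⟩
  have hd : range (cechDiff r₁ r₂) ≤ range (twistDiff X₁₂ r₁ r₂ j) := by
    rw [← h.twistDiff_comp j]; exact LinearMap.range_comp_le_range _ _
  have hz : ∀ q ∈ s, lift q ∈ range (twistDiff X₁₂ r₁ r₂ j) := fun q hq => by
    refine ⟨(0, -(y ^ (j - k (lift q))) (m (lift q))), ?_⟩
    have hle : k (lift q) ≤ j := le_trans (Finset.le_sup (f := fun q => k (lift q)) hq) hj
    have e := h.X_pow_r₂ hle (m (lift q))
    rw [← hm (lift q), ← LinearEquiv.mul_apply, show X₁₂.symm = X₁₂⁻¹ from rfl, inv_pow,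
      mul_inv_cancel] at e
    simp only [twistDiff, cechDiff_apply, LinearMap.comp_apply, LinearEquiv.coe_coe, map_zero,
      zero_sub, map_neg, neg_neg]
    exact e
  refine eq_top_iff.2 fun z _ => ?_
  have hmem : (Submodule.Quotient.mk z : W ⧸ range (cechDiff r₁ r₂)) ∈
      (range (twistDiff X₁₂ r₁ r₂ j)).map (range (cechDiff r₁ r₂)).mkQ := by
    have hsub : Submodule.span F (s : Set (W ⧸ range (cechDiff r₁ r₂))) ≤
        (range (twistDiff X₁₂ r₁ r₂ j)).map (range (cechDiff r₁ r₂)).mkQ :=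
      Submodule.span_le.2 fun q hq => ⟨lift q, hz q hq, hlift q⟩
    exact hsub (hs ▸ Submodule.mem_top)
  obtain ⟨w, hw, hwz⟩ := hmem
  rw [Submodule.mkQ_apply, Submodule.Quotient.eq] at hwz
  exact sub_sub_cancel w z ▸ sub_mem hw (hd hwz)

end Twist

end Fermat.Agent.Row24

end
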