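import Fermat.Agent.Row24.Euler.Charts
import Fermat.Agent.Row24.Euler.Field
import Fermat.Agent.Row24.TwoTerm.Bijective

/-!
# The Čech complexes of a glued bundle and their base change

For a glued bundle `M` the complexes `M₁ × M₂ → M₁₂` (`Glued.cech`) and `M₁ × M₂(-O) → M₁₂`
(`Glued.cechO`) have projective terms and finite cohomology, and commute with base change.
-/

set_option autoImplicit false

noncomputable section

open TensorProduct

namespace Fermat.Agent.Row24.Chart

universe u

section Lattice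

variable {A S M : Type u} [CommRing A] [CommRing S] [Algebra A S] [AddCommGroup M] [Module A M]
  [Module S M] [IsScalarTower A S M] {T : Subalgebra A S}

/-- Multiplication by an element on a lattice. -/
def latticeMul (N : Submodule T M) {t : S} (ht : t ∈ T) : Module.End A N :=
  (LinearMap.lsmul T N ⟨t, ht⟩).restrictScalars A

variable [Module.Invertible S M] {N : Submodule T M}

theorem IsLattice.exists_split (h : IsLattice T N) : ∃ (n : ℕ) (p : Fin n → N →ₗ[A] T)
    (q : Fin n → T →ₗ[A] N), (∀ i (c : T) m, p i (c • m) = c * p i m) ∧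
      (∀ i (c : T) r, q i (c * r) = c • q i r) ∧ ∀ m, ∑ i, q i (p i m) = m := by
  obtain ⟨n, φ, v, hv, hφ, h1⟩ := h
  refine ⟨n, fun i =>
    { toFun := fun m => ⟨φ i m, hφ i m m.2⟩
      map_add' := fun a b => Subtype.ext (map_add (φ i) (a : M) b)
      map_smul' := fun c a => Subtype.ext ((φ i).map_smul_of_tower c (a : M)) },
    fun i => (LinearMap.toSpanSingleton T N ⟨v i, hv i⟩).restrictScalars A,
    fun i c m => Subtype.ext (map_smul (φ i) (c : S) (m : M)),
    fun i c r => by simp [LinearMap.toSpanSingleton_apply, mul_smul], fun m => Subtype.ext ?_⟩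
  simpa [LinearMap.toSpanSingleton_apply, Subalgebra.smul_def] using sum_smul_eq φ v h1 (m : M)

theorem IsLattice.projective (h : IsLattice T N) [Module.Projective A T] :
    Module.Projective A N := by
  obtain ⟨n, p, q, -, -, hsum⟩ := h.exists_split
  have : Module.Projective A (Fin n → T) :=
    Module.Projective.of_equiv DFinsupp.linearEquivFunOnFintype
  exact Module.Projective.of_split (LinearMap.pi p) (∑ i, q i ∘ₗ LinearMap.proj i)
    (LinearMap.ext fun m => by simpa using hsum m)

theorem IsLattice.nonempty_coords (h : IsLattice T N) {t : S} {ht : t ∈ T}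
    (c : Row24.Coords (LinearMap.mulLeft A (⟨t, ht⟩ : T))) :
    Nonempty (Row24.Coords (A := A) (M₁ := N) (latticeMul N ht)) := by
  obtain ⟨n, p, q, hp, hq, hsum⟩ := h.exists_split
  exact ⟨c.ofSplit p q (fun i m => hp i ⟨t, ht⟩ m) (fun i r => hq i ⟨t, ht⟩ r) hsum⟩

end Lattice

namespace CurveRings

variable {k : Type u} [Field k] (C : CurveRings k) {A : Type u} [CommRing A] [Algebra k A]

theorem mem_sub_top (r : C.R12 A) : r ∈ C.sub A ⊤ := by
  induction r using TensorProduct.induction_on with
  | zero => exact zero_mem _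
  | tmul a z => exact C.tmul_mem_sub a Algebra.mem_top
  | add v w hv hw => exact add_mem hv hw

end CurveRings

namespace Glued

variable {k : Type u} [Field k] {C : CurveRings k} {A : Type u} [CommRing A] [Algebra k A]
  (M : Glued C A)

theorem isLattice_top : IsLattice (C.sub A ⊤) (⊤ : Submodule (C.sub A ⊤) M.carrier) := by
  obtain ⟨n, φ, v, -, -, h1⟩ := M.isLattice1
  exact ⟨n, φ, v, fun _ => Submodule.mem_top, fun _ _ _ => C.mem_sub_top _, h1⟩

/-- **The twist down at the point is a lattice.** -/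
theorem isLattice2O : IsLattice (C.R2 A) M.M2O := by
  obtain ⟨n, φ, v, hv, hφ, h1⟩ := M.isLattice2
  obtain ⟨l, s, t, hs, ht, hst⟩ := C.exists_gen_ker_aug
  refine IsLattice.intro (ι := Fin l × Fin n) (fun p => ((1 : A) ⊗ₜ[k] t p.1) • φ p.2)
    (fun p => ((1 : A) ⊗ₜ[k] (s p.1 : C.B12)) • v p.2) (fun p => ?_) (fun p m hm => ?_) ?_
  · refine Submodule.smul_mem_smul (r := (C.subEquiv A C.B2 (1 ⊗ₜ s p.1))) ?_ (hv p.2)
    rw [RingHom.mem_ker, C.augA_subEquiv_tmul, hs, zero_smul]
  · have h0 := M.augA_mul_eq_zero (φ p.2) (hφ p.2) hm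
    exact C.tmul_mul_mem_of_augA_eq_zero (ht p.1) (r := ⟨φ p.2 m, hφ p.2 m (M.M2O_le hm)⟩) h0
  · rw [Fintype.sum_prod_type]
    simp only [LinearMap.smul_apply, map_smul, smul_eq_mul, ← mul_assoc,
      Algebra.TensorProduct.tmul_mul_tmul, one_mul]
    rw [← Finset.sum_mul_sum, h1, mul_one, ← tmul_sum,
      Finset.sum_congr rfl (fun i _ => mul_comm _ (t i)), hst]
    rfl

theorem projective1 : Module.Projective A M.M1 := by
  have := C.projective_sub A C.B1; exact M.isLattice1.projective

theorem projective2 : Module.Projective A M.M2 := by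
  have := C.projective_sub A C.B2; exact M.isLattice2.projective

theorem projective2O : Module.Projective A M.M2O := by
  have := C.projective_sub A C.B2; exact M.isLattice2O.projective

theorem projective_carrier : Module.Projective A M.carrier :=
  Row24.projective_trans (C.R12 A) M.carrier

/-- The Čech differential. -/
def cech : (M.M1 × M.M2) →ₗ[A] M.carrier :=
  cechDiff (A := A) (M₁ := M.M1) (M₂ := M.M2) (N := M.carrier)
    (M.M1.subtype.restrictScalars A) (M.M2.subtype.restrictScalars A)

@[simp] theorem cech_apply (p : M.M1 × M.M2) :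
    M.cech p = (p.1 : M.carrier) - (p.2 : M.carrier) := cechDiff_apply _ _ p

/-- Multiplication by the coordinate on the overlap. -/
def mulXA : M.carrier ≃ₗ[A] M.carrier :=
  LinearEquiv.ofLinearMap ((LinearMap.lsmul (C.R12 A) M.carrier (C.xA A)).restrictScalars A)
    ((LinearMap.lsmul (C.R12 A) M.carrier (C.yA A)).restrictScalars A)
    (LinearMap.ext fun m => by simp [smul_smul]) (LinearMap.ext fun m => by simp [smul_smul])

theorem mulXA_pow_apply (n : ℕ) (m : M.carrier) : (M.mulXA ^ n) m = C.xA A ^ n • m := by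
  induction n with
  | zero => simp
  | succ n ih => rw [pow_succ', LinearEquiv.mul_apply, ih, pow_succ', mul_smul]; rfl

theorem mulXA_symm_pow_apply (n : ℕ) (m : M.carrier) :
    (M.mulXA.symm ^ n) m = C.yA A ^ n • m := by
  induction n with
  | zero => simp
  | succ n ih => rw [pow_succ', LinearEquiv.mul_apply, ih, pow_succ', mul_smul]; rfl

theorem isTwoCharts_lattices {N1 : Submodule (C.R1 A) M.carrier} {N2 : Submodule (C.R2 A) M.carrier}
    (h1 : IsLattice (C.R1 A) N1) (h2 : IsLattice (C.R2 A) N2) :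
    IsTwoCharts (A := A) (M₁ := N1) (M₂ := N2) (N := M.carrier) (latticeMul N1 C.xA_mem)
      (latticeMul N2 C.yA_mem) M.mulXA
      (N1.subtype.restrictScalars A) (N2.subtype.restrictScalars A) where
  comm₁ _ := rfl
  comm₂ _ := rfl
  surj₁ z := by
    obtain ⟨e, he⟩ := h1.exists_pow_smul_mem C.xA_mem C.exists_mul_xA_mem z
    exact ⟨e, ⟨_, he⟩, M.mulXA_pow_apply e z⟩
  surj₂ z := by
    obtain ⟨e, he⟩ := h2.exists_pow_smul_mem C.yA_mem C.exists_mul_yA_mem z
    exact ⟨e, ⟨_, he⟩, M.mulXA_symm_pow_apply e z⟩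
  inj₁ := Subtype.val_injective
  inj₂ := Subtype.val_injective

theorem nonempty_coords1 :
    Nonempty (Row24.Coords (A := A) (M₁ := M.M1) (latticeMul M.M1 C.xA_mem)) :=
  C.nonempty_coords1.elim fun c => M.isLattice1.nonempty_coords (C.coordsSub A C.x_mem c)

theorem nonempty_coords2 :
    Nonempty (Row24.Coords (A := A) (M₁ := M.M2) (latticeMul M.M2 C.yA_mem)) :=
  C.nonempty_coords2.elim fun c => M.isLattice2.nonempty_coords (C.coordsSub A C.y_mem c)

theorem nonempty_coords2O :
    Nonempty (Row24.Coords (A := A) (M₁ := M.M2O) (latticeMul M.M2O C.yA_mem)) :=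
  C.nonempty_coords2.elim fun c => M.isLattice2O.nonempty_coords (C.coordsSub A C.y_mem c)

/-- **The cohomology of a glued bundle is finite.** -/
theorem isFiniteComplex_cech :
    IsFiniteComplex (A := A) (P := M.M1 × M.M2) (N := M.carrier) M.cech := by
  obtain ⟨c1⟩ := M.nonempty_coords1
  obtain ⟨c2⟩ := M.nonempty_coords2
  exact (M.isTwoCharts_lattices M.isLattice1 M.isLattice2).isFiniteComplex c1 c2

theorem isFiniteComplex_cechO :
    IsFiniteComplex (A := A) (P := M.M1 × M.M2O) (N := M.carrier) M.cechO := by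
  obtain ⟨c1⟩ := M.nonempty_coords1
  obtain ⟨c2⟩ := M.nonempty_coords2O
  exact (M.isTwoCharts_lattices M.isLattice1 M.isLattice2O).isFiniteComplex c1 c2

end Glued

section BaseChange

/-- Two maps out of a base change agree if they agree on `1 ⊗ p`. -/
theorem conj_of_tmul_one {A A' : Type u} [CommRing A] [CommRing A'] [Algebra A A'] {P N : Type u}
    [AddCommMonoid P] [Module A P] [AddCommMonoid N] [Module A N] {P' N' : Type u}
    [AddCommMonoid P'] [Module A' P'] [AddCommMonoid N'] [Module A' N'] (d : P →ₗ[A] N)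
    (d' : P' →ₗ[A'] N')
    (e : (A' ⊗[A] P) ≃ₗ[A'] P') (e' : (A' ⊗[A] N) ≃ₗ[A'] N')
    (h : ∀ p, d' (e (1 ⊗ₜ p)) = e' (1 ⊗ₜ d p)) :
    d' ∘ₗ e.toLinearMap = e'.toLinearMap ∘ₗ d.baseChange A' := by
  refine LinearMap.ext fun z => ?_
  induction z using TensorProduct.induction_on with
  | zero => simp
  | add a b ha hb => rw [map_add, map_add, ha, hb]
  | tmul a p =>
    rw [show a ⊗ₜ[A] p = a • ((1 : A') ⊗ₜ[A] p) by
      rw [TensorProduct.smul_tmul', smul_eq_mul, mul_one], map_smul, map_smul]
    congr 1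
    rw [LinearMap.comp_apply, LinearMap.comp_apply, LinearMap.baseChange_tmul]
    exact h p

variable {k : Type u} [Field k] {C : CurveRings k} {A : Type u} [CommRing A] [Algebra k A]
  {A' : Type u} [CommRing A'] [Algebra k A']

theorem CurveRings.augA_mapR (φ : A →ₐ[k] A') (r : C.R2 A) :
    C.augA A' ⟨C.mapR φ r, C.mapR_mem_sub φ r.2⟩ = φ (C.augA A r) := by
  suffices ∀ h, C.augA A' ⟨C.mapR φ r, h⟩ = φ (C.augA A r) from this _
  obtain ⟨w, rfl⟩ := (C.subEquiv A C.B2).surjective r
  induction w using TensorProduct.induction_on with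
  | zero => intro h; simp [show (⟨0, zero_mem _⟩ : C.R2 A') = 0 from rfl]
  | tmul a z =>
    intro h
    rw [show (⟨_, h⟩ : C.R2 A') = C.subEquiv A' C.B2 (φ a ⊗ₜ z) from Subtype.ext rfl,
      C.augA_subEquiv_tmul, C.augA_subEquiv_tmul, map_smul]
  | add v w hv hw =>
    intro h
    have : (⟨_, h⟩ : C.R2 A') = ⟨_, C.mapR_mem_sub φ (C.subEquiv A C.B2 v).2⟩ +
        ⟨_, C.mapR_mem_sub φ (C.subEquiv A C.B2 w).2⟩ := Subtype.ext (by simp)
    rw [this, map_add, hv, hw, map_add, map_add, map_add]

namespace Glued.Hom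

variable {φ : A →ₐ[k] A'} {M : Glued C A} {M' : Glued C A'} (f : Glued.Hom φ M M')

variable [Algebra A A']

/-- Functions of the base change act on the tensor product with a lattice. -/
theorem exists_extendSmul (hφ : ∀ a, algebraMap A A' a = φ a) (B : Subalgebra k C.B12) {N : Type u}
    [AddCommGroup N] [Module A N] [Module (C.sub A B) N] [IsScalarTower A (C.sub A B) N] (x : N) :
    ∃ Γ : (A' ⊗[k] B) →+ A' ⊗[A] N, ∀ (a' : A') (w : A ⊗[k] B),
      Γ (a' • Algebra.TensorProduct.map φ (AlgHom.id k B) w) = a' ⊗ₜ (C.subEquiv A B w • x) := by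
  let X : B → N := fun b => C.subEquiv A B (1 ⊗ₜ b) • x
  let Γ : (A' ⊗[k] B) →+ A' ⊗[A] N :=
    TensorProduct.liftAddHom
      { toFun := fun a' =>
          { toFun := fun b => a' ⊗ₜ X b
            map_zero' := by
              show a' ⊗ₜ[A] (C.subEquiv A B ((1 : A) ⊗ₜ[k] (0 : B)) • _) = 0
              rw [tmul_zero, map_zero, zero_smul, tmul_zero]
            map_add' := fun b b' => by
              show a' ⊗ₜ[A] (C.subEquiv A B ((1 : A) ⊗ₜ[k] (b + b')) • _) = _
              rw [tmul_add, map_add, add_smul, tmul_add] }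
        map_zero' := by ext b; simp
        map_add' := fun a b => by ext c; simp [add_tmul] }
      (fun r a' b => by
        show (r • a') ⊗ₜ[A] X b = a' ⊗ₜ[A] X (r • b)
        have : X (r • b) = algebraMap k A r • X b := by
          simp only [X, TensorProduct.tmul_smul]
          rw [← algebraMap_smul A r ((1 : A) ⊗ₜ[k] b), _root_.map_smul, smul_assoc]
        rw [this]
        refine Eq.trans ?_ (TensorProduct.smul_tmul (algebraMap k A r) a' (X b))
        congr 1
        rw [Algebra.smul_def r a', Algebra.smul_def (algebraMap k A r) a', hφ, AlgHom.commutes])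
  refine ⟨Γ, fun a' w => ?_⟩
  induction w using TensorProduct.induction_on with
  | zero => simp
  | add a b ha hb => rw [map_add, smul_add, map_add, ha, hb, map_add, add_smul, tmul_add]
  | tmul a b =>
    rw [Algebra.TensorProduct.map_tmul, TensorProduct.smul_tmul', smul_eq_mul]
    show (a' * φ a) ⊗ₜ[A] X b = _
    rw [mul_comm, ← hφ, ← Algebra.smul_def, TensorProduct.smul_tmul]
    congr 1
    simp only [X]
    rw [← smul_assoc, ← _root_.map_smul, TensorProduct.smul_tmul', smul_eq_mul, mul_one]

/-- Shortcut instances: the searches through the chart rings are slow. -/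
local instance (B : Subalgebra k C.B12) (N : Submodule (C.sub A B) M.carrier) : Module A N := N.module'

local instance (B : Subalgebra k C.B12) (N : Submodule (C.sub A B) M.carrier) : SMul (C.sub A B) N :=
  N.module.toDistribMulAction.toMulAction.toSMul

/-- **Lattices commute with base change.** -/
theorem exists_latticeEquiv (hφ : ∀ a, algebraMap A A' a = φ a) (B : Subalgebra k C.B12)
    {N : Submodule (C.sub A B) M.carrier} {N' : Submodule (C.sub A' B) M'.carrier}
    (hN : IsLattice (C.sub A B) N)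
    (hspan : Submodule.span (C.sub A' B) (f.toFun '' (N : Set M.carrier)) = N') :
    ∃ e : (A' ⊗[A] N) ≃ₗ[A'] N', ∀ n : N, (e (1 ⊗ₜ n) : M'.carrier) = f.toFun n := by
  classical
  let modA : Module A M'.carrier := Module.compHom _ (algebraMap A A')
  have tow : IsScalarTower A A' M'.carrier :=
    ⟨fun a b m => by
      show (a • b) • m = algebraMap A A' a • b • m
      rw [Algebra.smul_def, mul_smul]⟩
  let modN : Module A N' := Module.compHom _ (algebraMap A A')
  have towN : IsScalarTower A A' N' :=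
    ⟨fun a b m => by
      show (a • b) • m = algebraMap A A' a • b • m
      rw [Algebra.smul_def, mul_smul]⟩
  let F : N →ₗ[A] N' :=
    { toFun := fun n => ⟨f.toFun n, hspan ▸ Submodule.subset_span ⟨n, n.2, rfl⟩⟩
      map_add' := fun a b => Subtype.ext (map_add f.toFun (a : M.carrier) b)
      map_smul' := fun a n => Subtype.ext <| by
        show f.toFun (a • (n : M.carrier)) = algebraMap A A' a • f.toFun (n : M.carrier)
        rw [f.map_smul_base, hφ] }
  let Θ : A' ⊗[A] N →ₗ[A'] N' := F.liftBaseChange A'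
  have hΘ : ∀ a' n, (Θ (a' ⊗ₜ n) : M'.carrier) = a' • f.toFun n := fun a' n => by
    simp [Θ, F]
  -- surjectivity
  have hr : ∀ (w : A' ⊗[k] B) (z : A' ⊗[A] N), ∃ z', (Θ z' : M'.carrier) =
      ((C.subEquiv A' B w : C.sub A' B) : C.R12 A') • (Θ z : M'.carrier) := by
    intro w z
    induction w using TensorProduct.induction_on with
    | zero => exact ⟨0, by simp⟩
    | add v w hv hw =>
      obtain ⟨a, ha⟩ := hv
      obtain ⟨b, hb⟩ := hw
      exact ⟨a + b, by rw [map_add, Submodule.coe_add, ha, hb, map_add, AddMemClass.coe_add,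
        add_smul]⟩
    | tmul a' b =>
      induction z using TensorProduct.induction_on with
      | zero => exact ⟨0, by simp⟩
      | add v w hv hw =>
        obtain ⟨a, ha⟩ := hv
        obtain ⟨b', hb⟩ := hw
        exact ⟨a + b', by rw [map_add, Submodule.coe_add, ha, hb, map_add, Submodule.coe_add,
          smul_add]⟩
      | tmul a'' n =>
        refine ⟨(a' * a'') ⊗ₜ (C.subEquiv A B (1 ⊗ₜ b) • n), ?_⟩
        have hsplit : ((a' ⊗ₜ[k] (b : C.B12)) : C.R12 A') =
            a' • ((1 : A') ⊗ₜ[k] (b : C.B12)) := by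
          rw [TensorProduct.smul_tmul', smul_eq_mul, mul_one]
        rw [hΘ, hΘ, CurveRings.subEquiv_tmul, hsplit, Submodule.coe_smul, Subalgebra.smul_def,
          f.map_smul, CurveRings.subEquiv_tmul, CurveRings.mapR_tmul, map_one, mul_smul,
          smul_assoc, smul_comm ((1 : A') ⊗ₜ[k] (b : C.B12)) a'']
  have hsurj : Function.Surjective Θ := by
    intro m'
    let S : Submodule (C.sub A' B) M'.carrier :=
      { carrier := Set.range fun z => (Θ z : M'.carrier)
        add_mem' := by rintro _ _ ⟨a, rfl⟩ ⟨b, rfl⟩; exact ⟨a + b, by simp⟩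
        zero_mem' := ⟨0, by simp⟩
        smul_mem' := by
          rintro r _ ⟨z, rfl⟩
          obtain ⟨w, rfl⟩ := (C.subEquiv A' B).surjective r
          exact hr w z }
    have hle : N' ≤ S := by
      rw [← hspan, Submodule.span_le]
      rintro _ ⟨n, hn, rfl⟩
      exact ⟨1 ⊗ₜ ⟨n, hn⟩, by simp [hΘ]⟩
    obtain ⟨z, hz⟩ := hle m'.2
    exact ⟨z, Subtype.ext hz⟩
  -- injectivity
  obtain ⟨l, ψ, v, hv, hψ, h1⟩ := hN
  choose ψ' hψ' using fun i => f.exists_extendFun (ψ i)
  have hmem : ∀ i (m' : N'), ψ' i m' ∈ C.sub A' B := fun i m' => by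
    obtain ⟨z, rfl⟩ := hsurj m'
    induction z using TensorProduct.induction_on with
    | zero => simp
    | add a b ha hb => rw [map_add, Submodule.coe_add, map_add]; exact add_mem ha hb
    | tmul a n =>
      rw [hΘ, LinearMap.map_smul_of_tower, hψ']
      exact Subalgebra.smul_mem _ (C.mapR_mem_sub φ (hψ i n n.2)) a
  choose Γ hΓ using fun i : Fin l => exists_extendSmul hφ B (⟨v i, hv i⟩ : N)
  let Ψ : N' → A' ⊗[A] N := fun m' =>
    ∑ i, Γ i ((C.subEquiv A' B).symm ⟨ψ' i m', hmem i m'⟩)
  have hΨ : ∀ a b, Ψ (a + b) = Ψ a + Ψ b := fun a b => by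
    simp only [Ψ, ← Finset.sum_add_distrib, ← map_add]
    refine Finset.sum_congr rfl fun i _ => congrArg _ (congrArg _ (Subtype.ext ?_))
    simp
  have hinv : Function.LeftInverse Ψ Θ := by
    intro z
    induction z using TensorProduct.induction_on with
    | zero =>
      refine Finset.sum_eq_zero fun i _ => ?_
      have : (⟨ψ' i ((Θ 0 : N') : M'.carrier), hmem i (Θ 0)⟩ : C.sub A' B) = 0 :=
        Subtype.ext (by simp)
      rw [this, map_zero, map_zero]
    | add a b ha hb => rw [map_add, hΨ, ha, hb]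
    | tmul a' n =>
      have hsum : ∑ i, (⟨ψ i n, hψ i n n.2⟩ : C.sub A B) • (⟨v i, hv i⟩ : N) = n :=
        Subtype.ext (by simpa [Subalgebra.smul_def] using sum_smul_eq ψ v h1 (n : M.carrier))
      conv_rhs => rw [← hsum, tmul_sum]
      refine Finset.sum_congr rfl fun i _ => ?_
      obtain ⟨w, hw⟩ := (C.subEquiv A B).surjective ⟨ψ i n, hψ i n n.2⟩
      rw [← hw, ← hΓ]
      congr 1
      rw [AlgEquiv.symm_apply_eq]
      apply Subtype.ext
      show ψ' i _ = _
      rw [hΘ, LinearMap.map_smul_of_tower, hψ', _root_.map_smul, Subalgebra.coe_smul,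
        ← show ((C.subEquiv A B w : C.sub A B) : C.R12 A) = ψ i n from congrArg Subtype.val hw]
      congr 1
      clear hw
      induction w using TensorProduct.induction_on with
      | zero => simp
      | tmul a b => simp
      | add a b ha hb => simp only [map_add, AddMemClass.coe_add, ha, hb]
  exact ⟨LinearEquiv.ofBijective Θ ⟨hinv.injective, hsurj⟩, fun n =>
    (hΘ 1 n).trans (one_smul _ _)⟩

omit [Algebra A A'] in
include f in
theorem span_top : Submodule.span (C.sub A' ⊤) (f.toFun '' ((⊤ : Submodule (C.sub A ⊤) M.carrier) :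
    Set M.carrier)) = (⊤ : Submodule (C.sub A' ⊤) M'.carrier) := by
  rw [eq_top_iff]
  intro m' _
  obtain ⟨n, hn⟩ := M'.loc1 m'
  rw [← f.span1] at hn
  have h : C.xA A' ^ n • m' ∈ Submodule.span (C.sub A' ⊤)
      (f.toFun '' ((⊤ : Submodule (C.sub A ⊤) M.carrier) : Set M.carrier)) := by
    generalize C.xA A' ^ n • m' = z at hn ⊢
    induction hn using Submodule.span_induction with
    | mem x hx => exact Submodule.subset_span (Set.image_mono (Set.subset_univ _) hx)
    | zero => exact zero_mem _
    | add a b _ _ ha hb => exact add_mem ha hb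
    | smul r a _ ha =>
      exact Submodule.smul_mem _ (⟨(r : C.R12 A'), C.mem_sub_top _⟩ : C.sub A' ⊤) ha
  have := Submodule.smul_mem _ (⟨C.yA A' ^ n, C.mem_sub_top _⟩ : C.sub A' ⊤) h
  rwa [Subalgebra.smul_def, smul_smul, ← mul_pow, C.yA_mul_xA, one_pow, one_smul] at this

omit [Algebra A A'] in
include f in
theorem span2O : Submodule.span (C.R2 A') (f.toFun '' (M.M2O : Set M.carrier)) = M'.M2O := by
  refine le_antisymm (Submodule.span_le.2 ?_) ?_
  · rintro _ ⟨m, hm, rfl⟩
    refine Submodule.smul_induction_on (p := fun m => f.toFun m ∈ M'.M2O) hm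
      (fun r hr n hn => ?_) fun a b ha hb => ?_
    · rw [Subalgebra.smul_def, f.map_smul]
      refine Submodule.smul_mem_smul (r := (⟨C.mapR φ r, C.mapR_mem_sub φ r.2⟩ : C.R2 A')) ?_
        (f.mem2 hn)
      rw [RingHom.mem_ker, C.augA_mapR, RingHom.mem_ker.1 hr, map_zero]
    · rw [map_add]; exact add_mem ha hb
  · set S := Submodule.span (C.R2 A') (f.toFun '' (M.M2O : Set M.carrier))
    refine Submodule.smul_le.2 fun r hr m hm => ?_
    rw [← f.span2] at hm
    induction hm using Submodule.span_induction with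
    | zero => simp
    | add a b _ _ ha hb => rw [smul_add]; exact add_mem ha hb
    | smul c a _ ha => rw [smul_comm]; exact Submodule.smul_mem _ c ha
    | mem x hx =>
      obtain ⟨n, hn, rfl⟩ := hx
      suffices h : ∀ w : A' ⊗[k] C.B2, (C.subEquiv A' C.B2 w -
          algebraMap A' (C.R2 A') (C.augA A' (C.subEquiv A' C.B2 w))) • f.toFun n ∈ S by
        obtain ⟨w, rfl⟩ := (C.subEquiv A' C.B2).surjective r
        simpa [RingHom.mem_ker.1 hr] using h w
      intro w
      induction w using TensorProduct.induction_on with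
      | zero => simp
      | add a b ha hb =>
        rw [map_add, map_add, map_add, add_sub_add_comm, add_smul]; exact add_mem ha hb
      | tmul a z =>
        have e : C.subEquiv A' C.B2 (a ⊗ₜ z) -
            algebraMap A' (C.R2 A') (C.augA A' (C.subEquiv A' C.B2 (a ⊗ₜ z))) =
              a • C.subEquiv A' C.B2 (1 ⊗ₜ (z - algebraMap k C.B2 (C.aug z))) := by
          rw [C.augA_subEquiv_tmul]
          refine Subtype.ext ?_
          show (a ⊗ₜ[k] (z : C.B12)) - algebraMap A' (C.R12 A') (C.aug z • a) =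
            a • ((1 : A') ⊗ₜ[k] ((z - algebraMap k C.B2 (C.aug z) : C.B2) : C.B12))
          rw [Algebra.TensorProduct.algebraMap_apply, Algebra.algebraMap_self, RingHom.id_apply,
            TensorProduct.smul_tmul', smul_eq_mul, mul_one, AddSubgroupClass.coe_sub,
            Subalgebra.coe_algebraMap, tmul_sub, TensorProduct.smul_tmul,
            Algebra.algebraMap_eq_smul_one]
        rw [e, smul_assoc, ← algebraMap_smul (C.R2 A') a]
        refine Submodule.smul_mem _ _ (Submodule.subset_span ?_)
        refine ⟨C.subEquiv A C.B2 (1 ⊗ₜ (z - algebraMap k C.B2 (C.aug z))) • n, ?_, ?_⟩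
        · refine Submodule.smul_mem_smul ?_ hn
          rw [RingHom.mem_ker, C.augA_subEquiv_tmul, map_sub, AlgHom.commutes]
          simp
        · rw [Subalgebra.smul_def, f.map_smul, CurveRings.subEquiv_tmul, CurveRings.mapR_tmul,
            map_one]
          rfl

include f in
/-- **The complexes commute with base change.** -/
theorem exists_conj (hφ : ∀ a, algebraMap A A' a = φ a) :
    ∃ (e : (A' ⊗[A] (M.M1 × M.M2)) ≃ₗ[A'] M'.M1 × M'.M2)
      (eO : (A' ⊗[A] (M.M1 × M.M2O)) ≃ₗ[A'] M'.M1 × M'.M2O)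
      (e' : (A' ⊗[A] M.carrier) ≃ₗ[A'] M'.carrier),
        M'.cech ∘ₗ e.toLinearMap = e'.toLinearMap ∘ₗ M.cech.baseChange A' ∧
        M'.cechO ∘ₗ eO.toLinearMap = e'.toLinearMap ∘ₗ M.cechO.baseChange A' := by
  obtain ⟨e1, h1⟩ := f.exists_latticeEquiv hφ C.B1 M.isLattice1 f.span1
  obtain ⟨e2, h2⟩ := f.exists_latticeEquiv hφ C.B2 M.isLattice2 f.span2
  obtain ⟨e2O, h2O⟩ := f.exists_latticeEquiv hφ C.B2 M.isLattice2O f.span2O
  obtain ⟨e12, h12⟩ := f.exists_latticeEquiv hφ ⊤ M.isLattice_top f.span_top
  let eT : (⊤ : Submodule (C.sub A ⊤) M.carrier) ≃ₗ[A] M.carrier :=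
    (Submodule.topEquiv (R := C.sub A ⊤) (M := M.carrier)).restrictScalars A
  let eT' : (⊤ : Submodule (C.sub A' ⊤) M'.carrier) ≃ₗ[A'] M'.carrier :=
    (Submodule.topEquiv (R := C.sub A' ⊤) (M := M'.carrier)).restrictScalars A'
  let e' := (LinearEquiv.baseChange A A' M.carrier _ eT.symm).trans (e12.trans eT')
  have he' : ∀ m : M.carrier, e' (1 ⊗ₜ m) = f.toFun m := fun m =>
    h12 ⟨m, Submodule.mem_top⟩
  refine ⟨(TensorProduct.prodRight A A' A' M.M1 M.M2).trans (e1.prodCongr e2),
    (TensorProduct.prodRight A A' A' M.M1 M.M2O).trans (e1.prodCongr e2O), e', ?_, ?_⟩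
  · refine conj_of_tmul_one (P := M.M1 × M.M2) (N := M.carrier) M.cech M'.cech _ e' fun p => ?_
    rw [he', cech_apply, cech_apply, map_sub]
    simp [LinearEquiv.trans_apply, h1, h2]
  · refine conj_of_tmul_one (P := M.M1 × M.M2O) (N := M.carrier) M.cechO M'.cechO _ e' fun p => ?_
    rw [he', cechO_apply, cechO_apply, map_sub]
    simp [LinearEquiv.trans_apply, h1, h2O]

end Glued.Hom

namespace Glued

variable (M : Glued C A)

/-- **The vanishing locus is open.** -/
theorem isOpen_vanishBoth :
    IsOpen (vanishBoth (A := A) (P := M.M1 × M.M2O) (N := M.carrier) M.cechO) := by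
  have := M.projective1
  have := M.projective2O
  have := M.projective_carrier
  exact M.isFiniteComplex_cechO.isOpen_vanishBoth

variable {M}

/-- **Vanishing is detected on the locus of the family.** -/
theorem Hom.vanish_iff {φ : A →ₐ[k] A'} {M' : Glued C A'} (f : Glued.Hom φ M M') :
    M'.Vanish ↔ ∀ q : PrimeSpectrum A', q.comap φ.toRingHom ∈
      vanishBoth (A := A) (P := M.M1 × M.M2O) (N := M.carrier) M.cechO := by
  let alg : Algebra A A' := φ.toRingHom.toAlgebra
  obtain ⟨-, eO, e', -, h⟩ := f.exists_conj fun _ => rfl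
  have := M.projective1
  have := M.projective2O
  have := M.projective_carrier
  have key := M.isFiniteComplex_cechO.bijective_baseChange_iff A'
  rw [show algebraMap A A' = φ.toRingHom from rfl] at key
  rw [← key, Glued.Vanish]
  have h' : ⇑M'.cechO ∘ ⇑eO = ⇑e' ∘ ⇑(M.cechO.baseChange A') :=
    congrArg (fun g : _ →ₗ[A'] _ => ⇑g) h
  constructor
  · intro hb
    exact (Function.Bijective.of_comp_iff' e'.bijective _).1 (h' ▸ hb.comp eO.bijective)
  · intro hb
    exact (Function.Bijective.of_comp_iff _ eO.bijective).1 (h' ▸ e'.bijective.comp hb)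

end Glued

end BaseChange

end Fermat.Agent.Row24.Chart

end
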