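import Fermat.Agent.Row24.Euler.OverBase
import Fermat.Agent.Row24.Chart.Ops

/-!
# Zeros of sections over the ground field

A nonzero section of a bundle over the ground field either generates, and then trivialises the
bundle, or vanishes at a rational point: on both charts, on the first one only, or at the point
at infinity.
-/

set_option autoImplicit false

universe u

noncomputable section

namespace Fermat.Agent.Row24.Chart

open TensorProduct

namespace CurveRings

variable {k : Type u} [Field k] (C : CurveRings k)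

/-- The coordinate `x` in the first chart ring. -/
def x1 : C.R1 k := ⟨C.xA k, C.xA_mem⟩

/-- The coordinate `y` in the second chart ring. -/
def y2 : C.R2 k := ⟨C.yA k, C.yA_mem⟩

theorem smul_xA_pow_yA_pow {M : Type*} [AddCommGroup M] [Module (C.R12 k) M] (n : ℕ) (m : M) :
    C.yA k ^ n • C.xA k ^ n • m = m := by
  rw [smul_smul, ← mul_pow, C.yA_mul_xA, one_pow, one_smul]

theorem algebraMap_mem_sub (B : Subalgebra k C.B12) (c : k) :
    algebraMap k (C.R12 k) c ∈ C.sub k B := (C.sub k B).algebraMap_mem c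

/-- A point of the first chart off the zeros of `x` lies on the overlap. -/
theorem exists_extend (φ : C.R1 k →ₐ[k] k) (hx : φ C.x1 ≠ 0) :
    ∃ π : C.R12 k →ₐ[k] k, ∀ r : C.R1 k, π r = φ r := by
  choose n hn using C.loc1_R12
  have key : ∀ (r : C.R12 k) (m : ℕ) (hm : C.xA k ^ m * r ∈ C.R1 k),
      φ ⟨_, hm⟩ / φ C.x1 ^ m = φ ⟨_, hn r⟩ / φ C.x1 ^ n r := by
    intro r m hm
    rw [div_eq_div_iff (pow_ne_zero _ hx) (pow_ne_zero _ hx), ← map_pow, ← map_pow, ← map_mul,
      ← map_mul]
    exact congrArg φ (Subtype.ext (by simp only [MulMemClass.coe_mul, SubmonoidClass.coe_pow, x1]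
                                      ring))
  have hmul : ∀ r s : C.R12 k,
      C.xA k ^ (n r + n s) * (r * s) = C.xA k ^ n r * r * (C.xA k ^ n s * s) := fun r s => by
    rw [pow_add]; ring
  have hadd : ∀ r s : C.R12 k, C.xA k ^ (n r + n s) * (r + s) =
      C.xA k ^ n s * (C.xA k ^ n r * r) + C.xA k ^ n r * (C.xA k ^ n s * s) := fun r s => by
    rw [pow_add]; ring
  refine ⟨{ toFun := fun r => φ ⟨_, hn r⟩ / φ C.x1 ^ n r
            map_one' := ?_
            map_mul' := fun r s => ?_
            map_zero' := ?_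
            map_add' := fun r s => ?_
            commutes' := fun c => ?_ }, fun r => ?_⟩
  · rw [← key 1 0 (by simp [one_mem])]
    simp only [pow_zero, div_one, one_mul]
    exact map_one φ
  · rw [← key (r * s) (n r + n s) (hmul r s ▸ mul_mem (hn r) (hn s)), div_mul_div_comm,
      ← pow_add, ← map_mul]
    exact congrArg (fun t => φ t / _) (Subtype.ext (hmul r s))
  · show φ ⟨_, hn 0⟩ / φ C.x1 ^ n 0 = 0
    rw [show (⟨_, hn 0⟩ : C.R1 k) = 0 from Subtype.ext (mul_zero _), map_zero, zero_div]
  · rw [← key (r + s) (n r + n s) (hadd r s ▸ add_mem (mul_mem (pow_mem C.xA_mem _) (hn r))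
        (mul_mem (pow_mem C.xA_mem _) (hn s))),
      div_add_div _ _ (pow_ne_zero _ hx) (pow_ne_zero _ hx), ← pow_add]
    refine congrArg (fun t => t / _) ?_
    rw [← map_pow, ← map_pow, ← map_mul, ← map_mul, ← map_add]
    exact congrArg φ (Subtype.ext (by
      simp only [AddMemClass.coe_add, MulMemClass.coe_mul, SubmonoidClass.coe_pow, x1]
      rw [hadd]; ring))
  · rw [← key (algebraMap k (C.R12 k) c) 0 (by simpa using C.algebraMap_mem_sub C.B1 c)]
    simp only [pow_zero, div_one, one_mul]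
    exact φ.commutes c
  · show φ ⟨_, hn r⟩ / φ C.x1 ^ n r = φ r
    rw [← key r 0 (by simp)]
    simp

/-- Evaluation at infinity over the ground field is the given one. -/
theorem augA_eq (r : C.R2 k) : C.augA k r = C.aug (C.subBaseEquiv C.B2 r) := by
  obtain ⟨w, rfl⟩ := (C.subEquiv k C.B2).surjective r
  induction w using TensorProduct.induction_on with
  | zero => simp
  | tmul a z => simp [subBaseEquiv, mul_comm]
  | add v w hv hw => simp only [map_add] at hv hw ⊢; rw [hv, hw]

end CurveRings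

namespace Glued

variable {k : Type u} [Field k] {C : CurveRings k} (M : Glued C k)

/-- The section vanishes at a point of the overlap. -/
def ZeroBoth (s : M.carrier) (π : C.R12 k →ₐ[k] k) : Prop :=
  s ∈ RingHom.ker (π.comp (C.R1 k).val) • M.M1 ∧ s ∈ RingHom.ker (π.comp (C.R2 k).val) • M.M2

/-- The section vanishes at a point only in the first chart. -/
def ZeroFirst (s : M.carrier) (φ : C.R1 k →ₐ[k] k) : Prop :=
  φ C.x1 = 0 ∧ s ∈ RingHom.ker φ • M.M1

/-- The section generates on both charts. -/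
def Generates (s : M.carrier) : Prop :=
  Submodule.span (C.R1 k) {s} = M.M1 ∧ Submodule.span (C.R2 k) {s} = M.M2

theorem span_eq_of_forall1 [IsAlgClosed k] {s : M.carrier} (hs : s ∈ M.M1)
    (h : ∀ φ : C.R1 k →ₐ[k] k, s ∉ RingHom.ker φ • M.M1) :
    Submodule.span (C.R1 k) {s} = M.M1 := by
  have := C.finiteType_R1
  have htop := span_singleton_eq_top_of_forall_notMem (B := C.R1 k) (M := M.M1) (s := ⟨s, hs⟩)
    fun m hm hmem => by
      let e := AlgEquiv.ofBijective (Algebra.ofId k (C.R1 k ⧸ m))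
        (algebraMap_bijective_quotient_maximal m)
      refine h (e.symm.toAlgHom.comp (Ideal.Quotient.mkₐ k m)) ?_
      have hker : RingHom.ker (e.symm.toAlgHom.comp (Ideal.Quotient.mkₐ k m)) = m := by
        ext r
        rw [RingHom.mem_ker, AlgHom.comp_apply, AlgEquiv.coe_toAlgHom,
          map_eq_zero_iff _ e.symm.injective]
        exact Ideal.Quotient.eq_zero_iff_mem
      rw [hker]
      exact (Submodule.mem_smul_top_iff m M.M1 ⟨s, hs⟩).1 hmem
  refine le_antisymm (Submodule.span_le.2 (Set.singleton_subset_iff.2 hs)) fun m hm => ?_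
  have := Submodule.mem_map_of_mem (f := M.M1.subtype)
    (htop.ge (Submodule.mem_top (x := ⟨m, hm⟩)))
  rwa [Submodule.map_span, Set.image_singleton] at this

theorem span_eq_of_forall2 [IsAlgClosed k] {s : M.carrier} (hs : s ∈ M.M2)
    (h : ∀ φ : C.R2 k →ₐ[k] k, s ∉ RingHom.ker φ • M.M2) :
    Submodule.span (C.R2 k) {s} = M.M2 := by
  have := C.finiteType_R2
  have htop := span_singleton_eq_top_of_forall_notMem (B := C.R2 k) (M := M.M2) (s := ⟨s, hs⟩)
    fun m hm hmem => by
      let e := AlgEquiv.ofBijective (Algebra.ofId k (C.R2 k ⧸ m))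
        (algebraMap_bijective_quotient_maximal m)
      refine h (e.symm.toAlgHom.comp (Ideal.Quotient.mkₐ k m)) ?_
      have hker : RingHom.ker (e.symm.toAlgHom.comp (Ideal.Quotient.mkₐ k m)) = m := by
        ext r
        rw [RingHom.mem_ker, AlgHom.comp_apply, AlgEquiv.coe_toAlgHom,
          map_eq_zero_iff _ e.symm.injective]
        exact Ideal.Quotient.eq_zero_iff_mem
      rw [hker]
      exact (Submodule.mem_smul_top_iff m M.M2 ⟨s, hs⟩).1 hmem
  refine le_antisymm (Submodule.span_le.2 (Set.singleton_subset_iff.2 hs)) fun m hm => ?_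
  have := Submodule.mem_map_of_mem (f := M.M2.subtype)
    (htop.ge (Submodule.mem_top (x := ⟨m, hm⟩)))
  rwa [Submodule.map_span, Set.image_singleton] at this

/-- A zero on the overlap seen in the first chart is one in the second. -/
theorem mem_ker_smul_M2 {s : M.carrier} (hs : s ∈ M.M2) (π : C.R12 k →ₐ[k] k)
    (h : s ∈ RingHom.ker (π.comp (C.R1 k).val) • M.M1) :
    s ∈ RingHom.ker (π.comp (C.R2 k).val) • M.M2 := by
  set I2 := RingHom.ker (π.comp (C.R2 k).val) with hI2
  -- a power of `y` pushes the expression into the second chart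
  obtain ⟨N, hN⟩ : ∃ N : ℕ, C.yA k ^ N • s ∈ I2 • M.M2 := by
    refine Submodule.smul_induction_on (p := fun v => ∃ N : ℕ, C.yA k ^ N • v ∈ I2 • M.M2) h
      (fun r hr m _ => ?_) ?_
    · obtain ⟨a, ha⟩ := C.loc2_R12 (r : C.R12 k)
      obtain ⟨b, hb⟩ := M.loc2 m
      refine ⟨a + b, ?_⟩
      have hI : (⟨_, ha⟩ : C.R2 k) ∈ I2 := by
        rw [hI2, RingHom.mem_ker, AlgHom.comp_apply, Subalgebra.coe_val, map_mul,
          show π (r : C.R12 k) = 0 from RingHom.mem_ker.1 hr, mul_zero]
      have : C.yA k ^ (a + b) • (r • m) = (⟨_, ha⟩ : C.R2 k) • (C.yA k ^ b • m) := by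
        simp only [Subalgebra.smul_def, smul_smul]
        congr 1
        ring
      rw [this]
      exact Submodule.smul_mem_smul hI hb
    · rintro v w ⟨a, ha⟩ ⟨b, hb⟩
      refine ⟨a + b, ?_⟩
      rw [smul_add]
      refine add_mem ?_ ?_
      · have : C.yA k ^ (a + b) • v = C.y2 ^ b • C.yA k ^ a • v := by
          simp only [Subalgebra.smul_def, smul_smul, SubmonoidClass.coe_pow, CurveRings.y2]
          rw [← pow_add, add_comm]
        rw [this]
        exact Submodule.smul_mem _ _ ha
      · have : C.yA k ^ (a + b) • w = C.y2 ^ a • C.yA k ^ b • w := by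
          simp only [Subalgebra.smul_def, smul_smul, SubmonoidClass.coe_pow, CurveRings.y2]
          rw [← pow_add]
        rw [this]
        exact Submodule.smul_mem _ _ hb
  -- and `y` is invertible modulo the point
  set c : k := (π (C.yA k) ^ N)⁻¹ with hc
  have hy : π (C.yA k) ≠ 0 := (C.isUnit_yA.map π).ne_zero
  have hi : 1 - algebraMap k (C.R2 k) c * C.y2 ^ N ∈ I2 := by
    rw [hI2, RingHom.mem_ker, map_sub, map_one, map_mul, AlgHom.commutes, map_pow,
      AlgHom.comp_apply, Subalgebra.coe_val, CurveRings.y2, hc]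
    simp [inv_mul_cancel₀ (pow_ne_zero N hy)]
  have : s = algebraMap k (C.R2 k) c • (C.yA k ^ N • s) +
      (1 - algebraMap k (C.R2 k) c * C.y2 ^ N) • s := by
    rw [sub_smul, one_smul, mul_smul,
      show C.y2 ^ N • s = C.yA k ^ N • s from by
        simp only [Subalgebra.smul_def, SubmonoidClass.coe_pow, CurveRings.y2]]
    rw [add_sub_cancel]
  rw [this]
  exact add_mem (Submodule.smul_mem _ _ hN) (Submodule.smul_mem_smul hi hs)

theorem smul_bijective_of_generates1 {s : M.carrier}
    (hgen : Submodule.span (C.R1 k) {s} = M.M1) :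
    Function.Bijective (LinearMap.toSpanSingleton (C.R12 k) M.carrier s) := by
  refine Module.Invertible.bijective_of_surjective fun m => ?_
  obtain ⟨n, hn⟩ := M.loc1 m
  obtain ⟨r, hr⟩ := Submodule.mem_span_singleton.1 (hgen.ge hn)
  refine ⟨C.yA k ^ n * (r : C.R12 k), ?_⟩
  rw [LinearMap.toSpanSingleton_apply, mul_smul,
    show (r : C.R12 k) • s = C.xA k ^ n • m from hr, C.smul_xA_pow_yA_pow]

theorem notMem_of_generates1 {s : M.carrier} (hgen : Submodule.span (C.R1 k) {s} = M.M1)
    (φ : C.R2 k →ₐ[k] k) (hy : φ C.y2 ≠ 0) : s ∉ RingHom.ker φ • M.M2 := by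
  intro h
  obtain ⟨N, i, hi, hN⟩ : ∃ (N : ℕ) (i : C.R2 k), i ∈ RingHom.ker φ ∧
      C.yA k ^ N • s = (i : C.R12 k) • s := by
    refine Submodule.smul_induction_on (p := fun v => ∃ (N : ℕ) (i : C.R2 k),
      i ∈ RingHom.ker φ ∧ C.yA k ^ N • v = (i : C.R12 k) • s) h (fun r hr m hm => ?_) ?_
    · obtain ⟨t, ht⟩ := (M.smul_bijective_of_generates1 hgen).2 m
      obtain ⟨a, ha⟩ := C.loc2_R12 t
      refine ⟨a, r * ⟨_, ha⟩, Ideal.mul_mem_right _ _ hr, ?_⟩
      rw [← ht, LinearMap.toSpanSingleton_apply, Subalgebra.smul_def, smul_smul, smul_smul,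
        MulMemClass.coe_mul]
      congr 1
      ring
    · rintro v w ⟨a, i, hi, hv⟩ ⟨b, j, hj, hw⟩
      refine ⟨a + b, C.y2 ^ b * i + C.y2 ^ a * j,
        add_mem (Ideal.mul_mem_left _ _ hi) (Ideal.mul_mem_left _ _ hj), ?_⟩
      rw [AddMemClass.coe_add, add_smul, MulMemClass.coe_mul, MulMemClass.coe_mul, mul_smul,
        mul_smul, ← hv, ← hw, SubmonoidClass.coe_pow, SubmonoidClass.coe_pow, CurveRings.y2,
        smul_smul, smul_smul, ← pow_add, ← pow_add, smul_add, add_comm b a]
  have he : (C.y2 ^ N : C.R2 k) = i := Subtype.ext ((M.smul_bijective_of_generates1 hgen).1 (by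
    simpa [CurveRings.y2, LinearMap.toSpanSingleton_apply] using hN))
  rw [← he, RingHom.mem_ker, map_pow] at hi
  exact hy (eq_zero_of_pow_eq_zero hi)

/-- A section of a line bundle on a curve generates or has a zero. -/
theorem generates_or_zero [IsAlgClosed k] {s : M.carrier} (hs : s ∈ M.h0) :
    M.Generates s ∨ (∃ π, M.ZeroBoth s π) ∨ (∃ φ, M.ZeroFirst s φ) ∨ s ∈ M.M2O := by
  obtain ⟨h1, h2⟩ := hs
  by_cases ha : ∃ φ : C.R1 k →ₐ[k] k, s ∈ RingHom.ker φ • M.M1
  · obtain ⟨φ, hφ⟩ := ha
    by_cases hx : φ C.x1 = 0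
    · exact Or.inr (Or.inr (Or.inl ⟨φ, hx, hφ⟩))
    · obtain ⟨π, hπ⟩ := C.exists_extend φ hx
      have hker : RingHom.ker (π.comp (C.R1 k).val) = RingHom.ker φ := by
        ext r
        rw [RingHom.mem_ker, RingHom.mem_ker, AlgHom.comp_apply, Subalgebra.coe_val, hπ]
      exact Or.inr (Or.inl ⟨π, hker.symm ▸ hφ, M.mem_ker_smul_M2 h2 π (hker.symm ▸ hφ)⟩)
  push Not at ha
  have hgen1 := M.span_eq_of_forall1 h1 ha
  by_cases hb : s ∈ M.M2O
  · exact Or.inr (Or.inr (Or.inr hb))
  refine Or.inl ⟨hgen1, M.span_eq_of_forall2 h2 fun φ hφ => hb ?_⟩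
  -- `y` kills the cokernel of `s` up to a power, so a zero is the point at infinity
  have hker : RingHom.ker φ = RingHom.ker (C.augA k) := by
    have hmax : (RingHom.ker (C.augA k)).IsMaximal :=
      RingHom.ker_isMaximal_of_surjective _ fun a => ⟨algebraMap k _ a, (C.augA k).commutes a⟩
    have hne : (RingHom.ker φ).IsPrime := RingHom.ker_isPrime _
    by_cases hy : φ C.y2 = 0
    · refine (hmax.eq_of_le hne.ne_top fun r hr => ?_).symm
      obtain ⟨d, hd⟩ := C.exists_pow_ker_aug_le
      set z : C.B2 := C.subBaseEquiv C.B2 r with hz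
      have hraug : C.augA k r = C.aug z := C.augA_eq r
      have hz0 : z ∈ RingHom.ker C.aug := by
        rw [RingHom.mem_ker, ← hraug]; exact RingHom.mem_ker.1 hr
      obtain ⟨q, hq⟩ := Ideal.mem_span_singleton'.1 (hd (Ideal.pow_mem_pow hz0 d))
      have he : r ^ d = (C.subBaseEquiv C.B2).symm q * C.y2 := by
        apply (C.subBaseEquiv C.B2).injective
        rw [map_pow, ← hz, ← hq, map_mul, AlgEquiv.apply_symm_apply]
        congr 1
        exact Subtype.ext (by rw [C.subBaseEquiv_coe]; simp [CurveRings.y2, CurveRings.yA])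
      refine RingHom.mem_ker.2 (eq_zero_of_pow_eq_zero (n := d) ?_)
      rw [← map_pow, he, map_mul, hy, mul_zero]
    · exfalso
      -- off the point at infinity the generation on the first chart spreads out
      refine M.notMem_of_generates1 hgen1 φ hy ?_
      exact hφ
  rw [hker] at hφ
  exact hφ

/-- A generating section trivialises. -/
theorem nonempty_iso_trivial_of_generates {M : Glued C k} {s : M.carrier} (h : M.Generates s) :
    Nonempty (Iso (trivial C k) M) := by
  refine ⟨⟨LinearEquiv.ofBijective _ (M.smul_bijective_of_generates1 h.1), fun m => ?_,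
    fun m => ?_⟩⟩
  · show m • s ∈ M.M1 ↔ m ∈ Submodule.span (C.R1 k) {(1 : C.R12 k)}
    rw [mem_span_one, ← h.1, Submodule.mem_span_singleton]
    constructor
    · rintro ⟨r, hr⟩
      exact (M.smul_bijective_of_generates1 h.1).1 hr ▸ r.2
    · exact fun hm => ⟨⟨m, hm⟩, rfl⟩
  · show m • s ∈ M.M2 ↔ m ∈ Submodule.span (C.R2 k) {(1 : C.R12 k)}
    rw [mem_span_one, ← h.2, Submodule.mem_span_singleton]
    constructor
    · rintro ⟨r, hr⟩
      exact (M.smul_bijective_of_generates1 h.1).1 hr ▸ r.2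
    · exact fun hm => ⟨⟨m, hm⟩, rfl⟩

end Glued

end Fermat.Agent.Row24.Chart

end
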