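import Fermat.Agent.Row24.Euler.Down
import Fermat.Agent.Row24.Euler.Zero
import Fermat.Agent.Row24.Chart.Tensor

/-!
# Bundles of Euler characteristic `1 - g` are iterated differences of point bundles

A nonzero section of a bundle is divided by its zeros, one rational point at a time, until it
generates; the total length of the divisor of the section decreases.
-/

set_option autoImplicit false

universe u

noncomputable section

namespace Fermat.Agent.Row24

open LinearMap

section Length

variable {k V V' : Type*} [Field k] [AddCommGroup V] [Module k V] [AddCommGroup V'] [Module k V']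

/-- Length of a quotient through a subspace isomorphic to a smaller one. -/
theorem finrank_quotient_drop (j : V' →ₗ[k] V) (hj : Function.Injective j)
    {N' S' : Submodule k V'} {N W S : Submodule k V} (hW : N'.map j = W) (hS : S'.map j = S)
    (hSN : S' ≤ N') (hWN : W ≤ N) [FiniteDimensional k (N ⧸ S.comap N.subtype)] :
    FiniteDimensional k (N' ⧸ S'.comap N'.subtype) ∧
      Module.finrank k (N ⧸ W.comap N.subtype) + Module.finrank k (N' ⧸ S'.comap N'.subtype) =
        Module.finrank k (N ⧸ S.comap N.subtype) := by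
  let i : N' →ₗ[k] N := (j.comp N'.subtype).codRestrict N fun m =>
    hWN (hW ▸ Submodule.mem_map_of_mem m.2)
  let q : (N' ⧸ S'.comap N'.subtype) →ₗ[k] N ⧸ S.comap N.subtype :=
    Submodule.mapQ _ _ i fun m hm => hS ▸ Submodule.mem_map_of_mem (f := j) hm
  have hq : Function.Injective q := by
    refine LinearMap.ker_eq_bot.1 (eq_bot_iff.2 fun z hz => ?_)
    obtain ⟨m, rfl⟩ := Submodule.Quotient.mk_surjective _ z
    have h : j m ∈ S :=
      (Submodule.Quotient.mk_eq_zero (S.comap N.subtype)).1 (LinearMap.mem_ker.1 hz)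
    rw [← hS] at h
    obtain ⟨m', hm', he⟩ := h
    exact (Submodule.mem_bot k).2 ((Submodule.Quotient.mk_eq_zero _).2
      (show (m : V') ∈ S' from hj he ▸ hm'))
  have hr : LinearMap.range q = (W.comap N.subtype).map (S.comap N.subtype).mkQ := by
    ext z
    constructor
    · rintro ⟨y, rfl⟩
      obtain ⟨m, rfl⟩ := Submodule.Quotient.mk_surjective _ y
      exact ⟨i m, hW ▸ Submodule.mem_map_of_mem (f := j) m.2, rfl⟩
    · rintro ⟨n, hn, rfl⟩
      have hn' : (n : V) ∈ N'.map j := hW.symm ▸ hn
      obtain ⟨m, hm, he⟩ := hn'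
      exact ⟨Submodule.Quotient.mk ⟨m, hm⟩, congrArg Submodule.Quotient.mk (Subtype.ext he)⟩
  have hle : S.comap N.subtype ≤ W.comap N.subtype :=
    Submodule.comap_mono (hS ▸ hW ▸ Submodule.map_mono hSN)
  refine ⟨Module.Finite.of_injective q hq, ?_⟩
  have h := (LinearMap.range q).finrank_quotient_add_finrank
  rw [LinearMap.finrank_range_of_inj hq] at h
  rw [← h, hr, (Submodule.quotientQuotientEquivQuotient _ _ hle).finrank_eq]

variable {R : Type*} [CommRing R] [Algebra k R] [Module R V] [IsScalarTower k R V]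

/-- A nonzero section of an invertible submodule has a divisor of finite length. -/
theorem finite_quotient_comap_span [IsDomain R] [IsNoetherianRing R] [Ring.DimensionLEOne R]
    [Algebra.FiniteType k R] (N : Submodule R V) [Module.Invertible R N] {s : V} (hs : s ∈ N)
    (h0 : s ≠ 0) :
    FiniteDimensional k (N.restrictScalars k ⧸
      ((Submodule.span R {s}).restrictScalars k).comap (N.restrictScalars k).subtype) := by
  have := finite_quotient_span_singleton (k := k) (B := R) (M := N) (s := ⟨s, hs⟩)
    fun h => h0 (congrArg Subtype.val h)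
  let e : N.restrictScalars k ≃ₗ[k] N :=
    { toFun := fun m => ⟨m.1, m.2⟩
      invFun := fun m => ⟨m.1, m.2⟩
      map_add' := fun _ _ => rfl
      map_smul' := fun _ _ => rfl }
  refine Module.Finite.equiv ((Submodule.Quotient.equiv _
    ((Submodule.span R {(⟨s, hs⟩ : N)}).restrictScalars k) e ?_).trans
    (Submodule.Quotient.restrictScalarsEquiv k _)).symm
  ext m
  rw [Submodule.mem_map_equiv, Submodule.mem_comap, Submodule.restrictScalars_mem,
    Submodule.restrictScalars_mem, Submodule.mem_span_singleton, Submodule.mem_span_singleton]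
  exact ⟨fun ⟨r, hr⟩ => ⟨r, Subtype.ext hr⟩, fun ⟨r, hr⟩ => ⟨r, congrArg Subtype.val hr⟩⟩

end Length

/-- Dividing a section by an ideal shortens its divisor by the colength of the ideal. -/
theorem finrank_section_drop {k R V V' : Type*} [Field k] [CommRing R] [Algebra k R]
    [AddCommGroup V] [Module R V] [Module k V] [IsScalarTower k R V] [AddCommGroup V']
    [Module R V'] [Module k V'] [IsScalarTower k R V'] (f : V' →ₗ[R] V)
    (hf : Function.Injective f) (N' : Submodule R V') (N : Submodule R V) (I : Ideal R)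
    (hN : N'.map f = I • N) {a : V'} (ha : a ∈ N') {s : V} (hs : f a = s)
    (hfin : FiniteDimensional k (N.restrictScalars k ⧸
      ((Submodule.span R {s}).restrictScalars k).comap (N.restrictScalars k).subtype)) :
    Module.finrank k (N.restrictScalars k ⧸
        ((I • N).restrictScalars k).comap (N.restrictScalars k).subtype) +
      Module.finrank k (N'.restrictScalars k ⧸
        ((Submodule.span R {a}).restrictScalars k).comap (N'.restrictScalars k).subtype) =
      Module.finrank k (N.restrictScalars k ⧸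
        ((Submodule.span R {s}).restrictScalars k).comap (N.restrictScalars k).subtype) := by
  refine (finrank_quotient_drop (f.restrictScalars k) hf ?_ ?_ ?_ ?_).2
  · rw [← hN]; rfl
  · rw [← hs, ← Set.image_singleton (f := f), ← Submodule.map_span]; rfl
  · intro m (hm : m ∈ Submodule.span R {a})
    exact ((Submodule.span_singleton_le_iff_mem a N').2 ha) hm
  · intro m (hm : m ∈ I • N)
    exact (Submodule.smul_le_right (I := I) (N := N)) hm

namespace Chart.Glued

open TensorProduct

variable {k : Type u} [Field k] {C : CurveRings k}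

variable {M M' : Glued C k} {I1 : Ideal (C.R1 k)} {I2 : Ideal (C.R2 k)} {I12 : Ideal (C.R12 k)}

theorem mem_smul_span_one {T : Subalgebra k (C.R12 k)} {I : Ideal T} {r : C.R12 k} :
    r ∈ I • Submodule.span T {(1 : C.R12 k)} ↔ ∃ y ∈ I, (y : C.R12 k) = r := by
  rw [Submodule.mem_smul_span_singleton]
  simp [Subalgebra.smul_def]

/-- Sections in the ideals, as a product with the ideal bundle. -/
def IsDown.tensorLeft {P : Glued C k} (j : IsDown P (trivial C k) I1 I2 I12) (M : Glued C k) :
    IsDown (M.tensor P) M I1 I2 I12 where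
  toFun := (TensorProduct.rid (C.R12 k) M.carrier).toLinearMap ∘ₗ j.toFun.lTensor M.carrier
  injective := (TensorProduct.rid (C.R12 k) M.carrier).injective.comp
    (Module.Flat.lTensor_preserves_injective_linearMap j.toFun j.injective)
  range_eq := by
    refine le_antisymm ?_ (Submodule.smul_le.2 fun r hr m _ => ?_)
    · rintro _ ⟨z, rfl⟩
      induction z using TensorProduct.induction_on with
      | zero => rw [map_zero]; exact zero_mem _
      | tmul m p =>
        simp only [LinearMap.comp_apply, LinearMap.lTensor_tmul, LinearEquiv.coe_coe,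
          TensorProduct.rid_tmul]
        refine Submodule.smul_mem_smul ?_ Submodule.mem_top
        have h : j.toFun p ∈ I12 • (⊤ : Submodule (C.R12 k) (C.R12 k)) :=
          j.range_eq ▸ LinearMap.mem_range_self j.toFun p
        rwa [smul_eq_mul, Ideal.mul_top] at h
      | add a b ha hb => rw [map_add]; exact add_mem ha hb
    · have h : r ∈ LinearMap.range j.toFun := by
        rw [j.range_eq, smul_eq_mul, Ideal.mul_top]; exact hr
      obtain ⟨p, rfl⟩ := h
      exact ⟨m ⊗ₜ p, by simp⟩
  map1 := by
    refine le_antisymm ?_ (Submodule.smul_le.2 fun r hr m hm => ?_)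
    · rintro _ ⟨z, hz, rfl⟩
      refine map_tensorLat ((TensorProduct.rid (C.R12 k) M.carrier).toLinearMap ∘ₗ
        j.toFun.lTensor M.carrier) (fun m hm p hp => ?_) hz
      have h : j.toFun p ∈ I1 • Submodule.span (C.R1 k) {(1 : C.R12 k)} :=
        j.map1 ▸ Submodule.mem_map_of_mem (f := j.toFun.restrictScalars (C.R1 k)) hp
      obtain ⟨y, hy, he⟩ := mem_smul_span_one.1 h
      simp only [LinearMap.comp_apply, LinearMap.lTensor_tmul, LinearEquiv.coe_coe,
        TensorProduct.rid_tmul, ← he]
      exact Submodule.smul_mem_smul hy hm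
    · have h : (r : C.R12 k) ∈ P.M1.map (j.toFun.restrictScalars (C.R1 k)) :=
        j.map1.symm ▸ mem_smul_span_one.2 ⟨r, hr, rfl⟩
      obtain ⟨p, hp, he⟩ := h
      refine ⟨m ⊗ₜ p, tmul_mem_tensorLat hm hp, ?_⟩
      simp only [LinearMap.restrictScalars_apply, LinearMap.comp_apply, LinearMap.lTensor_tmul,
        LinearEquiv.coe_coe, TensorProduct.rid_tmul] at he ⊢
      rw [he]; rfl
  map2 := by
    refine le_antisymm ?_ (Submodule.smul_le.2 fun r hr m hm => ?_)
    · rintro _ ⟨z, hz, rfl⟩
      refine map_tensorLat ((TensorProduct.rid (C.R12 k) M.carrier).toLinearMap ∘ₗ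
        j.toFun.lTensor M.carrier) (fun m hm p hp => ?_) hz
      have h : j.toFun p ∈ I2 • Submodule.span (C.R2 k) {(1 : C.R12 k)} :=
        j.map2 ▸ Submodule.mem_map_of_mem (f := j.toFun.restrictScalars (C.R2 k)) hp
      obtain ⟨y, hy, he⟩ := mem_smul_span_one.1 h
      simp only [LinearMap.comp_apply, LinearMap.lTensor_tmul, LinearEquiv.coe_coe,
        TensorProduct.rid_tmul, ← he]
      exact Submodule.smul_mem_smul hy hm
    · have h : (r : C.R12 k) ∈ P.M2.map (j.toFun.restrictScalars (C.R2 k)) :=
        j.map2.symm ▸ mem_smul_span_one.2 ⟨r, hr, rfl⟩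
      obtain ⟨p, hp, he⟩ := h
      refine ⟨m ⊗ₜ p, tmul_mem_tensorLat hm hp, ?_⟩
      simp only [LinearMap.restrictScalars_apply, LinearMap.comp_apply, LinearMap.lTensor_tmul,
        LinearEquiv.coe_coe, TensorProduct.rid_tmul] at he ⊢
      rw [he]; rfl

/-- The span of a section on the first chart. -/
abbrev spanSec1 (M : Glued C k) (s : M.carrier) : Submodule k M.N1 :=
  ((Submodule.span (C.R1 k) {s}).restrictScalars k).comap M.N1.subtype

/-- The span of a section on the second chart. -/
abbrev spanSec2 (M : Glued C k) (s : M.carrier) : Submodule k M.N2 :=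
  ((Submodule.span (C.R2 k) {s}).restrictScalars k).comap M.N2.subtype

/-- The length of the divisor of a section, counted on both charts. -/
def secDeg (M : Glued C k) (s : M.carrier) : ℕ :=
  Module.finrank k (M.N1 ⧸ M.spanSec1 s) + Module.finrank k (M.N2 ⧸ M.spanSec2 s)

theorem finite_spanSec1 (M : Glued C k) {s : M.carrier} (hs : s ∈ M.M1) (h0 : s ≠ 0) :
    FiniteDimensional k (M.N1 ⧸ M.spanSec1 s) :=
  have := C.finiteType_R1
  have := C.isDedekindDomain_R1
  finite_quotient_comap_span M.M1 hs h0

theorem finite_spanSec2 (M : Glued C k) {s : M.carrier} (hs : s ∈ M.M2) (h0 : s ≠ 0) :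
    FiniteDimensional k (M.N2 ⧸ M.spanSec2 s) :=
  have := C.finiteType_R2
  have := C.isDedekindDomain_R2
  finite_quotient_comap_span M.M2 hs h0

/-- A section in the ideals comes from a section with a shorter divisor. -/
theorem IsDown.exists_section (f : IsDown M' M I1 I2 I12) {s : M.carrier} (h0 : s ≠ 0)
    (h1 : s ∈ I1 • M.M1) (h2 : s ∈ I2 • M.M2) :
    ∃ s' ∈ M'.h0, s' ≠ 0 ∧ Module.finrank k (M.N1 ⧸ M.sub1 I1) +
      Module.finrank k (M.N2 ⧸ M.sub2 I2) + M'.secDeg s' = M.secDeg s := by
  rw [← f.map1] at h1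
  rw [← f.map2] at h2
  obtain ⟨a, ha, has⟩ := h1
  obtain ⟨b, hb, hbs⟩ := h2
  obtain rfl : a = b := f.injective (has.trans hbs.symm)
  refine ⟨a, ⟨ha, hb⟩, fun h => h0 (by rw [← has, h, map_zero]), ?_⟩
  have hs1 : s ∈ M.M1 := Submodule.smul_le_right (f.map1.le ⟨a, ha, has⟩)
  have hs2 : s ∈ M.M2 := Submodule.smul_le_right (f.map2.le ⟨a, hb, hbs⟩)
  have d1 := finrank_section_drop (k := k) (R := C.R1 k) (f.toFun.restrictScalars (C.R1 k))
    f.injective M'.M1 M.M1 I1 f.map1 ha has (M.finite_spanSec1 hs1 h0)
  have d2 := finrank_section_drop (k := k) (R := C.R2 k) (f.toFun.restrictScalars (C.R2 k))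
    f.injective M'.M2 M.M2 I2 f.map2 hb hbs (M.finite_spanSec2 hs2 h0)
  show Module.finrank k (M.N1 ⧸ M.sub1 I1) + Module.finrank k (M.N2 ⧸ M.sub2 I2) +
    (Module.finrank k (M'.N1 ⧸ M'.spanSec1 a) + Module.finrank k (M'.N2 ⧸ M'.spanSec2 a)) = _
  rw [secDeg, ← d1, ← d2]
  ring

section Iterate

variable (O : Glued C k)

/-- Iterated product with a fixed bundle. -/
def tensorIter : ℕ → Glued C k → Glued C k
  | 0, M => M
  | n + 1, M => tensorIter n (M.tensor O)

/-- Iterated difference with a fixed bundle. -/
def diffIter : ℕ → Glued C k → Glued C k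
  | 0, M => M
  | n + 1, M => (diffIter n M).diff O

variable {O}

theorem tensorIter_congr (n : ℕ) {M N : Glued C k} (e : Iso M N) :
    Nonempty (Iso (tensorIter O n M) (tensorIter O n N)) := by
  induction n generalizing M N with
  | zero => exact ⟨e⟩
  | succ n ih => exact ih (e.tensor (Iso.refl O))

/-- Products commute past each other. -/
def tensorRightComm (M N L : Glued C k) : Iso ((M.tensor N).tensor L) ((M.tensor L).tensor N) :=
  ((Iso.tensorAssoc M N L).trans ((Iso.refl M).tensor (Iso.tensorComm N L))).trans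
    (Iso.tensorAssoc M L N).symm

theorem tensorIter_tensor (n : ℕ) (M X : Glued C k) :
    Nonempty (Iso (tensorIter O n (M.tensor X)) ((tensorIter O n M).tensor X)) := by
  induction n generalizing M with
  | zero => exact ⟨Iso.refl _⟩
  | succ n ih =>
    obtain ⟨e⟩ := tensorIter_congr (O := O) n (tensorRightComm M X O)
    obtain ⟨e'⟩ := ih (M.tensor O)
    exact ⟨e.trans e'⟩

/-- Adding back what was subtracted. -/
def diffTensor (M N : Glued C k) : Iso ((M.diff N).tensor N) M :=
  ((Iso.tensorAssoc M N.dual N).trans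
    ((Iso.refl M).tensor ((Iso.tensorComm N.dual N).trans (Iso.diffSelf N)))).trans
    (Iso.tensorTrivial M)

/-- A bundle with a known product is a difference. -/
def eqDiffOfTensor {y N x : Glued C k} (e : Iso (y.tensor N) x) : Iso y (x.diff N) :=
  (((Iso.tensorTrivial y).symm.trans ((Iso.refl y).tensor (Iso.diffSelf N).symm)).trans
    (Iso.tensorAssoc y N N.dual).symm).trans (e.tensor (Iso.refl N.dual))

theorem tensorIter_diffIter (n : ℕ) (L : Glued C k) :
    Nonempty (Iso (tensorIter O n (diffIter O n L)) L) := by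
  induction n with
  | zero => exact ⟨Iso.refl _⟩
  | succ n ih =>
    obtain ⟨e⟩ := tensorIter_congr (O := O) n (diffTensor (diffIter O n L) O)
    obtain ⟨e'⟩ := ih
    exact ⟨e.trans e'⟩

end Iterate

/-- Bundles `G` of classes of points, the class of the base point subtracted: with the bundle `O`
of the base point they give the ideal bundle of every rational point. -/
structure PointFamily {ι : Type*} (G : ι → Glued C k) (O : Glued C k) : Prop where
  infty : Nonempty (IsDown O (trivial C k) ⊤ (RingHom.ker (C.augA k)) ⊤)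
  both : ∀ π : C.R12 k →ₐ[k] k, ∃ (p : ι) (P : Glued C k),
    Nonempty (IsDown P (trivial C k) (RingHom.ker (π.comp (C.R1 k).val))
      (RingHom.ker (π.comp (C.R2 k).val)) (RingHom.ker π)) ∧
    Nonempty (Iso ((G p).tensor O) P)
  first : ∀ φ : C.R1 k →ₐ[k] k, φ C.x1 = 0 → ∃ (p : ι) (P : Glued C k),
    Nonempty (IsDown P (trivial C k) (RingHom.ker φ) ⊤ ⊤) ∧ Nonempty (Iso ((G p).tensor O) P)

namespace PointFamily

variable [IsAlgClosed k] {ι : Type*} {G : ι → Glued C k} {O : Glued C k}

omit [IsAlgClosed k] in
/-- A step of the division by a zero which is not the base point. -/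
theorem step {M P : Glued C k} {p : ι} (hi : Iso ((G p).tensor O) P) {n : ℕ} {x : Glued C k}
    (e : Iso (tensorIter O n (M.tensor P)) x) :
    Nonempty (Iso (tensorIter O (n + 1) M) (x.diff (G p))) := by
  obtain ⟨e1⟩ := tensorIter_congr (O := O) n ((((Iso.refl M).tensor hi.symm).trans
    ((Iso.refl M).tensor (Iso.tensorComm (G p) O))).trans (Iso.tensorAssoc M O (G p)).symm)
  obtain ⟨e2⟩ := tensorIter_tensor (O := O) n (M.tensor O) (G p)
  exact ⟨eqDiffOfTensor ((e2.symm.trans e1.symm).trans e)⟩

/-- **A bundle with a section is a difference of point bundles and multiples of the base point.** -/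
theorem exists_foldl_of_section (H : PointFamily G O) :
    ∀ (d : ℕ) (M : Glued C k) (s : M.carrier), s ∈ M.h0 → s ≠ 0 → M.secDeg s ≤ d →
      ∃ (n : ℕ) (l : List ι), M.chi = (trivial C k).chi + n ∧
        Nonempty (Iso (tensorIter O n M)
          (l.foldl (fun b p => b.diff (G p)) (trivial C k))) := by
  intro d
  induction d using Nat.strong_induction_on with
  | _ d ih =>
    intro M s hs h0 hd
    rcases M.generates_or_zero hs with hgen | ⟨π, hz1, hz2⟩ | ⟨φ, hx, hz⟩ | hO
    · obtain ⟨e⟩ := nonempty_iso_trivial_of_generates hgen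
      exact ⟨0, [], by rw [e.chi_eq, Nat.cast_zero, add_zero], ⟨e.symm⟩⟩
    · obtain ⟨p, P, ⟨j⟩, ⟨hi⟩⟩ := H.both π
      have f := j.tensorLeft M
      obtain ⟨s', hs', h0', hdeg⟩ := f.exists_section h0 hz1 hz2
      rw [M.finrank_sub1_ker, M.finrank_sub2_ker] at hdeg
      obtain ⟨n, l, hn, ⟨e⟩⟩ := ih (M.secDeg s - 2 |>.max 0) (by simp; omega) _ s' hs' h0'
        (by simp; omega)
      have hchi := f.chi_both π
      refine ⟨n + 1, l ++ [p], by rw [hn] at hchi; push_cast; linarith, ?_⟩
      rw [List.foldl_append]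
      exact step hi e
    · obtain ⟨p, P, ⟨j⟩, ⟨hi⟩⟩ := H.first φ hx
      have f := j.tensorLeft M
      obtain ⟨s', hs', h0', hdeg⟩ := f.exists_section h0 hz (by rw [Submodule.top_smul]; exact hs.2)
      rw [M.finrank_sub1_ker] at hdeg
      obtain ⟨n, l, hn, ⟨e⟩⟩ := ih (Nat.max (M.secDeg s - 1) 0) (by simp; omega) _ s' hs' h0'
        (by simp; omega)
      have hchi := f.chi_first φ
      refine ⟨n + 1, l ++ [p], by rw [hn] at hchi; push_cast; linarith, ?_⟩
      rw [List.foldl_append]
      exact step hi e
    · obtain ⟨j⟩ := H.infty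
      have f := j.tensorLeft M
      obtain ⟨s', hs', h0', hdeg⟩ := f.exists_section h0 (by rw [Submodule.top_smul]; exact hs.1) hO
      rw [M.finrank_sub2_ker] at hdeg
      obtain ⟨n, l, hn, he⟩ := ih (Nat.max (M.secDeg s - 1) 0) (by simp; omega) _ s' hs' h0'
        (by simp; omega)
      have hchi := f.chi_infty
      exact ⟨n + 1, l, by rw [hn] at hchi; push_cast; linarith, he⟩

omit [IsAlgClosed k] in
theorem chi_diffIter (H : PointFamily G O) (n : ℕ) (L : Glued C k) :
    (diffIter O n L).chi = L.chi + n := by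
  induction n with
  | zero => simp [diffIter]
  | succ n ih =>
    obtain ⟨j⟩ := H.infty
    have h := (j.tensorLeft ((diffIter O n L).diff O)).chi_infty
    rw [← (diffTensor (diffIter O n L) O).chi_eq, ih] at h
    rw [diffIter]
    push_cast
    linarith

/-- **Bundles with the Euler characteristic of the trivial one are iterated differences of point
bundles.** -/
theorem exists_foldl (H : PointFamily G O) (L : Glued C k) (hL : L.chi = (trivial C k).chi) :
    ∃ l : List ι, Nonempty (Iso L (l.foldl (fun b p => b.diff (G p)) (trivial C k))) := by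
  set N : ℕ := (1 - L.chi).toNat with hN
  have hM := H.chi_diffIter N L
  obtain ⟨s, hs, h0⟩ := exists_section_of_chi_pos (diffIter O N L) (by rw [hM]; omega)
  obtain ⟨n, l, hn, ⟨e⟩⟩ := H.exists_foldl_of_section _ _ s hs h0 le_rfl
  have hnN : n = N := by omega
  rw [hnN] at e
  obtain ⟨e'⟩ := tensorIter_diffIter (O := O) N L
  exact ⟨l, ⟨e'.symm.trans e⟩⟩

end PointFamily

end Chart.Glued

end Fermat.Agent.Row24

end
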