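import Fermat.Agent.Row24.Chart.Ops
import Fermat.Agent.Row24.Cech.Chart
import Mathlib.LinearAlgebra.TensorProduct.Tower
import Mathlib.FieldTheory.Minpoly.Field
import Mathlib.LinearAlgebra.FreeModule.PID

/-!
# Coordinates for the rings of the two charts

The functions on each chart are finite free over the polynomials in the coordinate, also after
extension of scalars; the point is cut out by finitely many functions.
-/

set_option autoImplicit false

noncomputable section

open TensorProduct Polynomial

namespace Fermat.Agent.Row24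

universe u v

variable {A : Type u} [CommRing A] {M : Type v} [AddCommGroup M] [Module A M]

theorem aeval_commute_map {T : Type*} [AddCommGroup T] [Module A T] {xT : Module.End A T}
    {x : Module.End A M} (f : T →ₗ[A] M) (h : ∀ t, f (xT t) = x (f t)) (p : A[X]) (t : T) :
    f (aeval xT p t) = aeval x p (f t) := by
  induction p using Polynomial.induction_on generalizing t with
  | C a => simp [Module.algebraMap_end_apply]
  | add p q hp hq =>
    rw [map_add, map_add, LinearMap.add_apply, LinearMap.add_apply, map_add, hp, hq]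
  | monomial n a ih =>
    rw [pow_succ, ← mul_assoc, map_mul (aeval xT), map_mul (aeval x), Module.End.mul_apply,
      Module.End.mul_apply, ih, aeval_X, aeval_X, h]

/-- Coordinates pass to direct summands of powers. -/
def Coords.ofSplit {T : Type v} [AddCommGroup T] [Module A T] {xT : Module.End A T}
    (c : Coords xT) {x : Module.End A M} {ι : Type*} [Fintype ι] (p : ι → M →ₗ[A] T)
    (q : ι → T →ₗ[A] M) (hp : ∀ i m, p i (x m) = xT (p i m)) (hq : ∀ i t, q i (xT t) = x (q i t))
    (hsum : ∀ m, ∑ i, q i (p i m) = m) : Coords x where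
  n := Fintype.card (ι × Fin c.n)
  gen l := q ((Fintype.equivFin _).symm l).1 (c.gen ((Fintype.equivFin _).symm l).2)
  coord l := c.coord ((Fintype.equivFin _).symm l).2 ∘ₗ p ((Fintype.equivFin _).symm l).1
  coord_mul l m := by
    rw [LinearMap.comp_apply, LinearMap.comp_apply, hp, c.coord_mul]
  sum_eq m := by
    rw [(Fintype.equivFin (ι × Fin c.n)).symm.sum_comp
      (fun l => aeval x ((c.coord l.2 ∘ₗ p l.1) m) (q l.1 (c.gen l.2))), Fintype.sum_prod_type]
    conv_rhs => rw [← hsum m]
    refine Finset.sum_congr rfl fun i _ => ?_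
    conv_rhs => rw [← c.sum_eq (p i m), map_sum]
    refine Finset.sum_congr rfl fun j _ => ?_
    rw [LinearMap.comp_apply, aeval_commute_map (q i) (hq i)]

section BaseChange

variable {B : Type u} [CommRing B] [Algebra A B] {x : Module.End A M}

variable (B) in
theorem baseChange_aeval (x : Module.End A M) (p : A[X]) :
    (aeval x p).baseChange B = aeval (x.baseChange B) (p.map (algebraMap A B)) := by
  rw [aeval_map_algebraMap]
  exact (aeval_algHom_apply (Module.End.baseChangeHom A B M) x p).symm

/-- Extension of scalars of polynomials. -/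
def mapPoly (A B : Type u) [CommRing A] [CommRing B] [Algebra A B] : A[X] →ₗ[A] B[X] :=
  (Polynomial.mapAlgHom (Algebra.ofId A B)).toLinearMap

@[simp] theorem mapPoly_apply (p : A[X]) : mapPoly A B p = p.map (algebraMap A B) := rfl

variable (B) in
/-- Coordinates after extension of scalars. -/
def Coords.baseChange (c : Coords x) : Coords (x.baseChange B) where
  n := c.n
  gen i := 1 ⊗ₜ c.gen i
  coord i := (mapPoly A B ∘ₗ c.coord i).liftBaseChange B
  coord_mul i w := by
    induction w using TensorProduct.induction_on with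
    | zero => simp
    | tmul b m => simp [c.coord_mul]
    | add v w hv hw => rw [map_add, map_add, map_add, hv, hw, mul_add]
  sum_eq w := by
    induction w using TensorProduct.induction_on with
    | zero => simp
    | add v w hv hw =>
      simp only [map_add, LinearMap.add_apply, Finset.sum_add_distrib, hv, hw]
    | tmul b m =>
      conv_rhs => rw [← c.sum_eq m, tmul_sum]
      refine Finset.sum_congr rfl fun i _ => ?_
      simp only [LinearMap.liftBaseChange_tmul, LinearMap.comp_apply, mapPoly_apply]
      rw [map_smul, LinearMap.smul_apply, ← baseChange_aeval, LinearMap.baseChange_tmul,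
        TensorProduct.smul_tmul', smul_eq_mul, mul_one]

end BaseChange

end Fermat.Agent.Row24

namespace Fermat.Agent.Row24.Chart

universe u

/-- In a domain over a field the inverse of an algebraic element is a polynomial in it. -/
theorem inv_mem_of_aeval_eq_zero {k R : Type*} [Field k] [CommRing R] [IsDomain R] [Algebra k R]
    {S : Subalgebra k R} {a b : R} (ha : a ∈ S) (hab : a * b = 1) {p : k[X]} (hp0 : p ≠ 0)
    (hp : aeval a p = 0) : b ∈ S := by
  have hi : IsIntegral k a := IsAlgebraic.isIntegral ⟨p, hp0, hp⟩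
  have ha0 : a ≠ 0 := fun h => by rw [h, zero_mul] at hab; exact zero_ne_one hab
  have hc := minpoly.coeff_zero_ne_zero hi ha0
  have hq := minpoly.aeval k a
  set P := minpoly k a
  rw [← P.X_mul_divX_add, map_add, map_mul, aeval_X, aeval_C] at hq
  have h1 : algebraMap k R (P.coeff 0) * b = -aeval a P.divX := by
    rw [eq_neg_iff_add_eq_zero]
    calc algebraMap k R (P.coeff 0) * b + aeval a P.divX
        = algebraMap k R (P.coeff 0) * b + (a * b) * aeval a P.divX := by rw [hab, one_mul]
      _ = (a * aeval a P.divX + algebraMap k R (P.coeff 0)) * b := by ring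
      _ = 0 := by rw [hq, zero_mul]
  have h2 : b = algebraMap k R (P.coeff 0)⁻¹ * -aeval a P.divX := by
    rw [← h1, ← mul_assoc, ← map_mul, inv_mul_cancel₀ hc, map_one, one_mul]
  have hmem : aeval a P.divX ∈ S := by
    rw [show a = ((⟨a, ha⟩ : S) : R) from rfl, ← S.coe_val, aeval_algHom_apply]
    exact SetLike.coe_mem _
  rw [h2]
  exact mul_mem (S.algebraMap_mem _) (neg_mem hmem)

namespace CurveRings

variable {k : Type u} [Field k] (C : CurveRings k)

theorem y_eq_zero_of_mem_B1 (h : C.y ∈ C.B1) : False := by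
  have hy : C.y ∈ C.B1 ⊓ C.B2 := ⟨h, C.y_mem⟩
  rw [C.inf_eq, Algebra.mem_bot] at hy
  obtain ⟨c, hc⟩ := hy
  have h0 := C.aug_y
  rw [show (⟨C.y, C.y_mem⟩ : C.B2) = algebraMap k C.B2 c from Subtype.ext hc.symm,
    AlgHom.commutes] at h0
  have := C.x_mul_y
  rw [← hc, show c = 0 from h0, map_zero, mul_zero] at this
  exact zero_ne_one this

theorem x_not_mem_B2 (h : C.x ∈ C.B2) : False := by
  have h1 : (⟨C.x, h⟩ : C.B2) * ⟨C.y, C.y_mem⟩ = 1 := Subtype.ext C.x_mul_y
  have h2 := congrArg C.aug h1
  rw [map_mul, C.aug_y, mul_zero, map_one] at h2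
  exact zero_ne_one h2

theorem aeval_x_injective :
    Function.Injective (aeval (R := k) (⟨C.x, C.x_mem⟩ : C.B1)) := by
  refine (injective_iff_map_eq_zero _).2 fun p hp => by_contra fun hp0 => C.y_eq_zero_of_mem_B1 ?_
  refine inv_mem_of_aeval_eq_zero C.x_mem C.x_mul_y hp0 ?_
  have := congrArg C.B1.val hp
  rwa [← aeval_algHom_apply, map_zero] at this

theorem aeval_y_injective :
    Function.Injective (aeval (R := k) (⟨C.y, C.y_mem⟩ : C.B2)) := by
  refine (injective_iff_map_eq_zero _).2 fun p hp => by_contra fun hp0 => C.x_not_mem_B2 ?_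
  refine inv_mem_of_aeval_eq_zero C.y_mem (by rw [mul_comm, C.x_mul_y]) hp0 ?_
  have := congrArg C.B2.val hp
  rwa [← aeval_algHom_apply, map_zero] at this

/-- A ring finite over the polynomials in an element has coordinates. -/
theorem nonempty_coords_mulLeft {B : Type u} [CommRing B] [IsDomain B] [Algebra k B] (t : B)
    (hf : (aeval (R := k) t).toRingHom.Finite) (hi : Function.Injective (aeval (R := k) t)) :
    Nonempty (Row24.Coords (LinearMap.mulLeft k t)) := by
  let alg : Algebra k[X] B := (aeval (R := k) t).toRingHom.toAlgebra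
  have : IsScalarTower k k[X] B := IsScalarTower.of_algebraMap_eq fun c => (aeval_C t c).symm
  have : Module.Finite k[X] B := hf
  have : Module.IsTorsionFree k[X] B :=
    Module.isTorsionFree_iff_algebraMap_injective.mpr hi
  have he : Row24.mulX k B = LinearMap.mulLeft k t := LinearMap.ext fun m => by
    show (X : k[X]) • m = t * m
    rw [Algebra.smul_def]
    show aeval t X * m = t * m
    rw [aeval_X]
  exact he ▸ Row24.nonempty_coords k B

theorem nonempty_coords1 :
    Nonempty (Row24.Coords (LinearMap.mulLeft k (⟨C.x, C.x_mem⟩ : C.B1))) :=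
  nonempty_coords_mulLeft _ C.finite1 C.aeval_x_injective

theorem nonempty_coords2 :
    Nonempty (Row24.Coords (LinearMap.mulLeft k (⟨C.y, C.y_mem⟩ : C.B2))) :=
  nonempty_coords_mulLeft _ C.finite2 C.aeval_y_injective

variable (A : Type u) [CommRing A] [Algebra k A]

/-- Coordinates on a chart over `A`. -/
def coordsSub {B : Subalgebra k C.B12} {t : C.B12} (ht : t ∈ B)
    (c : Row24.Coords (LinearMap.mulLeft k (⟨t, ht⟩ : B))) :
    Row24.Coords (LinearMap.mulLeft A (⟨1 ⊗ₜ t, C.tmul_mem_sub 1 ht⟩ : C.sub A B)) :=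
  (c.baseChange A).ofSplit (ι := Unit) (fun _ => (C.subEquiv A B).symm.toLinearMap)
    (fun _ => (C.subEquiv A B).toLinearMap)
    (fun _ m => by
      obtain ⟨w, rfl⟩ := (C.subEquiv A B).surjective m
      have : (⟨1 ⊗ₜ t, C.tmul_mem_sub 1 ht⟩ : C.sub A B) =
          C.subEquiv A B (1 ⊗ₜ ⟨t, ht⟩) := Subtype.ext rfl
      rw [LinearMap.mulLeft_apply, this, ← map_mul]
      simp only [AlgEquiv.toLinearMap_apply, AlgEquiv.symm_apply_apply]
      induction w using TensorProduct.induction_on with
      | zero => simp
      | tmul a z => simp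
      | add v w hv hw => rw [mul_add, map_add, hv, hw])
    (fun _ w => by
      have : (⟨1 ⊗ₜ t, C.tmul_mem_sub 1 ht⟩ : C.sub A B) =
          C.subEquiv A B (1 ⊗ₜ ⟨t, ht⟩) := Subtype.ext rfl
      rw [LinearMap.mulLeft_apply, this, AlgEquiv.toLinearMap_apply, AlgEquiv.toLinearMap_apply,
        ← map_mul]
      congr 1
      induction w using TensorProduct.induction_on with
      | zero => simp
      | tmul a z => simp
      | add v w hv hw => rw [mul_add, map_add, hv, hw])
    (fun m => by simp)

theorem projective_sub (B : Subalgebra k C.B12) : Module.Projective A (C.sub A B) :=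
  Module.Projective.of_equiv (C.subEquiv A B).toLinearEquiv

/-- The point is cut out by finitely many functions, with a partition of unity. -/
theorem exists_gen_ker_aug : ∃ (n : ℕ) (s : Fin n → C.B2) (t : Fin n → C.B12),
    (∀ i, C.aug (s i) = 0) ∧ (∀ i (z : C.B2), C.aug z = 0 → t i * z ∈ C.B2) ∧
      ∑ i, t i * (s i : C.B12) = 1 := by
  have := C.isDedekind2
  set m := RingHom.ker C.aug
  set yy : C.B2 := ⟨C.y, C.y_mem⟩
  have hy : yy ∈ m := RingHom.mem_ker.2 C.aug_y
  obtain ⟨J, hJ⟩ := Ideal.dvd_iff_le.2 ((Ideal.span_singleton_le_iff_mem m).2 hy)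
  have hmem : yy ∈ Submodule.span C.B2 (Set.image2 (· * ·) (m : Set C.B2) J) := by
    have h : yy ∈ m * J := hJ ▸ Ideal.mem_span_singleton_self yy
    rw [← Submodule.span_eq m, ← Submodule.span_eq J, Submodule.span_mul_span] at h
    exact h
  obtain ⟨n, f, v, hv⟩ := Submodule.mem_span_set'.1 hmem
  choose a ha b hb hab using fun i => (v i).2
  refine ⟨n, a, fun i => ((f i * b i : C.B2) : C.B12) * C.x, fun i => RingHom.mem_ker.1 (ha i),
    fun i z hz => ?_, ?_⟩
  · have h1 : z * (f i * b i) ∈ m * J :=
      Ideal.mul_mem_mul (RingHom.mem_ker.2 hz) (Ideal.mul_mem_left _ _ (hb i))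
    rw [← hJ, Ideal.mem_span_singleton'] at h1
    obtain ⟨w, hw⟩ := h1
    have h2 := congrArg (Subtype.val) hw
    simp only [yy, MulMemClass.coe_mul] at h2
    have e : ((f i * b i : C.B2) : C.B12) * C.x * z = w := by
      calc ((f i * b i : C.B2) : C.B12) * C.x * z
          = ((z : C.B12) * ((f i : C.B12) * (b i : C.B12))) * C.x := by
            simp only [MulMemClass.coe_mul]; ring
        _ = (w : C.B12) * (C.x * C.y) := by rw [← h2]; ring
        _ = w := by rw [C.x_mul_y, mul_one]
    rw [e]; exact w.2
  · have h := congrArg Subtype.val hv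
    rw [AddSubmonoidClass.coe_finsetSum] at h
    calc ∑ i, ((f i * b i : C.B2) : C.B12) * C.x * (a i : C.B12)
        = (∑ i, (((f i • (v i : C.B2)) : C.B2) : C.B12)) * C.x := by
          rw [Finset.sum_mul]
          refine Finset.sum_congr rfl fun i _ => ?_
          simp only [smul_eq_mul, ← hab i, MulMemClass.coe_mul]; ring
      _ = 1 := by rw [h]; exact (mul_comm _ _).trans C.x_mul_y

variable {A}

theorem tmul_mul_mem_of_augA_eq_zero {t : C.B12} (ht : ∀ z : C.B2, C.aug z = 0 → t * z ∈ C.B2)
    {r : C.R2 A} (hr : C.augA A r = 0) : (1 ⊗ₜ t) * (r : C.R12 A) ∈ C.R2 A := by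
  suffices h : ∀ w : A ⊗[k] C.B2, (1 ⊗ₜ t) * (((C.subEquiv A C.B2 w : C.R2 A) : C.R12 A) -
      algebraMap A (C.R12 A) (C.augA A (C.subEquiv A C.B2 w))) ∈ C.R2 A by
    obtain ⟨w, rfl⟩ := (C.subEquiv A C.B2).surjective r
    simpa [hr] using h w
  intro w
  induction w using TensorProduct.induction_on with
  | zero => simp
  | tmul a z =>
    rw [C.augA_subEquiv_tmul, CurveRings.subEquiv_tmul]
    have e : ((z : C.B12) - algebraMap k C.B12 (C.aug z)) =
        ((z - algebraMap k C.B2 (C.aug z) : C.B2) : C.B12) := by simp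
    have e2 : algebraMap A (C.R12 A) (C.aug z • a) = a ⊗ₜ algebraMap k C.B12 (C.aug z) := by
      rw [Algebra.TensorProduct.algebraMap_apply, Algebra.algebraMap_self, RingHom.id_apply,
        TensorProduct.smul_tmul, Algebra.algebraMap_eq_smul_one]
    rw [e2, ← TensorProduct.tmul_sub, Algebra.TensorProduct.tmul_mul_tmul, one_mul, e]
    exact C.tmul_mem_sub a (ht _ (by simp))
  | add v w hv hw =>
    rw [map_add, map_add, map_add, AddMemClass.coe_add, add_sub_add_comm, mul_add]
    exact add_mem hv hw

end CurveRings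

end Fermat.Agent.Row24.Chart

end
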