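import Mathlib.RingTheory.Jacobson.Ring
import Mathlib.RingTheory.Nullstellensatz
import Mathlib.LinearAlgebra.TensorProduct.Basis
import Mathlib.RingTheory.TensorProduct.Basic
import Mathlib.Algebra.Module.Projective
import Mathlib.RingTheory.TensorProduct.Maps

/-!
# Rational points detect nonzero elements after extending the constants
-/

set_option autoImplicit false

noncomputable section

open TensorProduct

namespace Fermat.Agent.Row24

universe u v w

variable {k : Type u} [Field k] [IsAlgClosed k] {B : Type v} [CommRing B] [Algebra k B]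
  [Algebra.FiniteType k B]

/-- A nonzero element of a reduced algebra of finite type is nonzero at a rational point. -/
theorem exists_algHom_apply_ne_zero [IsReduced B] {c : B} (hc : c ≠ 0) :
    ∃ π : B →ₐ[k] k, π c ≠ 0 := by
  have : IsJacobsonRing B := isJacobsonRing_of_finiteType (A := k)
  have hj : (⊥ : Ideal B).jacobson = ⊥ :=
    IsJacobsonRing.out' ⊥ (Ideal.isRadical_iff_quotient_reduced ⊥ |>.mpr
      (isReduced_of_injective (RingEquiv.quotientBot B) (RingEquiv.quotientBot B).injective))
  have hnot : c ∉ (⊥ : Ideal B).jacobson := by rw [hj]; simpa using hc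
  rw [Ideal.jacobson, Submodule.mem_sInf] at hnot
  push Not at hnot
  obtain ⟨m, ⟨-, hm⟩, hcm⟩ := hnot
  let := Ideal.Quotient.field m
  have : Module.Finite k (B ⧸ m) :=
    @finite_of_finite_type_of_isJacobsonRing k (B ⧸ m) _ _ _ _
      (Algebra.FiniteType.of_surjective (Ideal.Quotient.mkₐ k m) Ideal.Quotient.mk_surjective)
  have hbij : Function.Bijective (algebraMap k (B ⧸ m)) :=
    IsAlgClosed.algebraMap_bijective_of_isIntegral (k := k) (K := B ⧸ m)
  refine ⟨(AlgEquiv.ofBijective (Algebra.ofId k (B ⧸ m)) hbij).symm.toAlgHom.comp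
    (Ideal.Quotient.mkₐ k m), fun h => hcm ?_⟩
  rw [← Ideal.Quotient.eq_zero_iff_mem]
  exact (EmbeddingLike.map_eq_zero_iff
    (f := (AlgEquiv.ofBijective (Algebra.ofId k (B ⧸ m)) hbij).symm)).mp h

variable {K : Type w} [CommRing K] [Algebra k K]

/-- The value at a rational point after extending the constants. -/
def evalPoint (K : Type w) [CommRing K] [Algebra k K] (π : B →ₐ[k] k) : K ⊗[k] B →ₐ[K] K :=
  (Algebra.TensorProduct.rid k K K).toAlgHom.comp
    (Algebra.TensorProduct.map (AlgHom.id K K) π)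

omit [IsAlgClosed k] [Algebra.FiniteType k B] in
@[simp] theorem evalPoint_tmul (π : B →ₐ[k] k) (a : K) (c : B) :
    evalPoint K π (a ⊗ₜ c) = π c • a := by
  simp [evalPoint]

/-- **Rational points are dense after extending the constants.** -/
theorem exists_evalPoint_ne_zero [IsDomain B] {z : K ⊗[k] B} (hz : z ≠ 0) {f : B} (hf : f ≠ 0) :
    ∃ π : B →ₐ[k] k, π f ≠ 0 ∧ evalPoint K π z ≠ 0 := by
  classical
  let e := Module.Free.chooseBasis k K
  let c := (TensorProduct.equivFinsuppOfBasisLeft e) z
  have hzc : z = c.sum fun i b => e i ⊗ₜ b := by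
    rw [← TensorProduct.equivFinsuppOfBasisLeft_symm_apply]; simp [c]
  obtain ⟨i, hi⟩ : ∃ i, c i ≠ 0 := by
    by_contra h
    push Not at h
    exact hz (by rw [hzc, show c = 0 from Finsupp.ext h, Finsupp.sum_zero_index])
  obtain ⟨π, hπ⟩ := exists_algHom_apply_ne_zero (k := k) (mul_ne_zero hf hi)
  rw [map_mul, mul_ne_zero_iff] at hπ
  refine ⟨π, hπ.1, fun h => hπ.2 ?_⟩
  rw [hzc, map_finsuppSum] at h
  simp only [evalPoint_tmul] at h
  have h' := congrArg (fun a => e.repr a i) h
  have h'' : ¬ c i = 0 → π (c i) = 0 := by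
    simpa [Finsupp.sum, map_sum, Finsupp.single_apply] using h'
  exact h'' hi

/-- A nonzero element of a projective module over the extended algebra is nonzero at a rational
point. -/
theorem exists_evalPoint_dual_ne_zero [IsDomain B] {M : Type*} [AddCommGroup M]
    [Module (K ⊗[k] B) M] [Module.Projective (K ⊗[k] B) M] {s : M} (hs : s ≠ 0) {f : B}
    (hf : f ≠ 0) : ∃ π : B →ₐ[k] k, π f ≠ 0 ∧
      ∃ φ : M →ₗ[K ⊗[k] B] K ⊗[k] B, evalPoint K π (φ s) ≠ 0 := by
  obtain ⟨g, hg⟩ := Module.projective_def.1 (inferInstance : Module.Projective (K ⊗[k] B) M)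
  obtain ⟨m, hm⟩ : ∃ m, g s m ≠ 0 := by
    by_contra h
    push Not at h
    exact hs (by rw [← hg s, show g s = 0 from Finsupp.ext h, map_zero])
  obtain ⟨π, h1, h2⟩ := exists_evalPoint_ne_zero (K := K) hm hf
  exact ⟨π, h1, (Finsupp.lapply m).comp g, h2⟩

end Fermat.Agent.Row24

end
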