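import Fermat.Agent.Row24.Euler.Family

/-!
# Removing points

A bundle mapped onto the sections in given ideals has its Euler characteristic lowered by their
codimensions; the sections vanishing at a rational point have codimension one. This holds over
any field containing the constants.
-/

set_option autoImplicit false

universe u

noncomputable section


namespace Fermat.Agent.Row24

open LinearMap

section Restrict

variable {k : Type*} [Field k] {R₁ R₂ V : Type u} [CommRing R₁] [CommRing R₂] [AddCommGroup V]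
  [Module k V] [Algebra k R₁] [Algebra k R₂] [Module R₁ V] [Module R₂ V] [IsScalarTower k R₁ V]
  [IsScalarTower k R₂ V] (N₁ : Submodule R₁ V) (N₂ : Submodule R₂ V)

/-- A submodule over an algebra as a vector space. -/
def restrictEquiv {R : Type u} [CommRing R] [Algebra k R] [Module R V] [IsScalarTower k R V]
    (N : Submodule R V) : N.restrictScalars k ≃ₗ[k] N where
  toFun m := ⟨m.1, m.2⟩
  invFun m := ⟨m.1, m.2⟩
  map_add' _ _ := rfl
  map_smul' _ _ := rfl

theorem index_cechDiff_restrict :
    (cechDiff (A := k) (M₁ := N₁) (M₂ := N₂) (N := V) (N₁.subtype.restrictScalars k)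
        (N₂.subtype.restrictScalars k)).index =
      (cechDiff (N₁.restrictScalars k).subtype (N₂.restrictScalars k).subtype).index :=
  index_congr ((restrictEquiv N₁).prodCongr (restrictEquiv N₂)) (LinearEquiv.refl k V)
    (LinearMap.ext fun p => by simp [cechDiff_apply, restrictEquiv])

theorem hasFiniteIndex_restrict (h : HasFiniteIndex (cechDiff (A := k) (M₁ := N₁) (M₂ := N₂)
      (N := V) (N₁.subtype.restrictScalars k) (N₂.subtype.restrictScalars k))) :
    HasFiniteIndex (cechDiff (N₁.restrictScalars k).subtype (N₂.restrictScalars k).subtype) :=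
  h.congr ((restrictEquiv N₁).symm.prodCongr (restrictEquiv N₂).symm) (LinearEquiv.refl k V)
    (LinearMap.ext fun p => by simp [cechDiff_apply, restrictEquiv])

end Restrict

/-- A line in a quotient. -/
theorem finrank_quotient_eq_one {K P : Type*} [Field K] [AddCommGroup P] [Module K P]
    (J : Submodule K P) (h : ∃ e : P, ∀ v : P, ∃! a : K, v - a • e ∈ J) :
    Module.finrank K (P ⧸ J) = 1 := by
  obtain ⟨e, he⟩ := h
  let q : K →ₗ[K] P ⧸ J := LinearMap.toSpanSingleton K _ (Submodule.Quotient.mk e)
  have hq : Function.Bijective q := by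
    refine ⟨(injective_iff_map_eq_zero _).2 fun a ha => ?_, fun w => ?_⟩
    · rw [LinearMap.toSpanSingleton_apply, ← Submodule.Quotient.mk_smul,
        Submodule.Quotient.mk_eq_zero] at ha
      exact (he 0).unique (y₁ := a) (y₂ := 0) (by rw [zero_sub]; exact neg_mem ha) (by simp)
    · obtain ⟨v, rfl⟩ := Submodule.Quotient.mk_surjective _ w
      obtain ⟨a, ha, -⟩ := he v
      exact ⟨a, ((Submodule.Quotient.eq J).2 ha).symm⟩
  exact (LinearEquiv.ofBijective q hq).finrank_eq.symm.trans (Module.finrank_self K)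

section Fibre

variable {K R V : Type*} [Field K] [CommRing R] [Algebra K R] [AddCommGroup V] [Module R V]
  [Module K V] [IsScalarTower K R V]

/-- The fibre of an invertible module at a rational point is a line. -/
theorem exists_existsUnique_sub_smul_mem [Module.Invertible R V] (ρ : R →ₐ[K] K) :
    ∃ e : V, ∀ v : V, ∃! a : K,
      v - a • e ∈ (RingHom.ker ρ • (⊤ : Submodule R V)).restrictScalars K := by
  obtain ⟨t, ht⟩ := (Module.Invertible.bijective (R := R) (M := V)).2 1
  obtain ⟨S, rfl⟩ := TensorProduct.exists_finset t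
  obtain ⟨⟨φ, w⟩, -, hφ⟩ : ∃ p ∈ S, ρ (p.1 p.2) ≠ 0 := by
    by_contra h
    push Not at h
    have h1 := congrArg ρ ht
    rw [map_sum, map_sum, map_one,
      Finset.sum_eq_zero fun p hp => by rw [contractLeft_apply]; exact h p hp] at h1
    exact zero_ne_one h1
  let ψ : V →ₗ[R] R := algebraMap K R (ρ (φ w))⁻¹ • φ
  have hψ : ρ (ψ w) = 1 := by
    show ρ (algebraMap K R (ρ (φ w))⁻¹ * φ w) = 1
    rw [map_mul, AlgHom.commutes]
    exact inv_mul_cancel₀ hφ
  refine ⟨w, fun v => ⟨ρ (ψ v), ?_, fun a ha => ?_⟩⟩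
  · show v - ρ (ψ v) • w ∈ RingHom.ker ρ • (⊤ : Submodule R V)
    have hid : v - ρ (ψ v) • w = (1 - ψ w) • v + (ψ v - algebraMap K R (ρ (ψ v))) • w := by
      rw [sub_smul, sub_smul, one_smul, algebraMap_smul, Chart.apply_smul_comm ψ w v]
      abel
    rw [hid]
    refine add_mem (Submodule.smul_mem_smul ?_ Submodule.mem_top)
      (Submodule.smul_mem_smul ?_ Submodule.mem_top)
    · rw [RingHom.mem_ker, map_sub, map_one, hψ, sub_self]
    · rw [RingHom.mem_ker, map_sub, AlgHom.commutes]
      simp
  · have key : ∀ z ∈ RingHom.ker ρ • (⊤ : Submodule R V), ρ (ψ z) = 0 := by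
      intro z hz
      refine Submodule.smul_induction_on (p := fun z => ρ (ψ z) = 0) hz (fun r hr x _ => ?_)
        fun a b ha hb => ?_
      · rw [map_smul, smul_eq_mul, map_mul, RingHom.mem_ker.1 hr, zero_mul]
      · rw [map_add, map_add, ha, hb, add_zero]
    have h0 := key _ ha
    rw [map_sub, LinearMap.map_smul_of_tower, map_sub, map_smul, hψ, smul_eq_mul, mul_one,
      sub_eq_zero] at h0
    exact h0.symm

/-- The codimension of the sections vanishing at a rational point. -/
theorem finrank_quotient_comap_fibre (N : Submodule R V) [Module.Invertible R N] (ρ : R →ₐ[K] K) :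
    Module.finrank K (N.restrictScalars K ⧸
        ((RingHom.ker ρ • N).restrictScalars K).comap (N.restrictScalars K).subtype) = 1 := by
  obtain ⟨e, he⟩ := exists_existsUnique_sub_smul_mem (K := K) (V := N) ρ
  refine finrank_quotient_eq_one _ ⟨⟨e, e.2⟩, fun v => ?_⟩
  obtain ⟨a, ha, hu⟩ := he ⟨v, v.2⟩
  exact ⟨a, (Submodule.mem_smul_top_iff _ N _).1 ha,
    fun b hb => hu b ((Submodule.mem_smul_top_iff _ N _).2 hb)⟩

/-- The unit ideal removes nothing. -/
theorem finrank_quotient_comap_top (N : Submodule R V) :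
    FiniteDimensional K (N.restrictScalars K ⧸
        (((⊤ : Ideal R) • N).restrictScalars K).comap (N.restrictScalars K).subtype) ∧
      Module.finrank K (N.restrictScalars K ⧸
        (((⊤ : Ideal R) • N).restrictScalars K).comap (N.restrictScalars K).subtype) = 0 := by
  have : Subsingleton (N.restrictScalars K ⧸
      (((⊤ : Ideal R) • N).restrictScalars K).comap (N.restrictScalars K).subtype) :=
    Submodule.Quotient.subsingleton_iff.mpr (eq_top_iff.2 fun m _ => by
      rw [Submodule.mem_comap, Submodule.restrictScalars_mem, Submodule.top_smul]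
      exact m.2)
  exact ⟨inferInstance, Module.finrank_zero_of_subsingleton⟩

end Fibre

end Fermat.Agent.Row24

namespace Fermat.Agent.Row24.Chart.Glued

open LinearMap

variable {k : Type u} [Field k] {C : CurveRings k} {K : Type u} [Field K] [Algebra k K]

/-- Sections on the first chart as a vector space. -/
abbrev N1 (M : Glued C K) : Submodule K M.carrier := M.M1.restrictScalars K

/-- Sections on the second chart as a vector space. -/
abbrev N2 (M : Glued C K) : Submodule K M.carrier := M.M2.restrictScalars K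

theorem chi_eq_index_restrict (M : Glued C K) :
    M.chi = (cechDiff M.N1.subtype M.N2.subtype).index := by
  rw [chi, cech]
  exact index_cechDiff_restrict (k := K) (R₁ := C.R1 K) (R₂ := C.R2 K) (V := M.carrier) M.M1 M.M2

theorem hasFiniteIndex_cech_restrict (M : Glued C K) :
    HasFiniteIndex (cechDiff M.N1.subtype M.N2.subtype) := by
  have h := M.hasFiniteIndex_cech
  rw [cech] at h
  exact hasFiniteIndex_restrict (k := K) (R₁ := C.R1 K) (R₂ := C.R2 K) (V := M.carrier) M.M1 M.M2 h

/-- A section exists as soon as the characteristic is positive. -/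
theorem exists_section_of_chi_pos (M : Glued C K) (h : 0 < M.chi) : ∃ s ∈ M.h0, s ≠ 0 := by
  rw [chi_eq_index_restrict] at h
  obtain ⟨p, hp, hne⟩ := HasFiniteIndex.exists_ne_zero_of_index_pos h
  rw [cechDiff_apply, sub_eq_zero] at hp
  have heq : (p.1 : M.carrier) = (p.2 : M.carrier) := hp
  refine ⟨(p.1 : M.carrier), ⟨p.1.2, heq ▸ p.2.2⟩, fun h0 => hne (Prod.ext ?_ ?_)⟩
  · exact Subtype.ext h0
  · exact Subtype.ext (heq.symm.trans h0)

/-- `M'` is the bundle of sections of `M` in the given ideals. -/
structure IsDown (M' M : Glued C K) (I1 : Ideal (C.R1 K)) (I2 : Ideal (C.R2 K))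
    (I12 : Ideal (C.R12 K)) where
  /-- the inclusion -/
  toFun : M'.carrier →ₗ[C.R12 K] M.carrier
  injective : Function.Injective toFun
  range_eq : LinearMap.range toFun = I12 • (⊤ : Submodule (C.R12 K) M.carrier)
  map1 : M'.M1.map (toFun.restrictScalars (C.R1 K)) = I1 • M.M1
  map2 : M'.M2.map (toFun.restrictScalars (C.R2 K)) = I2 • M.M2

variable {M' M : Glued C K} {I1 : Ideal (C.R1 K)} {I2 : Ideal (C.R2 K)} {I12 : Ideal (C.R12 K)}

/-- The sections of the first chart in an ideal. -/
abbrev sub1 (M : Glued C K) (I : Ideal (C.R1 K)) : Submodule K M.N1 :=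
  ((I • M.M1).restrictScalars K).comap M.N1.subtype

/-- The sections of the second chart in an ideal. -/
abbrev sub2 (M : Glued C K) (I : Ideal (C.R2 K)) : Submodule K M.N2 :=
  ((I • M.M2).restrictScalars K).comap M.N2.subtype

/-- The sections on the overlap in an ideal. -/
abbrev sub12 (M : Glued C K) (I : Ideal (C.R12 K)) : Submodule K M.carrier :=
  (I • (⊤ : Submodule (C.R12 K) M.carrier)).restrictScalars K

namespace IsDown

variable (f : IsDown M' M I1 I2 I12)

include f in
/-- **The Euler characteristic of the sections in the ideals.** -/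
theorem chi_eq [FiniteDimensional K (M.N1 ⧸ M.sub1 I1)] [FiniteDimensional K (M.N2 ⧸ M.sub2 I2)]
    [FiniteDimensional K (M.carrier ⧸ M.sub12 I12)] :
    M'.chi = M.chi
      - (Module.finrank K (M.N1 ⧸ M.sub1 I1) + Module.finrank K (M.N2 ⧸ M.sub2 I2))
      + Module.finrank K (M.carrier ⧸ M.sub12 I12) := by
  let j : M'.carrier →ₗ[K] M.carrier := f.toFun.restrictScalars K
  have hm1 : ∀ a : M'.N1, j a ∈ M.N1 := fun a => by
    have h : f.toFun (a : M'.carrier) ∈ M'.M1.map (f.toFun.restrictScalars (C.R1 K)) :=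
      Submodule.mem_map_of_mem (f := f.toFun.restrictScalars (C.R1 K))
        (Submodule.restrictScalars_mem K M'.M1 _ |>.1 a.2)
    rw [f.map1] at h
    exact (Submodule.restrictScalars_mem K M.M1 _).2 (Submodule.smul_le_right h)
  have hm2 : ∀ a : M'.N2, j a ∈ M.N2 := fun a => by
    have h : f.toFun (a : M'.carrier) ∈ M'.M2.map (f.toFun.restrictScalars (C.R2 K)) :=
      Submodule.mem_map_of_mem (f := f.toFun.restrictScalars (C.R2 K))
        (Submodule.restrictScalars_mem K M'.M2 _ |>.1 a.2)
    rw [f.map2] at h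
    exact (Submodule.restrictScalars_mem K M.M2 _).2 (Submodule.smul_le_right h)
  let i1 : M'.N1 →ₗ[K] M.N1 := (j.comp M'.N1.subtype).codRestrict M.N1 hm1
  let i2 : M'.N2 →ₗ[K] M.N2 := (j.comp M'.N2.subtype).codRestrict M.N2 hm2
  have r1 : LinearMap.range i1 = M.sub1 I1 := by
    ext m
    rw [LinearMap.mem_range, Submodule.mem_comap, Submodule.restrictScalars_mem, ← f.map1,
      Submodule.mem_map]
    exact ⟨fun ⟨q, hq⟩ => ⟨q, q.2, congrArg Subtype.val hq⟩,
      fun ⟨q, hq, he⟩ => ⟨⟨q, hq⟩, Subtype.ext he⟩⟩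
  have r2 : LinearMap.range i2 = M.sub2 I2 := by
    ext m
    rw [LinearMap.mem_range, Submodule.mem_comap, Submodule.restrictScalars_mem, ← f.map2,
      Submodule.mem_map]
    exact ⟨fun ⟨q, hq⟩ => ⟨q, q.2, congrArg Subtype.val hq⟩,
      fun ⟨q, hq, he⟩ => ⟨⟨q, hq⟩, Subtype.ext he⟩⟩
  have rN : LinearMap.range j = M.sub12 I12 := by
    ext m
    rw [Submodule.restrictScalars_mem, ← f.range_eq]
    rfl
  rw [chi_eq_index_restrict, chi_eq_index_restrict, ← (Submodule.quotEquivOfEq _ _ r1).finrank_eq,
    ← (Submodule.quotEquivOfEq _ _ r2).finrank_eq, ← (Submodule.quotEquivOfEq _ _ rN).finrank_eq]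
  exact index_cechDiff_subcomplex M'.N1.subtype M'.N2.subtype M.N1.subtype M.N2.subtype i1 i2 j
    (fun a b h => Subtype.ext (f.injective (congrArg Subtype.val h)))
    (fun a b h => Subtype.ext (f.injective (congrArg Subtype.val h))) f.injective
    (fun _ => rfl) (fun _ => rfl) (Module.Finite.equiv (Submodule.quotEquivOfEq _ _ r1).symm)
    (Module.Finite.equiv (Submodule.quotEquivOfEq _ _ r2).symm)
    (Module.Finite.equiv (Submodule.quotEquivOfEq _ _ rN).symm) M.hasFiniteIndex_cech_restrict

end IsDown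

section Fibres

variable (M)

theorem finrank_sub1_ker (φ : C.R1 K →ₐ[K] K) :
    Module.finrank K (M.N1 ⧸ M.sub1 (RingHom.ker φ)) = 1 :=
  finrank_quotient_comap_fibre M.M1 φ

theorem finrank_sub2_ker (φ : C.R2 K →ₐ[K] K) :
    Module.finrank K (M.N2 ⧸ M.sub2 (RingHom.ker φ)) = 1 :=
  finrank_quotient_comap_fibre M.M2 φ

theorem finrank_sub12_ker (π : C.R12 K →ₐ[K] K) :
    Module.finrank K (M.carrier ⧸ M.sub12 (RingHom.ker π)) = 1 :=
  finrank_quotient_eq_one _ (exists_existsUnique_sub_smul_mem π)

theorem finrank_sub12_top :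
    FiniteDimensional K (M.carrier ⧸ M.sub12 ⊤) ∧
      Module.finrank K (M.carrier ⧸ M.sub12 ⊤) = 0 := by
  have : Subsingleton (M.carrier ⧸ M.sub12 ⊤) :=
    Submodule.Quotient.subsingleton_iff.mpr (eq_top_iff.2 fun m _ => by
      rw [Submodule.restrictScalars_mem, Submodule.top_smul]; exact Submodule.mem_top)
  exact ⟨inferInstance, Module.finrank_zero_of_subsingleton⟩

variable {M}

/-- Removing a point of the overlap. -/
theorem IsDown.chi_both (π : C.R12 K →ₐ[K] K)
    (f : IsDown M' M (RingHom.ker (π.comp (C.R1 K).val)) (RingHom.ker (π.comp (C.R2 K).val))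
      (RingHom.ker π)) : M'.chi = M.chi - 1 := by
  have h1 := M.finrank_sub1_ker (π.comp (C.R1 K).val)
  have h2 := M.finrank_sub2_ker (π.comp (C.R2 K).val)
  have h3 := M.finrank_sub12_ker π
  have := FiniteDimensional.of_finrank_eq_succ (n := 0) h1
  have := FiniteDimensional.of_finrank_eq_succ (n := 0) h2
  have := FiniteDimensional.of_finrank_eq_succ (n := 0) h3
  rw [f.chi_eq, h1, h2, h3]; ring

/-- Removing a point of the first chart only. -/
theorem IsDown.chi_first (φ : C.R1 K →ₐ[K] K) (f : IsDown M' M (RingHom.ker φ) ⊤ ⊤) :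
    M'.chi = M.chi - 1 := by
  have h1 := M.finrank_sub1_ker φ
  obtain ⟨i2, h2⟩ := finrank_quotient_comap_top (K := K) M.M2
  obtain ⟨i3, h3⟩ := M.finrank_sub12_top
  have := FiniteDimensional.of_finrank_eq_succ (n := 0) h1
  rw [f.chi_eq, h1, h2, h3]; ring

/-- Removing the point at infinity. -/
theorem IsDown.chi_infty (f : IsDown M' M ⊤ (RingHom.ker (C.augA K)) ⊤) :
    M'.chi = M.chi - 1 := by
  obtain ⟨i1, h1⟩ := finrank_quotient_comap_top (K := K) M.M1
  have h2 := M.finrank_sub2_ker (C.augA K)
  obtain ⟨i3, h3⟩ := M.finrank_sub12_top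
  have := FiniteDimensional.of_finrank_eq_succ (n := 0) h2
  rw [f.chi_eq, h1, h2, h3]; ring

end Fibres

end Fermat.Agent.Row24.Chart.Glued

end
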