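import Fermat.Agent.Row24.Euler.Point
import Fermat.Agent.Row24.Euler.Down
import Fermat.Agent.Row24.Euler.Dense

/-!
# Twisting by points over an arbitrary field of functions

Over any field extension of the constants, twisting down by the point at infinity or by a rational
point of the overlap lowers the Euler characteristic by one, and keeps the vanishing of `H¹` when
a section is nonzero at the point.
-/

set_option autoImplicit false

universe u

noncomputable section

open TensorProduct

namespace Fermat.Agent.Row24.Chart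

/-- A section of a lattice vanishing at a point is in the ideal of the point. -/
theorem mem_ker_comp_smul_of_eval_eq_zero {K S V : Type u} [Field K] [CommRing S] [Algebra K S]
    [AddCommGroup V] [Module S V] [Module.Invertible S V] {T : Subalgebra K S} {N : Submodule T V}
    (hN : IsLattice T N) (ρ : S →ₐ[K] K) (ψ : V →ₗ[S] S) {s : V} (hs : ρ (ψ s) = 1)
    {m : V} (hm : m ∈ N) (h0 : ρ (ψ m) = 0) :
    m ∈ RingHom.ker (ρ.comp T.val) • N := by
  obtain ⟨n, φ, v, hv, hφ, h1⟩ := hN
  rw [← sum_smul_eq φ v h1 m]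
  refine sum_mem fun i _ => ?_
  refine Submodule.smul_mem_smul (r := (⟨φ i m, hφ i m hm⟩ : T)) ?_ (hv i)
  rw [RingHom.mem_ker]
  show ρ (φ i m) = 0
  have h := congrArg (fun z => ρ (φ i z)) (apply_smul_comm ψ s m)
  simp only [map_smul, smul_eq_mul, map_mul, hs, h0, one_mul, zero_mul] at h
  exact h

namespace Glued

variable {k : Type u} [Field k] {C : CurveRings k} {K : Type u} [Field K] [Algebra k K]
  (L : Glued C K)

/-- A bundle twisted down at infinity, inside the bundle. -/
def twistInftyDown : IsDown (L.twist (Twist.infty C)) L ⊤ (RingHom.ker (C.augA K)) ⊤ where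
  toFun := L.toBase (Twist.infty C) (Twist.infty_J12A_le K)
  injective := L.toBase_injective (Twist.infty C) (Twist.infty_J12A_le K)
  range_eq := (L.range_toBase (Twist.infty C) (Twist.infty_J12A_le K)).trans
    (by rw [Twist.comap_infty12])
  map1 := (L.map_toBase_M1 (Twist.infty C) (Twist.infty_J12A_le K) (by
    show C.ext K C.B1 (1 : (Submodule C.B1 C.Frac)ˣ).1 ≤ 1
    rw [Units.val_one, map_one])).trans (by rw [Twist.comap_infty1])
  map2 := (L.map_toBase_M2 (Twist.infty C) (Twist.infty_J12A_le K)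
    (Twist.ext_idealSub_le K _)).trans (by rw [Twist.comap_infty2])

/-- A bundle twisted down at a rational point, inside the bundle. -/
def twistPointDown (π : C.B12 →ₐ[k] k) : IsDown (L.twist (Twist.point π)) L
    (RingHom.ker ((C.ptA K π).comp (C.R1 K).val)) (RingHom.ker ((C.ptA K π).comp (C.R2 K).val))
    (RingHom.ker (C.ptA K π)) where
  toFun := L.toBase (Twist.point π) (Twist.point_J12A_le K π)
  injective := L.toBase_injective (Twist.point π) (Twist.point_J12A_le K π)
  range_eq := (L.range_toBase (Twist.point π) (Twist.point_J12A_le K π)).trans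
    (by rw [Twist.comap_point12])
  map1 := (L.map_toBase_M1 (Twist.point π) (Twist.point_J12A_le K π)
    (Twist.ext_idealSub_le K _)).trans (by rw [Twist.comap_point1])
  map2 := (L.map_toBase_M2 (Twist.point π) (Twist.point_J12A_le K π)
    (Twist.ext_idealSub_le K _)).trans (by rw [Twist.comap_point2])

/-- **Twisting down at infinity lowers the characteristic by one.** -/
theorem chi_twist_infty : (L.twist (Twist.infty C)).chi = L.chi - 1 :=
  L.twistInftyDown.chi_infty

/-- **Twisting down at a rational point lowers the characteristic by one.** -/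
theorem chi_twist_point (π : C.B12 →ₐ[k] k) : (L.twist (Twist.point π)).chi = L.chi - 1 :=
  (L.twistPointDown π).chi_both (C.ptA K π)

/-- Vanishing of `H¹` survives passing to the sections vanishing at a point. -/
theorem surjective_cechO_of_section {L' : Glued C K} (f : L'.carrier →ₗ[C.R12 K] L.carrier)
    (hf : Function.Injective f) (ρ : C.R12 K →ₐ[K] K)
    (e1 : L'.M1.map (f.restrictScalars (C.R1 K)) = RingHom.ker (ρ.comp (C.R1 K).val) • L.M1)
    (e2 : L'.M2O.map (f.restrictScalars (C.R2 K)) = RingHom.ker (ρ.comp (C.R2 K).val) • L.M2O)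
    (e12 : LinearMap.range f = RingHom.ker ρ • (⊤ : Submodule (C.R12 K) L.carrier))
    {s : L.carrier} (h1 : s ∈ L.M1) (h2 : s ∈ L.M2O)
    (ψ : L.carrier →ₗ[C.R12 K] C.R12 K) (hs : ρ (ψ s) = 1) (hL : Function.Surjective L.cechO) :
    Function.Surjective L'.cechO := by
  intro q
  have hq : f q ∈ RingHom.ker ρ • (⊤ : Submodule (C.R12 K) L.carrier) := e12 ▸ ⟨q, rfl⟩
  have hq0 : ρ (ψ (f q)) = 0 := by
    refine Submodule.smul_induction_on (p := fun z => ρ (ψ z) = 0) hq (fun r hr x _ => ?_)
      fun a b ha hb => ?_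
    · rw [map_smul, smul_eq_mul, map_mul, RingHom.mem_ker.1 hr, zero_mul]
    · rw [map_add, map_add, ha, hb, add_zero]
  obtain ⟨⟨p1, p2⟩, hp⟩ := hL (f q)
  rw [cechO_apply] at hp
  set c : K := ρ (ψ p1)
  have hp1 : (p1 : L.carrier) - c • s ∈ L.M1 :=
    sub_mem p1.2 (Submodule.smul_of_tower_mem _ _ h1)
  have hp2 : (p2 : L.carrier) - c • s ∈ L.M2O :=
    sub_mem p2.2 (Submodule.smul_of_tower_mem _ _ h2)
  have z1 : ρ (ψ ((p1 : L.carrier) - c • s)) = 0 := by
    rw [map_sub, LinearMap.map_smul_of_tower, map_sub, map_smul, hs, smul_eq_mul, mul_one,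
      sub_self]
  have z2 : ρ (ψ ((p2 : L.carrier) - c • s)) = 0 := by
    rw [show (p2 : L.carrier) - c • s = ((p1 : L.carrier) - c • s) - f q by rw [← hp]; abel,
      map_sub, map_sub, z1, hq0, sub_zero]
  have m1 := mem_ker_comp_smul_of_eval_eq_zero L.isLattice1 ρ ψ hs hp1 z1
  have m2 := mem_ker_comp_smul_of_eval_eq_zero L.isLattice2O ρ ψ hs hp2 z2
  rw [← e1] at m1
  rw [← e2] at m2
  obtain ⟨q1, hq1, hj1⟩ := m1
  obtain ⟨q2, hq2, hj2⟩ := m2
  refine ⟨(⟨q1, hq1⟩, ⟨q2, hq2⟩), hf ?_⟩
  rw [cechO_apply, map_sub]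
  exact (congrArg₂ (· - ·) hj1 hj2).trans (by rw [← hp]; abel)

/-- **Vanishing of `H¹` survives removing a point where a section is not zero.** -/
theorem surjective_cechO_twist_point (π : C.B12 →ₐ[k] k) {s : L.carrier} (h1 : s ∈ L.M1)
    (h2 : s ∈ L.M2O) (ψ : L.carrier →ₗ[C.R12 K] C.R12 K) (hs : C.ptA K π (ψ s) = 1)
    (hL : Function.Surjective L.cechO) :
    Function.Surjective (L.twist (Twist.point π)).cechO :=
  have hD := Twist.point_J12A_le K π
  L.surjective_cechO_of_section (L' := L.twist (Twist.point π)) (L.toBase (Twist.point π) hD)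
    (L.toBase_injective (Twist.point π) hD) (C.ptA K π)
    ((L.map_toBase_M1 (Twist.point π) hD (Twist.ext_idealSub_le K _)).trans
      (by rw [Twist.comap_point1]))
    ((L.map_toBase_M2O (Twist.point π) hD (Twist.ext_idealSub_le K _)).trans
      (by rw [Twist.comap_point2]))
    ((L.range_toBase (Twist.point π) hD).trans (by rw [Twist.comap_point12]))
    h1 h2 ψ hs hL

/-- **A section can be removed keeping `H¹ = 0`.** -/
theorem exists_point_surjective [IsAlgClosed k] (hL : Function.Surjective L.cechO)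
    (hchi : 1 < L.chi) :
    ∃ π : C.B12 →ₐ[k] k, Function.Surjective (L.twist (Twist.point π)).cechO := by
  obtain ⟨p, hp, hne⟩ := HasFiniteIndex.exists_ne_zero_of_index_pos (K := K)
    (P := L.M1 × L.M2O) (N := L.carrier) (d := L.cechO) (by rw [L.index_cechO]; omega)
  rw [cechO_apply, sub_eq_zero] at hp
  have hs0 : (p.1 : L.carrier) ≠ 0 := fun h0 => hne <|
    Prod.ext (Subtype.ext h0) (Subtype.ext (hp.symm.trans h0))
  have := C.finiteType_B12
  obtain ⟨π, -, φ, hφ⟩ := exists_evalPoint_dual_ne_zero (k := k) (B := C.B12) (K := K)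
    (M := L.carrier) hs0 (one_ne_zero (α := C.B12))
  set a := C.ptA K π (φ (p.1 : L.carrier))
  let ψ : L.carrier →ₗ[C.R12 K] C.R12 K := algebraMap K (C.R12 K) a⁻¹ • φ
  refine ⟨π, L.surjective_cechO_twist_point π p.1.2 (hp ▸ p.2.2) ψ ?_ hL⟩
  show C.ptA K π (algebraMap K (C.R12 K) a⁻¹ * φ (p.1 : L.carrier)) = 1
  rw [map_mul, AlgHom.commutes]
  exact inv_mul_cancel₀ hφ

end Glued

end Fermat.Agent.Row24.Chart

end
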