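import Fermat.Agent.Row24.Chart.Section
import Fermat.Agent.Row24.Euler.Family
import Mathlib.LinearAlgebra.Dimension.StrongRankCondition

/-!
# Over a field some functions span the functions on the divisor
-/

set_option autoImplicit false
set_option maxSynthPendingDepth 3

universe u

noncomputable section

namespace Fermat.Agent.Row24.Chart.Glued

open TensorProduct

variable {k : Type u} [Field k] {C : CurveRings k} {K : Type u} [Field K] [Algebra k K]

/-- Shortcut instance: the search for the action on the first lattice is slow. -/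
local instance (M : Glued C K) : SMul (C.R1 K) M.M1 :=
  M.M1.module.toDistribMulAction.toMulAction.toSMul

/-- **Some functions defined over the constants span the functions on the divisor.** -/
theorem exists_onto (M : Glued C K) (hV : M.Vanish) : ∃ b : Fin C.g → C.B1, M.Onto b := by
  classical
  obtain ⟨s, hs⟩ := exists_isSection M.rigid_of_field hV
  have := hs.finite_quotient hV
  have : IsArtinianRing (C.R1 K ⧸ M.divIdeal) :=
    isArtinian_of_tower K (inferInstance : IsArtinian K (C.R1 K ⧸ M.divIdeal))
  obtain ⟨m₀, hgen⟩ := exists_generator_mod (M := M) (J := M.divIdeal)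
  let Φ : C.R1 K →ₗ[K] (Fin C.g → K) := hs.quotMap hV ∘ₗ
    (LinearMap.toSpanSingleton (C.R1 K) M.M1 m₀).restrictScalars K
  have hΦ : ∀ r, Φ r = hs.quotMap hV (r • m₀) := fun r => rfl
  have hIM : ∀ x : M.M1, x ∈ M.divIdeal • (⊤ : Submodule (C.R1 K) M.M1) →
      hs.quotMap hV x = 0 := fun x hx => by
    refine Submodule.smul_induction_on (p := fun x => hs.quotMap hV x = 0) hx
      (fun q hq y _ => hs.quotMap_smul_eq_zero hV hq y) fun a a' h h' => ?_
    rw [map_add, h, h', add_zero]
  have hsurj : Function.Surjective Φ := fun v => by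
    obtain ⟨m, hm⟩ := hs.quotMap_surjective hV v
    obtain ⟨r, hr⟩ := hgen m
    refine ⟨r, ?_⟩
    have h := hIM _ hr
    rw [map_sub, sub_eq_zero] at h
    rw [hΦ, ← h, hm]
  have hker : ∀ r, Φ r = 0 → r ∈ M.divIdeal := fun r hr => by
    obtain ⟨c, hc⟩ := (hs.quotMap_eq_zero_iff hV).1 ((hΦ r).symm.trans hr)
    intro m hm
    rw [hs.span_h0 hV]
    obtain ⟨r', hr'⟩ := hgen ⟨m, hm⟩
    have h1 : ∀ x : M.M1, x ∈ M.divIdeal • (⊤ : Submodule (C.R1 K) M.M1) →
        r • (x : M.carrier) ∈ Submodule.span (C.R1 K) {s} := fun x hx => by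
      refine Submodule.smul_induction_on
        (p := fun x : M.M1 => r • (x : M.carrier) ∈ Submodule.span (C.R1 K) {s}) hx
        (fun q hq y _ => ?_) fun a a' h h' => ?_
      · refine Submodule.smul_mem _ r ?_
        rw [← hs.span_h0 hV]
        exact hq y y.2
      · rw [Submodule.coe_add, smul_add]
        exact add_mem h h'
    have h2 : r • r' • (m₀ : M.carrier) ∈ Submodule.span (C.R1 K) {s} := by
      rw [smul_comm]
      refine Submodule.smul_mem _ r' ?_
      rw [show r • (m₀ : M.carrier) = c • s from hc]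
      exact Submodule.smul_mem _ c (Submodule.mem_span_singleton_self s)
    have h := h1 _ hr'
    rw [Submodule.coe_sub, Submodule.coe_smul, smul_sub] at h
    simpa using add_mem h h2
  let T : Set (Fin C.g → K) := Set.range fun z : C.B1 => Φ (C.subEquiv K C.B1 (1 ⊗ₜ z))
  have hT : Submodule.span K T = ⊤ := by
    rw [eq_top_iff]
    rintro v -
    obtain ⟨r, rfl⟩ := hsurj v
    obtain ⟨w, rfl⟩ := (C.subEquiv K C.B1).surjective r
    induction w using TensorProduct.induction_on with
    | zero => simp
    | tmul a z =>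
      rw [show a ⊗ₜ[k] z = a • ((1 : K) ⊗ₜ[k] z) by
        rw [TensorProduct.smul_tmul', smul_eq_mul, mul_one], map_smul, map_smul]
      exact Submodule.smul_mem _ _ (Submodule.subset_span ⟨z, rfl⟩)
    | add v v' hv hv' => rw [map_add, map_add]; exact add_mem hv hv'
  obtain ⟨f, hfT, hf, -⟩ := Submodule.exists_fun_fin_finrank_span_eq K T
  have hd : Module.finrank K (Submodule.span K T) = C.g := by
    rw [hT, finrank_top, Module.finrank_fin_fun]
  choose z hz using hfT
  refine ⟨fun i => z (Fin.cast hd.symm i), fun r => ?_⟩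
  have hmem : Φ r ∈ Submodule.span K (Set.range f) := by rw [hf, hT]; exact Submodule.mem_top
  obtain ⟨a, ha⟩ := (Submodule.mem_span_range_iff_exists_fun K).1 hmem
  refine ⟨fun i => a (Fin.cast hd.symm i), hker _ ?_⟩
  rw [map_sub, map_sum, sub_eq_zero, ← ha]
  refine Fintype.sum_equiv (finCongr hd) _ _ fun j => ?_
  rw [map_smul]
  show a j • f j = a (Fin.cast hd.symm (Fin.cast hd j)) • _
  rw [← hz]
  rfl

end Fermat.Agent.Row24.Chart.Glued

end
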