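import Fermat.Agent.Row24.Euler.Point
import Fermat.Agent.Row24.Euler.Family

/-!
# Large twists at infinity

After twisting up far enough at infinity the Čech map of a bundle over a field, twisted down at
the point, is surjective.
-/

set_option autoImplicit false

universe u

noncomputable section

namespace Fermat.Agent.Row24.Chart

open TensorProduct

theorem map_mem_smul_of_smul_comm {R M M' : Type*} [CommRing R] [AddCommGroup M] [Module R M]
    [AddCommGroup M'] [Module R M'] (f : M →+ M') (I : Ideal R)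
    (hf : ∀ (r : R) (m : M), f (r • m) = r • f m) {N : Submodule R M} {N' : Submodule R M'}
    (h : ∀ m ∈ N, f m ∈ N') {m : M} (hm : m ∈ I • N) : f m ∈ I • N' :=
  Submodule.smul_induction_on hm (fun r hr m hm => hf r m ▸ Submodule.smul_mem_smul hr (h m hm))
    fun a b ha hb => by rw [map_add]; exact add_mem ha hb

variable {k : Type u} [Field k] {C : CurveRings k}

theorem Twist.pow_J1 (D : Twist C) (n : ℕ) : (D ^ n).J1 = D.J1 ^ n := by
  induction n with
  | zero => rfl
  | succ n ih => rw [pow_succ, pow_succ, Twist.mul_J1, ih]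

theorem Twist.pow_J2 (D : Twist C) (n : ℕ) : (D ^ n).J2 = D.J2 ^ n := by
  induction n with
  | zero => rfl
  | succ n ih => rw [pow_succ, pow_succ, Twist.mul_J2, ih]

theorem Twist.J1_inv_infty_pow (n : ℕ) : ((Twist.infty C ^ n)⁻¹).J1 = 1 := by
  rw [Twist.inv_J1, Twist.pow_J1, show (Twist.infty C).J1 = 1 from rfl, one_pow, inv_one]

theorem Twist.J12_inv_infty_pow (n : ℕ) : ((Twist.infty C ^ n)⁻¹).J12 = 1 := by
  rw [Twist.J12, Twist.J1_inv_infty_pow, map_one]

variable (C) in
/-- Powers of the coordinate have poles of bounded order at infinity. -/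
theorem CurveRings.exists_pow_x_mem : ∃ d : ℕ, ∀ j n : ℕ, d * j ≤ n →
    algebraMap C.B12 C.Frac (C.x ^ j) ∈ ((Twist.infty C ^ n)⁻¹).J2.1 := by
  obtain ⟨d, hd⟩ := C.exists_pow_ker_aug_le
  refine ⟨d, fun j n hjn => ?_⟩
  set u := (Twist.infty C).J2 ^ n with hu
  set z := algebraMap C.B12 C.Frac (C.x ^ j)
  have hle : Submodule.span C.B2 {z} * u.1 ≤ 1 := by
    refine Submodule.mul_le.2 fun a ha b hb => ?_
    obtain ⟨r, rfl⟩ := Submodule.mem_span_singleton.1 ha
    rw [hu, Units.val_pow_eq_pow_val,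
      show (Twist.infty C).J2.1 = C.idealSub C.B2 (RingHom.ker C.aug) from rfl, ← map_pow] at hb
    obtain ⟨c, hc, rfl⟩ := C.mem_idealSub.1 hb
    have hc' : c ∈ Ideal.span {(⟨C.y, C.y_mem⟩ : C.B2) ^ j} := by
      rw [← Ideal.span_singleton_pow]
      refine Ideal.pow_right_mono hd j ?_
      rw [← pow_mul]
      exact Ideal.pow_le_pow_right hjn hc
    obtain ⟨e, rfl⟩ := Ideal.mem_span_singleton'.1 hc'
    refine Submodule.mem_one.2 ⟨r * e, ?_⟩
    rw [smul_mul_assoc, Algebra.smul_def, map_mul]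
    congr 1
    show algebraMap C.B12 C.Frac (e : C.B12) =
      algebraMap C.B12 C.Frac (C.x ^ j) * algebraMap C.B12 C.Frac ((e : C.B12) * C.y ^ j)
    rw [← map_mul, mul_left_comm, ← mul_pow, C.x_mul_y, one_pow, mul_one]
  have hle' : Submodule.span C.B2 {z} ≤ (u⁻¹).1 := by
    calc Submodule.span C.B2 {z} = Submodule.span C.B2 {z} * u.1 * (u⁻¹).1 := by
          rw [mul_assoc, u.mul_inv, mul_one]
      _ ≤ 1 * (u⁻¹).1 := Submodule.mul_le.2 fun a ha b hb => Submodule.mul_mem_mul (hle ha) hb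
      _ = (u⁻¹).1 := one_mul _
  rw [Twist.inv_J2, Twist.pow_J2]
  exact hle' (Submodule.mem_span_singleton_self z)

namespace Glued

variable {K : Type u} [Field K] [Algebra k K]

/-- **Large twists at infinity kill the cohomology.** -/
theorem exists_surjective_cechO_twist (L : Glued C K) :
    ∃ n₀ : ℕ, ∀ n ≥ n₀, Function.Surjective (L.twist (Twist.infty C ^ n)⁻¹).cechO := by
  have : FiniteDimensional K (L.carrier ⧸ LinearMap.range (cechDiff (A := K) (M₁ := L.M1)
      (M₂ := L.M2O) (N := L.carrier) (L.M1.subtype.restrictScalars K)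
      (L.M2O.subtype.restrictScalars K))) := L.hasFiniteIndex_cechO.finite_coker
  obtain ⟨j, hj⟩ :=
    (L.isTwoCharts_lattices L.isLattice1 L.isLattice2O).exists_surjective_twistDiff
  obtain ⟨d, hd⟩ := C.exists_pow_x_mem
  refine ⟨d * j, fun n hn z => ?_⟩
  let D : Twist C := (Twist.infty C ^ n)⁻¹
  have h1 : (D.J1A K).1 = 1 := by
    rw [Twist.J1A, Twist.J1_inv_infty_pow, map_one, Units.val_one]
  have h12 : (D.J12A K).1 = 1 := by
    rw [Twist.J12A, Twist.J12_inv_infty_pow, map_one, Units.val_one]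
  let one : (D.J12A K).1 := ⟨1, h12 ▸ Submodule.one_le.mp le_rfl⟩
  have hone : ∀ w : L.TwistCarrier D, ∃ m : L.carrier, m ⊗ₜ one = w := fun w => by
    induction w using TensorProduct.induction_on with
    | zero => exact ⟨0, zero_tmul _ _⟩
    | tmul m a =>
      obtain ⟨r, hr⟩ := Submodule.mem_one.1 (h12.le a.2)
      refine ⟨r • m, ?_⟩
      rw [smul_tmul]
      congr 1
      apply Subtype.ext
      rw [Submodule.coe_smul, Algebra.smul_def, mul_one, hr]
    | add v w hv hw =>
      obtain ⟨m, hm⟩ := hv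
      obtain ⟨m', hm'⟩ := hw
      exact ⟨m + m', by rw [add_tmul, hm, hm']⟩
  obtain ⟨w, rfl⟩ := hone z
  obtain ⟨⟨p, q⟩, hpq⟩ := hj j le_rfl w
  rw [twistDiff, cechDiff_apply] at hpq
  simp only [LinearMap.comp_apply, LinearEquiv.coe_coe, mulXA_pow_apply] at hpq
  have hp : (p : L.carrier) ⊗ₜ one ∈ (L.twist D).M1 :=
    L.tmul_mem_twistLattice D (by rw [h1]; exact Submodule.one_le.mp le_rfl) p.2
  have hx : (((C.xA K) ^ j • one : (D.J12A K).1) : C.RF K) ∈ (D.J2A K).1 := by
    rw [Submodule.coe_smul, Algebra.smul_def, mul_one,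
      show C.xA K ^ j = (1 : K) ⊗ₜ[k] (C.x ^ j) by
        rw [CurveRings.xA, Algebra.TensorProduct.tmul_pow, one_pow],
      CurveRings.algebraMap_RF_tmul]
    exact C.tmul_mem_ext (hd j n hn) 1
  let f : L.carrier →+ L.TwistCarrier D :=
    AddMonoidHom.mk' (fun m => (C.xA K ^ j • m) ⊗ₜ[C.R12 K] one) fun a b => by
      rw [smul_add, add_tmul]
  have hq : f q ∈ RingHom.ker (C.augA K) • L.twistLattice D (D.J2A K).1 L.M2 := by
    refine map_mem_smul_of_smul_comm (R := C.R2 K) (M := L.carrier) (M' := L.TwistCarrier D) f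
      (RingHom.ker (C.augA K)) (fun r m => ?_) (N := L.M2) (fun m hm => ?_) q.2
    · show (C.xA K ^ j • (r : C.R12 K) • m) ⊗ₜ[C.R12 K] one =
        (r : C.R12 K) • ((C.xA K ^ j • m) ⊗ₜ[C.R12 K] one)
      rw [smul_comm, ← smul_tmul']
    · show (C.xA K ^ j • m) ⊗ₜ[C.R12 K] one ∈ _
      rw [smul_tmul]
      exact L.tmul_mem_twistLattice D hx hm
  refine ⟨(⟨_, hp⟩, ⟨_, hq⟩), ?_⟩
  rw [cechO_apply, ← hpq]
  exact (sub_tmul _ _ _).symm

end Glued

end Fermat.Agent.Row24.Chart

end
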