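import Fermat.Agent.Row24.Chart.Twist
import Fermat.Agent.Row24.Euler.Onto
import Fermat.Agent.Row24.Euler.Drop
import Fermat.Agent.Row24.Euler.Shift

/-!
# The twisted charts cover the bundles with `χ = 1 - g`

A high twist at infinity kills the first cohomology; then rational points where a section does
not vanish are removed one at a time, until a single twist moves the bundle into a chart.
-/

set_option autoImplicit false

universe u

noncomputable section

namespace Fermat.Agent.Row24.Chart

variable {k : Type u} [Field k] {C : CurveRings k}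

/-- A twist shifts every Euler characteristic by `d`. -/
def Twist.HasDegree (D : Twist C) (d : ℤ) : Prop :=
  ∀ (K : Type u) [Field K] [Algebra k K] (L : Glued C K), (L.twist D).chi = L.chi + d

namespace Twist.HasDegree

variable {D E : Twist C} {d e : ℤ}

theorem one : (1 : Twist C).HasDegree 0 := fun _ _ _ L => by
  rw [add_zero, (L.twistOne).chi_eq]

theorem mul (hD : D.HasDegree d) (hE : E.HasDegree e) : (E * D).HasDegree (d + e) :=
  fun K _ _ L => by rw [(L.twistTwist D E).chi_eq, hE K, hD K, add_assoc]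

theorem inv (hD : D.HasDegree d) : D⁻¹.HasDegree (-d) := fun K _ _ L => by
  have h := hD K (L.twist D⁻¹)
  rw [((L.twistTwist D⁻¹ D).chi_eq).symm, show D * D⁻¹ = (1 : Twist C) from mul_inv_cancel D,
    (one K L : _)] at h
  omega

theorem pow (hD : D.HasDegree d) (n : ℕ) : (D ^ n).HasDegree (n * d) := by
  induction n with
  | zero => simpa using one
  | succ n ih =>
    rw [pow_succ', show ((n + 1 : ℕ) : ℤ) * d = n * d + d by push_cast; ring]
    exact ih.mul hD

end Twist.HasDegree

theorem Glued.Iso.surjective_cechO {A : Type u} [CommRing A] [Algebra k A] {M M' : Glued C A}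
    (e : Glued.Iso M M') (hs : Function.Surjective M.cechO) : Function.Surjective M'.cechO := by
  intro z
  obtain ⟨⟨a, b⟩, hp⟩ := hs (e.equiv.symm z)
  refine ⟨⟨⟨e.equiv a, (e.mem1 _).2 a.2⟩, ⟨e.equiv b, ?_⟩⟩, ?_⟩
  · have hb : (b : M.carrier) ∈ (RingHom.ker (C.augA A)) • M.M2 := b.2
    refine Submodule.smul_induction_on hb (fun r hr m hm => ?_) (fun x y hx hy => ?_)
    · rw [show r • m = (r : C.R12 A) • m from rfl, map_smul]
      exact Submodule.smul_mem_smul hr ((e.mem2 _).2 hm)
    · rw [map_add]; exact add_mem hx hy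
  · rw [Glued.cechO_apply] at hp ⊢
    show e.equiv (a : M.carrier) - e.equiv (b : M.carrier) = z
    rw [← map_sub, hp, LinearEquiv.apply_symm_apply]

/-- **Twisting into a chart**, from a surjectivity and a descent step. -/
theorem Glued.exists_twist_chartCond_of_steps {K : Type u} [Field K] [Algebra k K]
    (hstart : ∀ L : Glued C K, ∃ (D : Twist C) (d : ℤ), D.HasDegree d ∧
      Function.Surjective (L.twist D).cechO)
    (hstep : ∀ M : Glued C K, Function.Surjective M.cechO → 1 < M.chi →
      ∃ P : Twist C, P.HasDegree (-1) ∧ Function.Surjective (M.twist P).cechO)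
    (L : Glued C K) (hL : L.chi = 1 - C.g) :
    ∃ (D : Twist C) (b : Fin C.g → C.B1), (L.twist D).ChartCond b ∧
      ∀ (K' : Type u) [Field K'] [Algebra k K'] (L' : Glued C K'),
        (L'.twist D).ChartCond b → L'.chi = 1 - C.g := by
  have key : ∀ (n : ℕ) (M : Glued C K), M.chi = 1 + n → Function.Surjective M.cechO →
      ∃ (D : Twist C) (d : ℤ), D.HasDegree d ∧ (M.twist D).Vanish := by
    intro n
    induction n with
    | zero =>
      intro M hM hs
      exact ⟨1, 0, Twist.HasDegree.one, (vanish_iff_surjective_and_chi _).2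
        ⟨M.twistOne.symm.surjective_cechO hs, by rw [Twist.HasDegree.one K M, hM]; simp⟩⟩
    | succ n ih =>
      intro M hM hs
      obtain ⟨P, hP, hPs⟩ := hstep M hs (by rw [hM]; push_cast; omega)
      obtain ⟨D, d, hD, hV⟩ := ih (M.twist P) (by rw [hP K M, hM]; push_cast; omega) hPs
      refine ⟨D * P, -1 + d, hP.mul hD, ?_⟩
      have e := M.twistTwist P D
      rw [vanish_iff_surjective_and_chi] at hV ⊢
      exact ⟨e.surjective_cechO hV.1, by rw [e.chi_eq]; exact hV.2⟩
  obtain ⟨D₀, d₀, hD₀, hs⟩ := hstart L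
  have hidx : 0 ≤ LinearMap.index (R := K) (M := (L.twist D₀).M1 × (L.twist D₀).M2O)
      (N := (L.twist D₀).carrier) (L.twist D₀).cechO := by
    rw [← HasFiniteIndex.finrank_ker_eq_index (P := (L.twist D₀).M1 × (L.twist D₀).M2O)
      (N := (L.twist D₀).carrier) (d := (L.twist D₀).cechO) hs]
    exact Nat.cast_nonneg _
  rw [index_cechO] at hidx
  obtain ⟨n, hn⟩ := Int.eq_ofNat_of_zero_le hidx
  obtain ⟨D, d, hD, hV⟩ := key n (L.twist D₀) (by omega) hs
  have hDD : (D * D₀).HasDegree (d₀ + d) := hD₀.mul hD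
  have hV' : (L.twist (D * D₀)).Vanish := by
    have e := L.twistTwist D₀ D
    rw [vanish_iff_surjective_and_chi] at hV ⊢
    exact ⟨e.surjective_cechO hV.1, by rw [e.chi_eq]; exact hV.2⟩
  have hd : d₀ + d = C.g := by
    have h1 := ((vanish_iff_surjective_and_chi _).1 hV').2
    rw [hDD K L, hL] at h1
    omega
  obtain ⟨b, hb⟩ := (L.twist (D * D₀)).exists_onto hV'
  refine ⟨D * D₀, b, ⟨rigid_of_field _, hV', hb⟩, fun K' _ _ L' h => ?_⟩
  have h1 := ((vanish_iff_surjective_and_chi _).1 h.vanish).2
  rw [hDD K' L'] at h1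
  omega

theorem Twist.hasDegree_infty : (Twist.infty C).HasDegree (-1) := fun _ _ _ L => by
  rw [L.chi_twist_infty, sub_eq_add_neg]

theorem Twist.hasDegree_point (π : C.B12 →ₐ[k] k) : (Twist.point π).HasDegree (-1) :=
  fun _ _ _ L => by rw [L.chi_twist_point π, sub_eq_add_neg]

/-- **Bundles with `χ = 1 - g` over any field lie in twisted charts**, on which `χ = 1 - g`. -/
theorem Glued.exists_chart_of_chi [IsAlgClosed k] {K : Type u} [Field K] [Algebra k K]
    (L : Glued C K) (hL : L.chi = 1 - C.g) :
    ∃ (D : Twist C) (b : Fin C.g → C.B1), (L.twist D).ChartCond b ∧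
      ∀ (K' : Type u) [Field K'] [Algebra k K'] (L' : Glued C K'),
        (L'.twist D).ChartCond b → L'.chi = 1 - C.g :=
  exists_twist_chartCond_of_steps
    (fun M => by
      obtain ⟨n, hn⟩ := M.exists_surjective_cechO_twist
      exact ⟨_, _, (Twist.hasDegree_infty.pow n).inv, hn n le_rfl⟩)
    (fun M hs hchi => by
      obtain ⟨π, hπ⟩ := M.exists_point_surjective hs hchi
      exact ⟨_, Twist.hasDegree_point π, hπ⟩) L hL

end Fermat.Agent.Row24.Chart

end
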