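import Mathlib.RingTheory.PicardGroup
import Mathlib.RingTheory.Jacobson.Artinian
import Mathlib.RingTheory.Finiteness.Nakayama
import Mathlib.RingTheory.DedekindDomain.Basic
import Mathlib.FieldTheory.IsAlgClosed.Basic

/-!
# Sections of invertible modules on affine curves

For an invertible module over a one dimensional affine domain over an algebraically closed
field: a section has a zero unless it generates, its fibres are lines, and a nonzero section
has a divisor of finite length.
-/

set_option autoImplicit false

noncomputable section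

namespace Fermat.Agent.Row24

open Module TensorProduct

universe u v w

variable {k : Type u} [Field k] {B : Type v} [CommRing B] [Algebra k B]
  {M : Type w} [AddCommGroup M] [Module B M]

/-- Fibres of an invertible module are free of rank one. -/
theorem nonempty_quotient_smul_top_equiv [Module.Invertible B M] (m : Ideal B) [m.IsMaximal] :
    Nonempty ((M ⧸ (m • ⊤ : Submodule B M)) ≃ₗ[B] B ⧸ m) := by
  let := Ideal.Quotient.field m
  obtain ⟨e⟩ := Module.Invertible.free_iff_linearEquiv.1
    (Module.Free.of_divisionRing (B ⧸ m) ((B ⧸ m) ⊗[B] M))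
  exact ⟨(quotTensorEquivQuotSMul M m).symm ≪≫ₗ e.restrictScalars B⟩

/-- A section without zeros generates. -/
theorem span_singleton_eq_top_of_forall_notMem [Module.Invertible B M] {s : M}
    (h : ∀ m : Ideal B, m.IsMaximal → s ∉ m • (⊤ : Submodule B M)) :
    Submodule.span B {s} = ⊤ := by
  by_contra hne
  set Q := M ⧸ Submodule.span B {s}
  have hann : Module.annihilator B Q ≠ ⊤ := fun htop => hne <| by
    refine eq_top_iff.2 fun x _ => (Submodule.Quotient.mk_eq_zero _).1 ?_
    have := (Module.mem_annihilator (R := B) (M := Q)).1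
      (htop ▸ Submodule.mem_top : (1 : B) ∈ Module.annihilator B Q) (Submodule.Quotient.mk x)
    rwa [one_smul] at this
  obtain ⟨m, hm, hle⟩ := Ideal.exists_le_maximal _ hann
  obtain ⟨e⟩ := nonempty_quotient_smul_top_equiv (M := M) m
  let := Ideal.Quotient.field m
  have he : e (Submodule.Quotient.mk s) ≠ 0 := fun h0 =>
    h m hm ((Submodule.Quotient.mk_eq_zero _).1 (e.map_eq_zero_iff.1 h0))
  -- `s` generates modulo `m`
  have hsup : (⊤ : Submodule B M) ≤ Submodule.span B {s} ⊔ m • ⊤ := fun x _ => by
    obtain ⟨b, hb⟩ := Ideal.Quotient.mk_surjective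
      (e (Submodule.Quotient.mk x) / e (Submodule.Quotient.mk s))
    have hx : Submodule.Quotient.mk (b • s) = (Submodule.Quotient.mk x :
        M ⧸ (m • ⊤ : Submodule B M)) := by
      refine e.injective ?_
      rw [Submodule.Quotient.mk_smul, map_smul, Algebra.smul_def, Ideal.Quotient.algebraMap_eq,
        hb, div_mul_cancel₀ _ he]
    refine Submodule.mem_sup.2 ⟨b • s, Submodule.smul_mem _ _ (Submodule.mem_span_singleton_self s),
      x - b • s, (Submodule.Quotient.eq _).1 hx.symm, add_sub_cancel _ _⟩
  have hQ : (⊤ : Submodule B Q) ≤ m • ⊤ := by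
    rintro q -
    obtain ⟨x, rfl⟩ := Submodule.Quotient.mk_surjective _ q
    obtain ⟨a, ha, c, hc, rfl⟩ := Submodule.mem_sup.1 (hsup (Submodule.mem_top (x := x)))
    rw [Submodule.Quotient.mk_add, (Submodule.Quotient.mk_eq_zero _).2 ha, zero_add]
    have := Submodule.mem_map_of_mem (f := (Submodule.span B {s}).mkQ) hc
    rw [Submodule.map_smul''] at this
    exact Submodule.smul_mono le_rfl le_top this
  obtain ⟨r, hr, hr0⟩ := Submodule.exists_sub_one_mem_and_smul_eq_zero_of_fg_of_le_smul m ⊤
    (Module.Finite.fg_top (R := B) (M := Q)) hQ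
  have hrm : r ∈ m := hle (Module.mem_annihilator.2 fun q => hr0 q Submodule.mem_top)
  exact hm.ne_top ((Ideal.eq_top_iff_one m).2 (by simpa using m.sub_mem hrm hr))

/-- Residue fields are the ground field. -/
theorem algebraMap_bijective_quotient_maximal [IsAlgClosed k] [Algebra.FiniteType k B]
    (m : Ideal B) [m.IsMaximal] : Function.Bijective (algebraMap k (B ⧸ m)) := by
  let := Ideal.Quotient.field m
  have : Algebra.FiniteType k (B ⧸ m) := Algebra.FiniteType.trans (S := B) ‹_› inferInstance
  have := finite_of_finite_type_of_isJacobsonRing k (B ⧸ m)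
  exact IsAlgClosed.algebraMap_bijective_of_isIntegral

variable [Module k M] [IsScalarTower k B M]

/-- A nonzero section has a divisor of finite length. -/
theorem finite_quotient_span_singleton [IsDomain B] [IsNoetherianRing B] [Ring.DimensionLEOne B]
    [Algebra.FiniteType k B] [Module.Invertible B M] {s : M} (hs : s ≠ 0) :
    Module.Finite k (M ⧸ Submodule.span B {s}) := by
  obtain ⟨I, ⟨e⟩⟩ := Module.Invertible.exists_linearEquiv_ideal B M
  set a : B := (e s : B)
  have ha : a ≠ 0 := fun h => hs (e.map_eq_zero_iff.1 (Subtype.ext h))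
  have hdim : Ring.KrullDimLE 0 (B ⧸ Ideal.span {a}) :=
    Ring.krullDimLE_zero_iff.2 fun P hP => by
      have hbot : P.comap (Ideal.Quotient.mk (Ideal.span {a})) ≠ ⊥ := fun h => ha <| by
        have hmem : a ∈ P.comap (Ideal.Quotient.mk (Ideal.span {a})) := by
          rw [Ideal.mem_comap, Ideal.Quotient.eq_zero_iff_mem.2 (Ideal.mem_span_singleton_self a)]
          exact zero_mem _
        simpa [h] using hmem
      have := (Ideal.IsPrime.comap (Ideal.Quotient.mk (Ideal.span {a}))).isMaximal hbot
      exact (Ideal.map_comap_of_surjective _ Ideal.Quotient.mk_surjective P) ▸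
        (Ideal.map_eq_top_or_isMaximal_of_surjective _ Ideal.Quotient.mk_surjective
          this).resolve_left (by rw [Ideal.map_comap_of_surjective _ Ideal.Quotient.mk_surjective P]; exact hP.ne_top)
  have : IsArtinianRing (B ⧸ Ideal.span {a}) := isArtinianRing_iff_krullDimLE_zero.2 hdim
  have : Algebra.FiniteType k (B ⧸ Ideal.span {a}) :=
    Algebra.FiniteType.trans (S := B) ‹_› inferInstance
  have := Module.finite_of_isArtinianRing k (B ⧸ Ideal.span {a})
  let f : (M ⧸ Submodule.span B {s}) →ₗ[B] B ⧸ Ideal.span {a} :=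
    Submodule.mapQ _ _ (I.subtype ∘ₗ e.toLinearMap)
      (Submodule.span_le.2 (Set.singleton_subset_iff.2 (Ideal.mem_span_singleton_self a)))
  refine Module.Finite.of_injective (f.restrictScalars k) ?_
  refine LinearMap.ker_eq_bot.1 (eq_bot_iff.2 fun q hq => ?_)
  obtain ⟨x, rfl⟩ := Submodule.Quotient.mk_surjective _ q
  have hx : (e x : B) ∈ Ideal.span {a} :=
    (Submodule.Quotient.mk_eq_zero _).1 (LinearMap.mem_ker.1 hq)
  obtain ⟨c, hc⟩ := Ideal.mem_span_singleton'.1 hx
  refine (Submodule.mem_bot k).2 ((Submodule.Quotient.mk_eq_zero _).2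
    (Submodule.mem_span_singleton.2 ⟨c, e.injective (Subtype.ext ?_)⟩))
  rw [map_smul]
  exact hc

end Fermat.Agent.Row24

end
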