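import Fermat.Agent.Row24.Euler.Family
import Fermat.Agent.Row24.Euler.Constancy

/-!
# The Euler characteristic as an invariant of glued bundles
-/

set_option autoImplicit false

universe u

noncomputable section

namespace Fermat.Agent.Row24

open Chart

variable {k : Type u} [Field k] (R : CurveRings k)

/-- The Euler characteristic, as an invariant of glued bundles over fields. -/
def chiInvariant : ∀ (F : Type u) [Field F] [Algebra k F], Glued R F → ℤ :=
  fun _ _ _ G => G.chi

theorem isFieldInvariant_chi : IsFieldInvariant (chiInvariant R) :=
  fun _ _ _ _ _ _ _ _ _ ⟨f⟩ => f.chi_eq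

theorem isLocallyConstantInvariant_chi : IsLocallyConstantInvariant (chiInvariant R) :=
  fun _ _ _ G p => G.exists_basicOpen_chi_eq p

theorem chiInvariant_trivial (F : Type u) [Field F] [Algebra k F] :
    chiInvariant R F (Glued.trivial R F) = 1 - R.g :=
  Glued.chi_trivial

end Fermat.Agent.Row24

end
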