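import Fermat.Agent.Row24.Chart.Data
import Fermat.Agent.Row24.Euler.Divisor

/-!
# The chart rings over the ground field

Over the ground field the chart rings are the rings of the curve: one dimensional affine domains.
-/

set_option autoImplicit false

universe u

noncomputable section

namespace Fermat.Agent.Row24.Chart

theorem isDedekindDomain_of_equiv {R S : Type*} [CommRing R] [CommRing S] (e : R ≃+* S)
    [IsDedekindDomain R] : IsDedekindDomain S :=
  have : IsDomain S := e.toMulEquiv.symm.isDomain R
  have : IsNoetherianRing S := isNoetherianRing_of_ringEquiv R e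
  have : IsIntegrallyClosed S := IsIntegrallyClosed.of_equiv e
  have : Ring.DimensionLEOne S := ⟨fun {p} hp hprime => by
    have h1 : Ideal.comap e p ≠ ⊥ := fun h => hp <| by
      rw [← Ideal.map_comap_of_surjective e e.surjective p, h, Ideal.map_bot]
    have h2 : (Ideal.comap e p).IsMaximal := (Ideal.IsPrime.comap e).isMaximal h1
    rw [← Ideal.map_comap_of_surjective e e.surjective p]
    exact Ideal.map_isMaximal_of_equiv e⟩
  { }

namespace CurveRings

open TensorProduct

variable {k : Type u} [Field k] (C : CurveRings k)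

/-- The overlap ring over the ground field. -/
def baseEquiv : C.R12 k ≃ₐ[k] C.B12 := Algebra.TensorProduct.lid k C.B12

@[simp] theorem baseEquiv_tmul (a : k) (z : C.B12) : C.baseEquiv (a ⊗ₜ z) = a • z :=
  Algebra.TensorProduct.lid_tmul _ _

theorem mem_sub_iff (B : Subalgebra k C.B12) {r : C.R12 k} :
    r ∈ C.sub k B ↔ C.baseEquiv r ∈ B := by
  constructor
  · rintro ⟨w, rfl⟩
    induction w using TensorProduct.induction_on with
    | zero => simp
    | tmul a z => simpa using B.smul_mem z.2 a
    | add v w hv hw => simp only [map_add] at hv hw ⊢; exact add_mem hv hw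
  · intro h
    have hr : r = 1 ⊗ₜ (C.baseEquiv r) := C.baseEquiv.injective (by simp)
    rw [hr]
    exact C.tmul_mem_sub 1 h

/-- A chart ring over the ground field. -/
def subBaseEquiv (B : Subalgebra k C.B12) : C.sub k B ≃ₐ[k] B :=
  (C.subEquiv k B).symm.trans (Algebra.TensorProduct.lid k B)

theorem subBaseEquiv_coe (B : Subalgebra k C.B12) (r : C.sub k B) :
    ((C.subBaseEquiv B r : B) : C.B12) = C.baseEquiv (r : C.R12 k) := by
  obtain ⟨w, rfl⟩ := (C.subEquiv k B).surjective r
  induction w using TensorProduct.induction_on with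
  | zero => simp
  | tmul a z => simp [subBaseEquiv]
  | add v w hv hw =>
    simp only [map_add, AddMemClass.coe_add] at hv hw ⊢
    rw [hv, hw]

theorem isDedekindDomain_R1 : IsDedekindDomain (C.R1 k) :=
  have := C.isDedekind1
  isDedekindDomain_of_equiv (C.subBaseEquiv C.B1).symm.toRingEquiv

theorem isDedekindDomain_R2 : IsDedekindDomain (C.R2 k) :=
  have := C.isDedekind2
  isDedekindDomain_of_equiv (C.subBaseEquiv C.B2).symm.toRingEquiv

theorem finiteType_R1 : Algebra.FiniteType k (C.R1 k) := by
  have h : Algebra.FiniteType k C.B1 := by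
    let := (Polynomial.aeval (R := k) (⟨C.x, C.x_mem⟩ : C.B1)).toRingHom.toAlgebra
    have : IsScalarTower k (Polynomial k) C.B1 := IsScalarTower.of_algebraMap_eq fun a => by
      simp [RingHom.algebraMap_toAlgebra]
    have : Module.Finite (Polynomial k) C.B1 := C.finite1
    exact Algebra.FiniteType.trans (S := Polynomial k) inferInstance inferInstance
  exact h.equiv (C.subBaseEquiv C.B1).symm

theorem finiteType_R2 : Algebra.FiniteType k (C.R2 k) := by
  have h : Algebra.FiniteType k C.B2 := by
    let := (Polynomial.aeval (R := k) (⟨C.y, C.y_mem⟩ : C.B2)).toRingHom.toAlgebra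
    have : IsScalarTower k (Polynomial k) C.B2 := IsScalarTower.of_algebraMap_eq fun a => by
      simp [RingHom.algebraMap_toAlgebra]
    have : Module.Finite (Polynomial k) C.B2 := C.finite2
    exact Algebra.FiniteType.trans (S := Polynomial k) inferInstance inferInstance
  exact h.equiv (C.subBaseEquiv C.B2).symm

theorem loc1_R12 (r : C.R12 k) : ∃ n : ℕ, C.xA k ^ n * r ∈ C.R1 k := by
  obtain ⟨n, hn⟩ := C.loc1 (C.baseEquiv r)
  refine ⟨n, (C.mem_sub_iff C.B1).2 ?_⟩
  rw [map_mul, map_pow, xA, baseEquiv_tmul, one_smul, mul_comm]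
  exact hn

theorem loc2_R12 (r : C.R12 k) : ∃ n : ℕ, C.yA k ^ n * r ∈ C.R2 k := by
  obtain ⟨n, hn⟩ := C.loc2 (C.baseEquiv r)
  refine ⟨n, (C.mem_sub_iff C.B2).2 ?_⟩
  rw [map_mul, map_pow, yA, baseEquiv_tmul, one_smul, mul_comm]
  exact hn

end CurveRings

end Fermat.Agent.Row24.Chart

end
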