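import Fermat.Agent.Row24.Chart.Twist
import Fermat.Agent.Row24.Chart.Section
import Fermat.Agent.Row24.Chart.IdealCurve
import Fermat.Agent.Row24.Euler.Dense

/-!
# Twists by points of the curve

The point at infinity and every rational point of the overlap give bundles over the constants,
with lattices the ideals of the point. A bundle twisted by an effective one maps onto the
sections in these ideals.
-/

set_option autoImplicit false

universe u

noncomputable section

namespace Fermat.Agent.Row24.Chart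

open TensorProduct

variable {k : Type u} [Field k]

namespace CurveRings

variable (C : CurveRings k)

/-- Ideals of a ring of functions as lattices of rational functions. -/
def idealSub (B : Subalgebra k C.B12) : Ideal B →* Submodule B C.Frac :=
  Submodule.mapHom (Algebra.ofId B C.Frac)

theorem algebraMap_sub_injective (B : Subalgebra k C.B12) :
    Function.Injective (algebraMap B C.Frac) :=
  show Function.Injective (algebraMap C.B12 C.Frac ∘ fun b : B => (b : C.B12)) from
    (IsFractionRing.injective C.B12 C.Frac).comp Subtype.val_injective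

theorem mem_idealSub {B : Subalgebra k C.B12} {I : Ideal B} {z : C.Frac} :
    z ∈ C.idealSub B I ↔ ∃ b ∈ I, algebraMap B C.Frac b = z := Submodule.mem_map

theorem idealSub_le_one {B : Subalgebra k C.B12} (I : Ideal B) : C.idealSub B I ≤ 1 := by
  intro z hz
  obtain ⟨b, -, rfl⟩ := C.mem_idealSub.1 hz
  exact Submodule.algebraMap_mem b

/-- A nonzero ideal of a Dedekind ring of functions is invertible. -/
theorem isUnit_idealSub {B : Subalgebra k C.B12} [IsDedekindDomain B] {I : Ideal B} (hI : I ≠ ⊥) :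
    IsUnit (C.idealSub B I) := by
  obtain ⟨f, hf, hf0⟩ := I.ne_bot_iff.1 hI
  obtain ⟨J, hJ⟩ := Ideal.dvd_iff_le.2 ((Ideal.span_singleton_le_iff_mem I).2 hf)
  have hne : algebraMap B C.Frac f ≠ 0 :=
    (map_ne_zero_iff _ (C.algebraMap_sub_injective B)).2 hf0
  have hspan : C.idealSub B (Ideal.span {f}) = Submodule.span B {algebraMap B C.Frac f} := by
    show Submodule.map (Algebra.linearMap B C.Frac) (Submodule.span B {f}) = _
    rw [Submodule.map_span, Set.image_singleton]
    rfl
  refine IsUnit.of_mul_eq_one (C.idealSub B J * Submodule.span B {(algebraMap B C.Frac f)⁻¹}) ?_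
  rw [← mul_assoc, ← map_mul, ← hJ, hspan, Submodule.span_mul_span, Set.singleton_mul_singleton,
    mul_inv_cancel₀ hne, ← Submodule.one_eq_span]

theorem finiteType_B12 : Algebra.FiniteType k C.B12 := by
  have := C.finiteType_B1
  have h : Algebra.FiniteType k (Polynomial C.B1) :=
    Algebra.FiniteType.trans (S := C.B1) ‹_› inferInstance
  refine h.of_surjective ((Polynomial.aeval (R := C.B1) C.y).restrictScalars k) fun z => ?_
  obtain ⟨n, hn⟩ := C.loc1 z
  refine ⟨Polynomial.C ⟨_, hn⟩ * Polynomial.X ^ n, ?_⟩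
  show Polynomial.aeval C.y _ = z
  rw [map_mul, map_pow, Polynomial.aeval_C, Polynomial.aeval_X]
  show z * C.x ^ n * C.y ^ n = z
  rw [mul_assoc, ← mul_pow, C.x_mul_y, one_pow, mul_one]

theorem x_not_const (c : k) : C.x ≠ algebraMap k C.B12 c := by
  intro h
  have hx : C.x ∈ C.B2 := h ▸ C.B2.algebraMap_mem c
  have h2 := congrArg C.aug (Subtype.ext C.x_mul_y : (⟨C.x, hx⟩ : C.B2) * ⟨C.y, C.y_mem⟩ = 1)
  rw [map_mul, C.aug_y, mul_zero, map_one] at h2
  exact zero_ne_one h2

theorem y_not_const (c : k) : C.y ≠ algebraMap k C.B12 c := by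
  intro h
  have h0 := C.aug_y
  rw [show (⟨C.y, C.y_mem⟩ : C.B2) = algebraMap k C.B2 c from Subtype.ext h, AlgHom.commutes] at h0
  have := C.x_mul_y
  rw [h, show c = 0 from h0, map_zero, mul_zero] at this
  exact zero_ne_one this

theorem ker_aug_ne_bot : RingHom.ker C.aug ≠ ⊥ := fun h => C.y_not_const 0 (by
  have : (⟨C.y, C.y_mem⟩ : C.B2) ∈ (⊥ : Ideal C.B2) := h ▸ RingHom.mem_ker.2 C.aug_y
  simpa using congrArg Subtype.val (Submodule.mem_bot _ |>.1 this))

theorem ker_comp_ne_bot1 (π : C.B12 →ₐ[k] k) : RingHom.ker (π.comp C.B1.val) ≠ ⊥ := fun h =>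
  C.x_not_const (π C.x) (by
    have : (⟨C.x, C.x_mem⟩ - algebraMap k C.B1 (π C.x) : C.B1) ∈ (⊥ : Ideal C.B1) :=
      h ▸ RingHom.mem_ker.2 (by simp)
    simpa [sub_eq_zero] using congrArg Subtype.val (Submodule.mem_bot _ |>.1 this))

theorem ker_comp_ne_bot2 (π : C.B12 →ₐ[k] k) : RingHom.ker (π.comp C.B2.val) ≠ ⊥ := fun h =>
  C.y_not_const (π C.y) (by
    have : (⟨C.y, C.y_mem⟩ - algebraMap k C.B2 (π C.y) : C.B2) ∈ (⊥ : Ideal C.B2) :=
      h ▸ RingHom.mem_ker.2 (by simp)
    simpa [sub_eq_zero] using congrArg Subtype.val (Submodule.mem_bot _ |>.1 this))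

/-- The ideal of a point of the overlap, as a lattice. -/
def ptSub (π : C.B12 →ₐ[k] k) : Submodule C.B12 C.Frac :=
  Submodule.map (Algebra.linearMap C.B12 C.Frac) (RingHom.ker π)

theorem up_idealSub_ker (π : C.B12 →ₐ[k] k) (B : Subalgebra k C.B12) (t : C.B12) (_ht : t ∈ B)
    (hu : IsUnit t) (hloc : ∀ z, ∃ n : ℕ, z * t ^ n ∈ B) :
    C.up B (C.idealSub B (RingHom.ker (π.comp B.val))) = C.ptSub π := by
  refine le_antisymm (Submodule.span_le.2 ?_) ?_
  · rintro _ ⟨_, ⟨b, hb, rfl⟩, rfl⟩
    exact ⟨b, hb, rfl⟩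
  · rintro _ ⟨z, hz, rfl⟩
    obtain ⟨n, hn⟩ := hloc z
    obtain ⟨w, hw⟩ := hu.pow n
    have hmem : algebraMap C.B12 C.Frac (z * t ^ n) ∈
        C.up B (C.idealSub B (RingHom.ker (π.comp B.val))) := by
      refine Submodule.subset_span ⟨_, C.mem_idealSub.2 ⟨⟨_, hn⟩, ?_, rfl⟩, rfl⟩
      rw [RingHom.mem_ker]
      show π (z * t ^ n) = 0
      rw [map_mul, RingHom.mem_ker.1 hz, zero_mul]
    have e : (Algebra.linearMap C.B12 C.Frac) z =
        (↑w⁻¹ : C.B12) • algebraMap C.B12 C.Frac (z * t ^ n) := by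
      rw [Algebra.smul_def, ← map_mul, ← hw, mul_comm z, ← mul_assoc, Units.inv_mul, one_mul]
      rfl
    rw [e]
    exact Submodule.smul_mem _ _ hmem

theorem up_idealSub_ker_aug : C.up C.B2 (C.idealSub C.B2 (RingHom.ker C.aug)) = 1 := by
  refine le_antisymm (Submodule.span_le.2 ?_) (Submodule.one_le.2 ?_)
  · rintro _ ⟨_, ⟨b, hb, rfl⟩, rfl⟩
    exact Submodule.algebraMap_mem (b : C.B12)
  · have hy : algebraMap C.B12 C.Frac C.y ∈ C.up C.B2 (C.idealSub C.B2 (RingHom.ker C.aug)) :=
      Submodule.subset_span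
        ⟨_, C.mem_idealSub.2 ⟨⟨C.y, C.y_mem⟩, RingHom.mem_ker.2 C.aug_y, rfl⟩, rfl⟩
    have e : (1 : C.Frac) = C.x • algebraMap C.B12 C.Frac C.y := by
      rw [Algebra.smul_def, ← map_mul, C.x_mul_y, map_one]
    rw [e]
    exact Submodule.smul_mem _ _ hy

variable (A : Type u) [CommRing A] [Algebra k A]

/-- The extension of an ideal of functions. -/
abbrev extIdeal {B : Subalgebra k C.B12} (I : Ideal B) : Ideal (C.sub A B) :=
  Ideal.map (C.inclSub A B) I

variable {A}

theorem comap_ext_idealSub {B : Subalgebra k C.B12} (I : Ideal B) :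
    (C.ext A B (C.idealSub B I)).comap (Algebra.linearMap (C.sub A B) (C.RF A)) =
      C.extIdeal A I := by
  have hle : Submodule.map (Algebra.linearMap (C.sub A B) (C.RF A)) (C.extIdeal A I) =
      C.ext A B (C.idealSub B I) := by
    show Submodule.map _ (Submodule.span (C.sub A B) (C.inclSub A B '' I)) =
      Submodule.span (C.sub A B) _
    rw [Submodule.map_span, Set.image_image]
    congr 1
    ext z
    constructor
    · rintro ⟨b, hb, rfl⟩
      exact ⟨_, C.mem_idealSub.2 ⟨b, hb, rfl⟩, rfl⟩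
    · rintro ⟨_, hj, rfl⟩
      obtain ⟨b, hb, rfl⟩ := C.mem_idealSub.1 hj
      exact ⟨b, hb, rfl⟩
  rw [← hle, Submodule.comap_map_eq_of_injective
    (show Function.Injective (Algebra.linearMap (C.sub A B) (C.RF A)) from
      FaithfulSMul.algebraMap_injective (C.sub A B) (C.RF A))]

variable (A) in
/-- A rational point of the overlap over `A`. -/
abbrev ptA (π : C.B12 →ₐ[k] k) : C.R12 A →ₐ[A] A := evalPoint A π

theorem comap_ext12_ptSub (π : C.B12 →ₐ[k] k) :
    (C.ext12 A (C.ptSub π)).comap (Algebra.linearMap (C.R12 A) (C.RF A)) =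
      RingHom.ker (C.ptA A π) := by
  have hle : Submodule.map (Algebra.linearMap (C.R12 A) (C.RF A)) (RingHom.ker (C.ptA A π)) =
      C.ext12 A (C.ptSub π) := by
    refine le_antisymm ?_ (Submodule.span_le.2 ?_)
    · rintro _ ⟨r, hr, rfl⟩
      have h : ∀ r : C.R12 A,
          algebraMap (C.R12 A) (C.RF A) (r - algebraMap A (C.R12 A) (C.ptA A π r)) ∈
            C.ext12 A (C.ptSub π) := fun r => by
        induction r using TensorProduct.induction_on with
        | zero => simp
        | tmul a z =>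
          have e : (a ⊗ₜ z : C.R12 A) - algebraMap A (C.R12 A) (C.ptA A π (a ⊗ₜ z)) =
              a ⊗ₜ (z - algebraMap k C.B12 (π z)) := by
            rw [evalPoint_tmul, TensorProduct.tmul_sub, Algebra.TensorProduct.algebraMap_apply,
              Algebra.algebraMap_self, RingHom.id_apply, TensorProduct.smul_tmul,
              Algebra.algebraMap_eq_smul_one]
          rw [e, C.algebraMap_RF_tmul]
          exact C.tmul_mem_ext12 (J := C.ptSub π) (Submodule.mem_map_of_mem
            (RingHom.mem_ker.2 (by simp))) a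
        | add v w hv hw =>
          rw [map_add, map_add, add_sub_add_comm, map_add]
          exact add_mem hv hw
      simpa [RingHom.mem_ker.1 hr] using h r
    · rintro _ ⟨_, ⟨z, hz, rfl⟩, rfl⟩
      exact ⟨1 ⊗ₜ z, RingHom.mem_ker.2 (by simp [RingHom.mem_ker.1 hz]), rfl⟩
  rw [← hle, Submodule.comap_map_eq_of_injective
    (show Function.Injective (Algebra.linearMap (C.R12 A) (C.RF A)) from C.algebraMap_RF_injective)]

theorem extIdeal_ker_eq {B : Subalgebra k C.B12} (χ : B →ₐ[k] k) (ρ : C.sub A B →ₐ[A] A)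
    (hρ : ∀ (a : A) (b : B), ρ (C.subEquiv A B (a ⊗ₜ b)) = χ b • a) :
    C.extIdeal A (RingHom.ker χ) = RingHom.ker ρ := by
  refine le_antisymm (Ideal.map_le_iff_le_comap.2 fun b hb => ?_) fun r hr => ?_
  · rw [Ideal.mem_comap, RingHom.mem_ker]
    exact (hρ 1 b).trans (by rw [RingHom.mem_ker.1 hb, zero_smul])
  · obtain ⟨w, rfl⟩ := (C.subEquiv A B).surjective r
    have h : ∀ w : A ⊗[k] B, C.subEquiv A B w -
        algebraMap A (C.sub A B) (ρ (C.subEquiv A B w)) ∈ C.extIdeal A (RingHom.ker χ) :=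
        fun w => by
      induction w using TensorProduct.induction_on with
      | zero => simp
      | tmul a b =>
        have e : C.subEquiv A B (a ⊗ₜ b) -
            algebraMap A (C.sub A B) (ρ (C.subEquiv A B (a ⊗ₜ b))) =
            algebraMap A (C.sub A B) a * C.inclSub A B (b - algebraMap k B (χ b)) := by
          apply Subtype.ext
          rw [hρ]
          show a ⊗ₜ (b : C.B12) - algebraMap A (C.R12 A) (χ b • a) =
            algebraMap A (C.R12 A) a * ((1 : A) ⊗ₜ ((b : C.B12) - algebraMap k C.B12 (χ b)))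
          rw [Algebra.TensorProduct.algebraMap_apply, Algebra.TensorProduct.algebraMap_apply,
            Algebra.algebraMap_self, RingHom.id_apply, RingHom.id_apply,
            Algebra.TensorProduct.tmul_mul_tmul, one_mul, mul_one, TensorProduct.tmul_sub,
            TensorProduct.smul_tmul, Algebra.algebraMap_eq_smul_one]
        rw [e]
        exact Ideal.mul_mem_left _ _ (Ideal.mem_map_of_mem _ (by simp [RingHom.mem_ker]))
      | add v w hv hw =>
        rw [map_add, map_add, map_add, add_sub_add_comm]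
        exact add_mem hv hw
    simpa [RingHom.mem_ker.1 hr] using h w

theorem extIdeal_ker_comp (π : C.B12 →ₐ[k] k) (B : Subalgebra k C.B12) :
    C.extIdeal A (RingHom.ker (π.comp B.val)) =
      RingHom.ker ((C.ptA A π).comp (C.sub A B).val) :=
  C.extIdeal_ker_eq _ _ fun a b => by
    show C.ptA A π (a ⊗ₜ (b : C.B12)) = _
    rw [evalPoint_tmul]
    rfl

theorem extIdeal_ker_aug : C.extIdeal A (RingHom.ker C.aug) = RingHom.ker (C.augA A) :=
  C.extIdeal_ker_eq _ _ fun a b => C.augA_subEquiv_tmul a b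

end CurveRings

namespace Twist

variable (C : CurveRings k)

/-- The point at infinity. -/
def infty : Twist C where
  J1 := 1
  J2 := (show IsUnit (C.idealSub C.B2 (RingHom.ker C.aug)) from
    have := C.isDedekind2
    C.isUnit_idealSub C.ker_aug_ne_bot).unit
  compat := by rw [Units.val_one, map_one, IsUnit.unit_spec, C.up_idealSub_ker_aug]

variable {C}

/-- A rational point of the overlap. -/
def point (π : C.B12 →ₐ[k] k) : Twist C where
  J1 := (show IsUnit (C.idealSub C.B1 (RingHom.ker (π.comp C.B1.val))) from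
    have := C.isDedekind1
    C.isUnit_idealSub (C.ker_comp_ne_bot1 π)).unit
  J2 := (show IsUnit (C.idealSub C.B2 (RingHom.ker (π.comp C.B2.val))) from
    have := C.isDedekind2
    C.isUnit_idealSub (C.ker_comp_ne_bot2 π)).unit
  compat := by
    rw [IsUnit.unit_spec, IsUnit.unit_spec,
      C.up_idealSub_ker π C.B1 C.x C.x_mem (.of_mul_eq_one _ C.x_mul_y) C.loc1,
      C.up_idealSub_ker π C.B2 C.y C.y_mem (.of_mul_eq_one _ (by rw [mul_comm, C.x_mul_y])) C.loc2]

theorem infty_J12 : (infty C).J12 = 1 := map_one _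

theorem point_J12 (π : C.B12 →ₐ[k] k) : (point π).J12.1 = C.ptSub π :=
  C.up_idealSub_ker π C.B1 C.x C.x_mem (.of_mul_eq_one _ C.x_mul_y) C.loc1

variable (A : Type u) [CommRing A] [Algebra k A]

theorem infty_J12A : ((infty C).J12A A).1 = 1 := by
  rw [J12A, infty_J12, map_one, Units.val_one]

theorem point_J12A (π : C.B12 →ₐ[k] k) : ((point π).J12A A).1 = C.ext12 A (C.ptSub π) := by
  show C.ext12 A (point π).J12.1 = _
  rw [point_J12]

theorem comap_infty1 : ((infty C).J1A A).1.comap (Algebra.linearMap (C.R1 A) (C.RF A)) = ⊤ := by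
  refine eq_top_iff.2 fun r _ => ?_
  show algebraMap (C.R1 A) (C.RF A) r ∈ C.ext A C.B1 (1 : (Submodule C.B1 C.Frac)ˣ).1
  rw [Units.val_one, map_one]
  exact Submodule.algebraMap_mem r

theorem comap_infty2 : ((infty C).J2A A).1.comap (Algebra.linearMap (C.R2 A) (C.RF A)) =
    RingHom.ker (C.augA A) :=
  (C.comap_ext_idealSub _).trans C.extIdeal_ker_aug

theorem comap_infty12 :
    ((infty C).J12A A).1.comap (Algebra.linearMap (C.R12 A) (C.RF A)) = ⊤ := by
  refine eq_top_iff.2 fun r _ => ?_
  rw [Submodule.mem_comap, infty_J12A]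
  exact Submodule.algebraMap_mem r

theorem comap_point1 (π : C.B12 →ₐ[k] k) :
    ((point π).J1A A).1.comap (Algebra.linearMap (C.R1 A) (C.RF A)) =
      RingHom.ker ((C.ptA A π).comp (C.R1 A).val) :=
  (C.comap_ext_idealSub _).trans (C.extIdeal_ker_comp π C.B1)

theorem comap_point2 (π : C.B12 →ₐ[k] k) :
    ((point π).J2A A).1.comap (Algebra.linearMap (C.R2 A) (C.RF A)) =
      RingHom.ker ((C.ptA A π).comp (C.R2 A).val) :=
  (C.comap_ext_idealSub _).trans (C.extIdeal_ker_comp π C.B2)

theorem comap_point12 (π : C.B12 →ₐ[k] k) :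
    ((point π).J12A A).1.comap (Algebra.linearMap (C.R12 A) (C.RF A)) =
      RingHom.ker (C.ptA A π) := by
  rw [point_J12A]
  exact C.comap_ext12_ptSub π

theorem infty_J12A_le : ((infty C).J12A A).1 ≤ 1 := (infty_J12A A).le

theorem point_J12A_le (π : C.B12 →ₐ[k] k) : ((point π).J12A A).1 ≤ 1 := by
  rw [point_J12A]
  refine Submodule.span_le.2 ?_
  rintro _ ⟨_, ⟨z, -, rfl⟩, rfl⟩
  exact Submodule.algebraMap_mem (1 ⊗ₜ z : C.R12 A)

theorem ext_idealSub_le {B : Subalgebra k C.B12} (I : Ideal B) :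
    C.ext A B (C.idealSub B I) ≤ 1 := by
  rw [← map_one (C.ext A B)]
  exact Submodule.span_mono (Set.image_mono (C.idealSub_le_one I))

end Twist

namespace Glued

variable {C : CurveRings k} {A : Type u} [CommRing A] [Algebra k A] (M : Glued C A) (D : Twist C)
  (hD : (D.J12A A).1 ≤ 1)

/-- An element of an integral lattice as a function. -/
def integralFun (hD : (D.J12A A).1 ≤ 1) : (D.J12A A).1 →ₗ[C.R12 A] C.R12 A :=
  (LinearEquiv.ofInjective (Algebra.linearMap (C.R12 A) (C.RF A))
    C.algebraMap_RF_injective).symm.toLinearMap ∘ₗ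
    Submodule.inclusion (hD.trans Submodule.one_eq_range.le)

theorem algebraMap_integralFun (a : (D.J12A A).1) :
    algebraMap (C.R12 A) (C.RF A) (integralFun D hD a) = a :=
  LinearEquiv.ofInjective_symm_apply (f := Algebra.linearMap (C.R12 A) (C.RF A))
    (h := C.algebraMap_RF_injective) (Submodule.inclusion (hD.trans Submodule.one_eq_range.le) a)

/-- The sections of an effective twist inside the sections of the bundle. -/
def toBase (hD : (D.J12A A).1 ≤ 1) : M.TwistCarrier D →ₗ[C.R12 A] M.carrier :=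
  (TensorProduct.rid (C.R12 A) M.carrier).toLinearMap ∘ₗ (integralFun D hD).lTensor M.carrier

@[simp] theorem toBase_tmul (m : M.carrier) (a : (D.J12A A).1) :
    M.toBase D hD (m ⊗ₜ a) = integralFun D hD a • m := by
  simp [toBase]

theorem toBase_injective : Function.Injective (M.toBase D hD) :=
  (TensorProduct.rid (C.R12 A) M.carrier).injective.comp
    (Module.Flat.lTensor_preserves_injective_linearMap (M := M.carrier) _ fun a b h =>
      Subtype.ext (by rw [← algebraMap_integralFun D hD a, h, algebraMap_integralFun]))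

theorem range_toBase : LinearMap.range (M.toBase D hD) =
    (D.J12A A).1.comap (Algebra.linearMap (C.R12 A) (C.RF A)) •
      (⊤ : Submodule (C.R12 A) M.carrier) := by
  refine le_antisymm ?_ (Submodule.smul_le.2 fun r hr m _ => ?_)
  · rintro _ ⟨w, rfl⟩
    induction w using TensorProduct.induction_on with
    | zero => simp
    | tmul m a =>
      rw [toBase_tmul]
      refine Submodule.smul_mem_smul ?_ Submodule.mem_top
      rw [Submodule.mem_comap, Algebra.linearMap_apply, algebraMap_integralFun]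
      exact a.2
    | add v w hv hw => rw [map_add]; exact add_mem hv hw
  · refine ⟨m ⊗ₜ ⟨_, hr⟩, ?_⟩
    rw [toBase_tmul]
    congr 1
    exact C.algebraMap_RF_injective (algebraMap_integralFun D hD _)

theorem map_toBase_twistLattice {B : Subalgebra A (C.R12 A)} (J : Submodule B (C.RF A))
    (hJ : J ≤ 1) (hJ' : ∀ a ∈ J, a ∈ (D.J12A A).1) (N : Submodule B M.carrier) :
    (M.twistLattice D J N).map ((M.toBase D hD).restrictScalars B) =
      J.comap (Algebra.linearMap B (C.RF A)) • N := by
  refine le_antisymm ?_ (Submodule.smul_le.2 fun r hr n hn => ?_)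
  · rintro _ ⟨w, hw, rfl⟩
    induction hw using Submodule.span_induction with
    | mem w hw =>
      obtain ⟨a, ha, m, hm, rfl⟩ := hw
      obtain ⟨r, hr⟩ := Submodule.mem_one.1 (hJ ha)
      have e : integralFun D hD a = (r : C.R12 A) :=
        C.algebraMap_RF_injective ((algebraMap_integralFun D hD a).trans hr.symm)
      show M.toBase D hD (m ⊗ₜ a) ∈ _
      rw [toBase_tmul, e]
      exact Submodule.smul_mem_smul (r := r)
        (show algebraMap B (C.RF A) r ∈ J by rw [hr]; exact ha) hm
    | zero => rw [map_zero]; exact zero_mem _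
    | add v w _ _ hv hw => rw [map_add]; exact add_mem hv hw
    | smul r w _ hw => rw [map_smul]; exact Submodule.smul_mem _ r hw
  · refine ⟨n ⊗ₜ ⟨_, hJ' _ hr⟩, M.tmul_mem_twistLattice D hr hn, ?_⟩
    show M.toBase D hD _ = _
    rw [toBase_tmul, Subalgebra.smul_def]
    congr 1
    exact C.algebraMap_RF_injective (algebraMap_integralFun D hD _)

theorem map_toBase_M1 (h1 : (D.J1A A).1 ≤ 1) :
    (M.twistLattice D (D.J1A A).1 M.M1).map ((M.toBase D hD).restrictScalars (C.R1 A)) =
      (D.J1A A).1.comap (Algebra.linearMap (C.R1 A) (C.RF A)) • M.M1 :=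
  M.map_toBase_twistLattice D hD _ h1 (fun _ => D.mem12_of_mem1) _

theorem map_toBase_M2 (h2 : (D.J2A A).1 ≤ 1) :
    (M.twistLattice D (D.J2A A).1 M.M2).map ((M.toBase D hD).restrictScalars (C.R2 A)) =
      (D.J2A A).1.comap (Algebra.linearMap (C.R2 A) (C.RF A)) • M.M2 :=
  M.map_toBase_twistLattice D hD _ h2 (fun _ => D.mem12_of_mem2) _

theorem map_toBase_M2O (h2 : (D.J2A A).1 ≤ 1) :
    (RingHom.ker (C.augA A) • M.twistLattice D (D.J2A A).1 M.M2).map
        ((M.toBase D hD).restrictScalars (C.R2 A)) =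
      (D.J2A A).1.comap (Algebra.linearMap (C.R2 A) (C.RF A)) • M.M2O := by
  rw [Submodule.map_smul'', M.map_toBase_M2 D hD h2, ← Submodule.mul_smul, mul_comm,
    Submodule.mul_smul]
  rfl

end Glued

end Fermat.Agent.Row24.Chart

end
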